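import Fermat.Agent.Ribet.H704.I6Core
import Fermat.Agent.A2.H609.ChartNode
import Fermat.Agent.A2.Alg.H132.ChartFacts

/-!
# RIBET wall-p, I6 instantiation leaf INST-A: chart → node ring (helper132)

Board: `origin/helper704:coord/RIBET-I6-helper704.md` §9.  The leaves NODE / WPUR / ETNODE of
`Ribet/H704/I6Spec.lean` are statements about an abstract *node ring* (`I6.IsNode`).  This file
produces the node ring of a semistable chart at a crossing point.

* `exists_uniformiser_mem`  : in a local ring with `P₁ ⊔ P₂ = 𝔪` and `O ⧸ P₁` a discrete valuation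
  ring, some element of `P₂` is a uniformiser of `O ⧸ P₁`.
* `isNode_of_uniformisers`  : the structure `I6.IsNode` from the local data of
  `A2.H372.node_local_data` and two branch uniformisers.
* `exists_isNode_locAt`     : `B` a noetherian integrally closed domain with fraction field `F`,
  `p₁ ⊓ p₂ = (w)`, `B ⧸ pᵢ` Dedekind, `p₁ ⊔ p₂` radical, `n ⊇ p₁ + p₂` prime: the local ring
  `B_n = A2.H849.locAt F n ⊆ F` is a node ring, with uniformisers `x ∈ p₂`, `y ∈ p₁` taken in `B`.
  (`B_n` is a noetherian integrally closed local domain with fraction field `F`: instances of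
  `A2.H849` / `A2.H609`.)
* `exists_isNode_chart`     : the same for a chart of `A2.SSChart` in the setting `Alg.ChartCtx`
  of wall A2 (all instances derived from the chart hypotheses).

Mathlib + landed A2 files only; no completion, no hypothesis on the thickness.
-/

set_option autoImplicit false
set_option linter.unusedSectionVars false
set_option linter.style.haveILetI false

namespace Fermat.Agent.Ribet.H132

open Fermat.Agent.Ribet.H704 Fermat.Agent.A2 Fermat.Agent.A2.H849

section Abstract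

variable {O : Type*} [CommRing O] [IsLocalRing O]

/-- In a local ring with `P₁ ⊔ P₂ = 𝔪` and `O ⧸ P₁` a discrete valuation ring, some element of
`P₂` is a uniformiser of the branch `O ⧸ P₁`. -/
theorem exists_uniformiser_mem (P₁ P₂ : Ideal O) [P₁.IsPrime]
    [IsDiscreteValuationRing (O ⧸ P₁)]
    (hsup : P₁ ⊔ P₂ = IsLocalRing.maximalIdeal O) :
    ∃ x ∈ P₂, Irreducible (Ideal.Quotient.mk P₁ x) := by
  obtain ⟨ϖ, hϖ⟩ := IsDiscreteValuationRing.exists_irreducible (O ⧸ P₁)
  obtain ⟨z, rfl⟩ := Ideal.Quotient.mk_surjective ϖ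
  have hz : z ∈ IsLocalRing.maximalIdeal O := by
    rw [IsLocalRing.mem_maximalIdeal, mem_nonunits_iff]
    exact fun h => hϖ.not_isUnit (h.map _)
  rw [← hsup] at hz
  obtain ⟨a, ha, x, hx, rfl⟩ := Submodule.mem_sup.1 hz
  refine ⟨x, hx, ?_⟩
  have : Ideal.Quotient.mk P₁ (a + x) = Ideal.Quotient.mk P₁ x := by
    rw [map_add, Ideal.Quotient.eq_zero_iff_mem.2 ha, zero_add]
  rwa [this] at hϖ

/-- The structure `I6.IsNode` from the local data at a crossing point and two branch
uniformisers. -/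
theorem isNode_of_uniformisers (P₁ P₂ : Ideal O) (π x y : O) [hP₁ : P₁.IsPrime]
    [hP₂ : P₂.IsPrime] [IsDiscreteValuationRing (O ⧸ P₁)] [IsDiscreteValuationRing (O ⧸ P₂)]
    (hinf : P₁ ⊓ P₂ = Ideal.span {π}) (hsup : P₁ ⊔ P₂ = IsLocalRing.maximalIdeal O)
    (hx : x ∈ P₂) (hxi : Irreducible (Ideal.Quotient.mk P₁ x))
    (hy : y ∈ P₁) (hyi : Irreducible (Ideal.Quotient.mk P₂ y)) :
    I6.IsNode P₁ P₂ π x y where
  prime₁ := hP₁
  prime₂ := hP₂
  inf_eq := hinf
  sup_eq := hsup
  hx := hx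
  hy := hy
  unif₁ := fun _ ha =>
    IsDiscreteValuationRing.associated_pow_irreducible
      (fun h => ha (Ideal.Quotient.eq_zero_iff_mem.1 h)) hxi
  unif₂ := fun _ ha =>
    IsDiscreteValuationRing.associated_pow_irreducible
      (fun h => ha (Ideal.Quotient.eq_zero_iff_mem.1 h)) hyi
  hx₁ := fun h => hxi.ne_zero (Ideal.Quotient.eq_zero_iff_mem.2 h)
  hy₂ := fun h => hyi.ne_zero (Ideal.Quotient.eq_zero_iff_mem.2 h)
  nonunit₁ := hxi.not_isUnit
  nonunit₂ := hyi.not_isUnit

end Abstract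

section LocAt

variable {B : Type*} [CommRing B] [IsDomain B]
variable {F : Type*} [Field F] [Algebra B F] [IsFractionRing B F]

/-- A uniformiser of the branch `B_n ⧸ p B_n` lying in `q B_n` can be taken in `q ⊆ B`. -/
theorem exists_uniformiser_mem_chart (p q n : Ideal B) [n.IsPrime]
    [hp : (p.map (algebraMap B (locAt F n))).IsPrime]
    [IsDiscreteValuationRing (locAt F n ⧸ p.map (algebraMap B (locAt F n)))]
    (hsup : p.map (algebraMap B (locAt F n)) ⊔ q.map (algebraMap B (locAt F n)) =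
      IsLocalRing.maximalIdeal (locAt F n)) :
    ∃ x ∈ q, Irreducible (Ideal.Quotient.mk (p.map (algebraMap B (locAt F n)))
      (algebraMap B (locAt F n) x)) := by
  obtain ⟨z, hz, hzi⟩ := exists_uniformiser_mem _ _ hsup
  obtain ⟨⟨b, s⟩, hbs⟩ := (IsLocalization.mem_map_algebraMap_iff n.primeCompl (locAt F n)).1 hz
  refine ⟨b.1, b.2, ?_⟩
  have hs : IsUnit (algebraMap B (locAt F n) (s : B)) :=
    IsLocalization.map_units (locAt F n) s
  rw [← hbs, map_mul]
  exact (irreducible_mul_isUnit (hs.map _)).2 hzi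

variable [IsNoetherianRing B] [IsIntegrallyClosed B]

/-- **INST-A (abstract chart).**  The local ring `B_n ⊆ F` of a semistable chart at a crossing
point `n ⊇ p₁ + p₂` is a node ring in the sense of `I6.IsNode`, with the uniformiser `w` of the
base and branch uniformisers `x ∈ p₂`, `y ∈ p₁` taken in `B`. -/
theorem exists_isNode_locAt {w : B} (p₁ p₂ n : Ideal B) [p₁.IsPrime] [p₂.IsPrime] [n.IsPrime]
    [IsDedekindDomain (B ⧸ p₁)] [IsDedekindDomain (B ⧸ p₂)]
    (hinf : p₁ ⊓ p₂ = Ideal.span {w}) (h₁₂ : ¬ p₁ ≤ p₂) (h₂₁ : ¬ p₂ ≤ p₁)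
    (htr : (p₁ ⊔ p₂).IsRadical) (h₁ : p₁ ≤ n) (h₂ : p₂ ≤ n) :
    ∃ x y : B, x ∈ p₂ ∧ x ∉ p₁ ∧ y ∈ p₁ ∧ y ∉ p₂ ∧
      I6.IsNode (p₁.map (algebraMap B (locAt F n))) (p₂.map (algebraMap B (locAt F n)))
        (algebraMap B (locAt F n) w) (algebraMap B (locAt F n) x)
        (algebraMap B (locAt F n) y) := by
  obtain ⟨hP₁, hP₂, hinf', hsup', hdvr₁, hdvr₂⟩ :=
    Fermat.Agent.A2.H372.node_local_data (locAt F n) hinf h₁₂ h₂₁ htr h₁ h₂
  rw [IsLocalization.AtPrime.map_eq_maximalIdeal n (locAt F n)] at hsup'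
  haveI := hP₁
  haveI := hP₂
  haveI := hdvr₁
  haveI := hdvr₂
  obtain ⟨x, hx, hxi⟩ := exists_uniformiser_mem_chart (F := F) p₁ p₂ n hsup'
  obtain ⟨y, hy, hyi⟩ := exists_uniformiser_mem_chart (F := F) p₂ p₁ n
    (by rw [sup_comm]; exact hsup')
  have hnode := isNode_of_uniformisers _ _ (algebraMap B (locAt F n) w) _ _ hinf' hsup'
    (Ideal.mem_map_of_mem _ hx) hxi (Ideal.mem_map_of_mem _ hy) hyi
  exact ⟨x, y, hx, fun h => hnode.hx₁ (Ideal.mem_map_of_mem _ h), hy,
    fun h => hnode.hy₂ (Ideal.mem_map_of_mem _ h), hnode⟩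

end LocAt

section Chart

variable {R E F : Type*} [CommRing R] [IsDomain R] [IsDiscreteValuationRing R]
  [Field E] [CharZero E] [Algebra R E] [IsFractionRing R E]
  [Field F] [Algebra E F] [Algebra R F] [IsScalarTower R E F]

/-- **INST-A (chart of wall A2).**  `B` a chart in the setting `Alg.ChartCtx`, semistable with
components `c : SSChart w B`, `n` a crossing point.  Then `B` is a noetherian integrally closed
domain with fraction field `F` and the local ring `B_n = locAt F n ⊆ F` is a node ring with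
uniformiser `w` and branch uniformisers `x ∈ p₂ ∖ p₁`, `y ∈ p₁ ∖ p₂` taken in `B`. -/
theorem exists_isNode_chart (w : R) (x₀ : F) (B : Subalgebra R F) (hC : Alg.ChartCtx E w x₀ B)
    (c : SSChart w B) (n : Ideal B) [n.IsPrime] (h₁ : c.p₁ ≤ n) (h₂ : c.p₂ ≤ n) :
    ∃ (_ : IsNoetherianRing B) (_ : IsIntegrallyClosed B) (_ : IsFractionRing B F) (x y : B),
      x ∈ c.p₂ ∧ x ∉ c.p₁ ∧ y ∈ c.p₁ ∧ y ∉ c.p₂ ∧
      I6.IsNode (c.p₁.map (algebraMap B (locAt F n))) (c.p₂.map (algebraMap B (locAt F n)))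
        (algebraMap B (locAt F n) (algebraMap R B w)) (algebraMap B (locAt F n) x)
        (algebraMap B (locAt F n) y) := by
  obtain ⟨hnoeth, hic, hfr⟩ := Fermat.Agent.A2.Alg.H34.chart_instances' w x₀ B hC
  haveI := hnoeth
  haveI := hic
  haveI := hfr
  haveI := c.prime₁
  haveI := c.prime₂
  haveI : IsDedekindDomain (B ⧸ c.p₁) :=
    Fermat.Agent.A2.Alg.H132.isDedekindDomain_quotient_p₁ w x₀ B hC c
  haveI : IsDedekindDomain (B ⧸ c.p₂) :=
    Fermat.Agent.A2.Alg.H132.isDedekindDomain_quotient_p₂ w x₀ B hC c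
  obtain ⟨x, y, hx, hx', hy, hy', hnode⟩ := exists_isNode_locAt (F := F) c.p₁ c.p₂ n c.inf_eq
    c.not_le₁₂ c.not_le₂₁ c.transversal h₁ h₂
  exact ⟨hnoeth, hic, hfr, x, y, hx, hx', hy, hy', hnode⟩

end Chart

end Fermat.Agent.Ribet.H132
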