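import Fermat.Agent.Ribet.H704.I6Core
import Fermat.Agent.A2.Alg.H132.Vert
import Fermat.Agent.A2.Alg.H132.HorDVR
import Mathlib.RingTheory.Ideal.KrullsHeightTheorem

/-!
# RIBET wall-p, I6: the node-ring library for the assembly (helper132)

`R` a noetherian integrally closed local domain with fraction field `K`, `hN : I6.IsNode 𝔭₁ 𝔭₂ π x y`
(a node ring in the sense of `Ribet/H704/I6Spec.lean`).  The assembly of (S4) (`I6Core.i6core`)
consumes FUNCTIONS `W₁ W₂ S : K → ℤ` (branch valuations and slope).  This file provides them.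

## Branch valuations (any `VertData π 𝔭 𝔮`, e.g. both branches of a node ring)
* `valAt_iff`        : `I6.ValAt K 𝔭 π u v ↔ u π ^ (-v)` is a unit of the valuation subring `R_𝔭`
                       (`A2.Alg.H132.vertVal`);
* `exists_valAt`, `valAt_unique`, `valAt_mul`, `valAt_inv`, `valAt_pi`, `valAt_of_notMem`;
* `branchVal h : K → ℤ` with `branchVal_spec`, `branchVal_mul`, `branchVal_eq`, `branchVal_eq_iff`;
* `branchVal_map`, `branchVal_comap` : transport along field isomorphisms (SHEETS) and field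
  inclusions (covers).

## Slopes (node rings)
* `ordOn_unique`, `ordOn_mul`, `exists_slopeAt`, `slopeAt_unique`, `slopeAt_mul`, `slopeAt_inv`,
  `slopeAt_of_ordOn`, `slopeAt_pi`;
* `BranchData π 𝔭 𝔮 ϖ`, `branchSlope h : K → ℤ` with `branchSlope_spec`, `branchSlope_mul`,
  `branchSlope_eq`; `branchData_left/right`, `vertData_left/right` for a node ring.

## Horizontal divisibility
* `horizontal_height_one` : a prime of a node ring not containing `π` has height `≤ 1`;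
* `horDiv_of_divisible`, `horDivFrac_of_divisible` : `I6.HorDiv` / `I6.HorDivFrac` from
  "`u` is locally a unit times an `m`-th power at every discrete valuation ring of `K` containing
  `R[1/π]`" (the shape of `A2.DivisibleDiv` and of `hdiv` in `A2.H609.exists_pureAt_node`).

Mathlib + `A2.H849` only.
-/

set_option autoImplicit false
set_option linter.unusedSectionVars false
set_option linter.style.haveILetI false

namespace Fermat.Agent.Ribet.H132

open Fermat.Agent.Ribet.H704 Fermat.Agent.A2.H849 Fermat.Agent.A2.Alg.H132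

section Branch

variable {R : Type*} [CommRing R] [IsDomain R] [IsNoetherianRing R] [IsIntegrallyClosed R]
variable {K : Type*} [Field K] [Algebra R K] [IsFractionRing R K]
variable {π : R} {𝔭 𝔮 : Ideal R}

/-- A unit of `R_𝔭` is a fraction of two elements outside `𝔭`. -/
theorem exists_frac_of_unit_vertVal (h : VertData π 𝔭 𝔮) {ε : K} (hε : ε ∈ vertVal (F := K) h)
    (hε' : ε⁻¹ ∈ vertVal (F := K) h) (hε0 : ε ≠ 0) :
    ∃ a b : R, a ∉ 𝔭 ∧ b ∉ 𝔭 ∧ ε * algebraMap R K b = algebraMap R K a := by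
  have hp := h.prime
  obtain ⟨a, s, hs, has⟩ := (mem_vertVal_iff h ε).1 hε
  obtain ⟨a', s', hs', has'⟩ := (mem_vertVal_iff h ε⁻¹).1 hε'
  have hs0 : algebraMap R K s ≠ 0 := algebraMap_ne_zero (fun h0 => hs (h0 ▸ 𝔭.zero_mem))
  have hs'0 : algebraMap R K s' ≠ 0 := algebraMap_ne_zero (fun h0 => hs' (h0 ▸ 𝔭.zero_mem))
  refine ⟨a, s, ?_, hs, ?_⟩
  · intro ha
    have e : a * a' = s * s' := by
      apply IsFractionRing.injective R K
      have h1 : (algebraMap R K a * (algebraMap R K s)⁻¹) *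
          (algebraMap R K a' * (algebraMap R K s')⁻¹) = 1 := by
        rw [← has, ← has']
        exact mul_inv_cancel₀ hε0
      rw [map_mul, map_mul]
      field_simp at h1
      linear_combination h1
    have : s * s' ∈ 𝔭 := e ▸ 𝔭.mul_mem_right _ ha
    exact (hp.mem_or_mem this).elim hs hs'
  · rw [has]
    field_simp

/-- `ValAt` in terms of the valuation subring `R_𝔭`. -/
theorem valAt_iff (h : VertData π 𝔭 𝔮) (u : K) (v : ℤ) :
    I6.ValAt K 𝔭 π u v ↔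
      u * (algebraMap R K π) ^ (-v) ∈ vertVal (F := K) h ∧
        (u * (algebraMap R K π) ^ (-v))⁻¹ ∈ vertVal (F := K) h ∧ u ≠ 0 := by
  have hp := h.prime
  have hπ : algebraMap R K π ≠ 0 := algebraMap_ne_zero h.w_ne
  constructor
  · rintro ⟨a, b, ha, hb, hab⟩
    have ha0 : algebraMap R K a ≠ 0 := algebraMap_ne_zero (fun h0 => ha (h0 ▸ 𝔭.zero_mem))
    have hb0 : algebraMap R K b ≠ 0 := algebraMap_ne_zero (fun h0 => hb (h0 ▸ 𝔭.zero_mem))
    have e : u * (algebraMap R K π) ^ (-v) = algebraMap R K a * (algebraMap R K b)⁻¹ := by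
      have : u = (algebraMap R K π) ^ v * algebraMap R K a * (algebraMap R K b)⁻¹ := by
        rw [← hab]; field_simp
      rw [this, zpow_neg]
      field_simp
    have hu0 : u ≠ 0 := by
      rintro rfl
      rw [zero_mul] at hab
      exact mul_ne_zero (zpow_ne_zero _ hπ) ha0 hab.symm
    refine ⟨?_, ?_, hu0⟩
    · rw [e]
      exact mul_mem (algebraMap_mem_vertVal h a) (inv_mem_vertVal h hb)
    · rw [e, mul_inv, inv_inv, mul_comm]
      exact mul_mem (algebraMap_mem_vertVal h b) (inv_mem_vertVal h ha)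
  · rintro ⟨h1, h2, hu0⟩
    obtain ⟨a, b, ha, hb, hab⟩ := exists_frac_of_unit_vertVal h h1 h2
      (mul_ne_zero hu0 (zpow_ne_zero _ hπ))
    refine ⟨a, b, ha, hb, ?_⟩
    rw [← hab, zpow_neg]
    field_simp

/-- Every nonzero element of `K` has a valuation along the branch `𝔭`. -/
theorem exists_valAt (h : VertData π 𝔭 𝔮) {u : K} (hu : u ≠ 0) : ∃ v : ℤ, I6.ValAt K 𝔭 π u v := by
  obtain ⟨n, h1, h2⟩ := exists_zpow_mul_unit (F := K) h hu
  refine ⟨-n, (valAt_iff h u (-n)).2 ⟨?_, ?_, hu⟩⟩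
  · rwa [neg_neg]
  · rwa [neg_neg]

theorem valAt_ne_zero (h : VertData π 𝔭 𝔮) {u : K} {v : ℤ} (hv : I6.ValAt K 𝔭 π u v) : u ≠ 0 :=
  ((valAt_iff h u v).1 hv).2.2

/-- The valuation along a branch is unique. -/
theorem valAt_unique (h : VertData π 𝔭 𝔮) {u : K} {v v' : ℤ} (hv : I6.ValAt K 𝔭 π u v)
    (hv' : I6.ValAt K 𝔭 π u v') : v = v' := by
  have hp := h.prime
  have hπ : algebraMap R K π ≠ 0 := algebraMap_ne_zero h.w_ne
  -- it suffices to exclude `v < v'` for any two representations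
  have key : ∀ {v v' : ℤ}, I6.ValAt K 𝔭 π u v → I6.ValAt K 𝔭 π u v' → ¬ v < v' := by
    rintro v v' ⟨a, b, ha, hb, hab⟩ ⟨a', b', ha', hb', hab'⟩ hlt
    obtain ⟨k, hk⟩ : ∃ k : ℕ, v' = v + (k + 1 : ℕ) := by
      obtain ⟨k, hk⟩ := Int.eq_ofNat_of_zero_le (by omega : 0 ≤ v' - v - 1)
      exact ⟨k, by push_cast; omega⟩
    have hb0 : algebraMap R K b ≠ 0 := algebraMap_ne_zero (fun h0 => hb (h0 ▸ 𝔭.zero_mem))
    have hb'0 : algebraMap R K b' ≠ 0 := algebraMap_ne_zero (fun h0 => hb' (h0 ▸ 𝔭.zero_mem))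
    have e : a * b' = π ^ (k + 1) * a' * b := by
      apply IsFractionRing.injective R K
      simp only [map_mul, map_pow]
      have h1 : (algebraMap R K π) ^ v * algebraMap R K a * algebraMap R K b' =
          (algebraMap R K π) ^ v' * algebraMap R K a' * algebraMap R K b := by
        rw [← hab, ← hab']; ring
      rw [hk, zpow_add₀ hπ, zpow_natCast] at h1
      have h2 := mul_left_cancel₀ (zpow_ne_zero v hπ)
        (by linear_combination h1 :
          (algebraMap R K π) ^ v * (algebraMap R K a * algebraMap R K b') =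
          (algebraMap R K π) ^ v * ((algebraMap R K π) ^ (k + 1) * algebraMap R K a' *
            algebraMap R K b))
      exact h2
    have hmem : a * b' ∈ 𝔭 := by
      rw [e, mul_assoc, pow_succ, mul_assoc]
      exact 𝔭.mul_mem_left _ (𝔭.mul_mem_right _ h.w_mem)
    exact (hp.mem_or_mem hmem).elim ha hb'
  rcases lt_trichotomy v v' with hlt | heq | hgt
  · exact absurd hlt (key hv hv')
  · exact heq
  · exact absurd hgt (key hv' hv)

theorem valAt_mul (h : VertData π 𝔭 𝔮) {u u' : K} {v v' : ℤ} (hv : I6.ValAt K 𝔭 π u v)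
    (hv' : I6.ValAt K 𝔭 π u' v') : I6.ValAt K 𝔭 π (u * u') (v + v') := by
  have hp := h.prime
  have hπ : algebraMap R K π ≠ 0 := algebraMap_ne_zero h.w_ne
  obtain ⟨a, b, ha, hb, hab⟩ := hv
  obtain ⟨a', b', ha', hb', hab'⟩ := hv'
  refine ⟨a * a', b * b', fun hm => (hp.mem_or_mem hm).elim ha ha',
    fun hm => (hp.mem_or_mem hm).elim hb hb', ?_⟩
  rw [map_mul, map_mul, zpow_add₀ hπ]
  linear_combination (u' * algebraMap R K b') * hab +
    ((algebraMap R K π) ^ v * algebraMap R K a) * hab'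

theorem valAt_inv (h : VertData π 𝔭 𝔮) {u : K} {v : ℤ} (hv : I6.ValAt K 𝔭 π u v) :
    I6.ValAt K 𝔭 π u⁻¹ (-v) := by
  have hp := h.prime
  have hπ : algebraMap R K π ≠ 0 := algebraMap_ne_zero h.w_ne
  have hu0 := valAt_ne_zero h hv
  obtain ⟨a, b, ha, hb, hab⟩ := hv
  have ha0 : algebraMap R K a ≠ 0 := algebraMap_ne_zero (fun h0 => ha (h0 ▸ 𝔭.zero_mem))
  refine ⟨b, a, hb, ha, ?_⟩
  have hz : (algebraMap R K π) ^ v ≠ 0 := zpow_ne_zero _ hπ
  rw [zpow_neg]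
  field_simp
  linear_combination -hab

theorem valAt_of_notMem (h : VertData π 𝔭 𝔮) {a : R} (ha : a ∉ 𝔭) :
    I6.ValAt K 𝔭 π (algebraMap R K a) 0 :=
  ⟨a, 1, ha, fun h1 => h.prime.ne_top ((Ideal.eq_top_iff_one _).2 h1), by simp⟩

theorem valAt_one (h : VertData π 𝔭 𝔮) : I6.ValAt K 𝔭 π (1 : K) 0 := by
  have := valAt_of_notMem (K := K) h (a := 1)
    (fun h1 => h.prime.ne_top ((Ideal.eq_top_iff_one _).2 h1))
  rwa [map_one] at this

theorem valAt_pi (h : VertData π 𝔭 𝔮) : I6.ValAt K 𝔭 π (algebraMap R K π) 1 := by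
  have h1 : (1 : R) ∉ 𝔭 := fun h1 => h.prime.ne_top ((Ideal.eq_top_iff_one _).2 h1)
  exact ⟨1, 1, h1, h1, by simp⟩

theorem valAt_pow (h : VertData π 𝔭 𝔮) {u : K} {v : ℤ} (hv : I6.ValAt K 𝔭 π u v) (n : ℕ) :
    I6.ValAt K 𝔭 π (u ^ n) (n * v) := by
  induction n with
  | zero => simpa using valAt_one (K := K) h
  | succ n ih =>
    rw [pow_succ]
    have := valAt_mul h ih hv
    have e : (n : ℤ) * v + v = ((n + 1 : ℕ) : ℤ) * v := by push_cast; ring
    rwa [e] at this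

open Classical in
/-- The valuation of `K` along the branch `𝔭` (normalised by `π ↦ 1`; junk value `0` at `0`). -/
noncomputable def branchVal (h : VertData π 𝔭 𝔮) (u : K) : ℤ :=
  if hu : u = 0 then 0 else (exists_valAt (K := K) h hu).choose

theorem branchVal_spec (h : VertData π 𝔭 𝔮) {u : K} (hu : u ≠ 0) :
    I6.ValAt K 𝔭 π u (branchVal h u) := by
  unfold branchVal
  rw [dif_neg hu]
  exact (exists_valAt (K := K) h hu).choose_spec

theorem branchVal_eq (h : VertData π 𝔭 𝔮) {u : K} {v : ℤ} (hv : I6.ValAt K 𝔭 π u v) :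
    branchVal h u = v :=
  valAt_unique h (branchVal_spec h (valAt_ne_zero h hv)) hv

theorem branchVal_mul (h : VertData π 𝔭 𝔮) (a b : K) (ha : a ≠ 0) (hb : b ≠ 0) :
    branchVal h (a * b) = branchVal h a + branchVal h b :=
  branchVal_eq h (valAt_mul h (branchVal_spec h ha) (branchVal_spec h hb))

theorem branchVal_pi (h : VertData π 𝔭 𝔮) : branchVal h (algebraMap R K π) = 1 :=
  branchVal_eq h (valAt_pi h)

/-- `branchVal` is determined by the valuation subring `R_𝔭` and the uniformiser `π`. -/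
theorem branchVal_eq_iff (h : VertData π 𝔭 𝔮) {u : K} (hu : u ≠ 0) (v : ℤ) :
    branchVal h u = v ↔
      u * (algebraMap R K π) ^ (-v) ∈ vertVal (F := K) h ∧
        (u * (algebraMap R K π) ^ (-v))⁻¹ ∈ vertVal (F := K) h := by
  constructor
  · rintro rfl
    have := (valAt_iff h u _).1 (branchVal_spec h hu)
    exact ⟨this.1, this.2.1⟩
  · rintro ⟨h1, h2⟩
    exact branchVal_eq h ((valAt_iff h u v).2 ⟨h1, h2, hu⟩)

end Branch

section Transport

variable {R : Type*} [CommRing R] [IsDomain R] [IsNoetherianRing R] [IsIntegrallyClosed R]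
variable {R' : Type*} [CommRing R'] [IsDomain R'] [IsNoetherianRing R'] [IsIntegrallyClosed R']
variable {K : Type*} [Field K] [Algebra R K] [IsFractionRing R K]
variable {K' : Type*} [Field K'] [Algebra R' K'] [IsFractionRing R' K']
variable {π : R} {𝔭 𝔮 : Ideal R} {π' : R'} {𝔭' 𝔮' : Ideal R'}

/-- **Transport of branch valuations** (for SHEETS and for base change): if a field isomorphism
`σ : K ≃+* K'` maps the valuation subring `R_𝔭` onto `R'_𝔭'` and `π` to `π'`, then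
`branchVal h' (σ u) = branchVal h u`. -/
theorem branchVal_map (h : VertData π 𝔭 𝔮) (h' : VertData π' 𝔭' 𝔮') (σ : K ≃+* K')
    (hσ : ∀ z : K, z ∈ vertVal (F := K) h ↔ σ z ∈ vertVal (F := K') h')
    (hπ : σ (algebraMap R K π) = algebraMap R' K' π') (u : K) :
    branchVal h' (σ u) = branchVal h u := by
  by_cases hu : u = 0
  · subst hu
    simp [branchVal]
  have hσu : σ u ≠ 0 := fun h0 => hu (by simpa using h0)
  rw [branchVal_eq_iff h' hσu]
  obtain ⟨h1, h2⟩ := (branchVal_eq_iff h hu (branchVal h u)).1 rfl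
  have e : σ u * (algebraMap R' K' π') ^ (-branchVal h u) =
      σ (u * (algebraMap R K π) ^ (-branchVal h u)) := by
    rw [map_mul, map_zpow₀, hπ]
  rw [e]
  refine ⟨(hσ _).1 h1, ?_⟩
  rw [← map_inv₀]
  exact (hσ _).1 h2

/-- Transport along an inclusion of fields `K → K'` (base ring `R ⊆ R'`, e.g. a cover): if the
valuation subring `R'_𝔭'` contracts to `R_𝔭` and `π ↦ π'`, then `branchVal h' (φ u) =
branchVal h u`  (the extension is unramified along the branch). -/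
theorem branchVal_comap (h : VertData π 𝔭 𝔮) (h' : VertData π' 𝔭' 𝔮') (φ : K →+* K')
    (hφ : ∀ z : K, z ∈ vertVal (F := K) h → φ z ∈ vertVal (F := K') h')
    (hπ : φ (algebraMap R K π) = algebraMap R' K' π') (u : K) :
    branchVal h' (φ u) = branchVal h u := by
  by_cases hu : u = 0
  · subst hu
    simp [branchVal]
  have hφu : φ u ≠ 0 := fun h0 => hu ((map_eq_zero φ).1 h0)
  rw [branchVal_eq_iff h' hφu]
  obtain ⟨h1, h2⟩ := (branchVal_eq_iff h hu (branchVal h u)).1 rfl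
  have e : φ u * (algebraMap R' K' π') ^ (-branchVal h u) =
      φ (u * (algebraMap R K π) ^ (-branchVal h u)) := by
    rw [map_mul, map_zpow₀, hπ]
  rw [e]
  refine ⟨hφ _ h1, ?_⟩
  rw [← map_inv₀]
  exact hφ _ h2

end Transport

/-! ## Orders on a branch and slopes -/

section Ord

variable {R : Type*} [CommRing R]

theorem ordOn_mul {𝔭 : Ideal R} {ϖ a b : R} {i j : ℕ} (hi : I6.OrdOn 𝔭 ϖ a i)
    (hj : I6.OrdOn 𝔭 ϖ b j) : I6.OrdOn 𝔭 ϖ (a * b) (i + j) := by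
  unfold I6.OrdOn at *
  rw [map_mul, pow_add]
  exact hi.mul_mul hj

theorem ordOn_one {𝔭 : Ideal R} {ϖ : R} : I6.OrdOn 𝔭 ϖ 1 0 := by
  unfold I6.OrdOn
  rw [map_one, pow_zero]

/-- The order on a branch is unique. -/
theorem ordOn_unique {𝔭 : Ideal R} [h𝔭 : 𝔭.IsPrime] {ϖ a : R} (hϖ : ϖ ∉ 𝔭)
    (hnu : ¬ IsUnit (Ideal.Quotient.mk 𝔭 ϖ)) {i j : ℕ} (hi : I6.OrdOn 𝔭 ϖ a i)
    (hj : I6.OrdOn 𝔭 ϖ a j) : i = j := by
  have hq0 : Ideal.Quotient.mk 𝔭 ϖ ≠ 0 := fun h => hϖ (Ideal.Quotient.eq_zero_iff_mem.1 h)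
  have hass : Associated ((Ideal.Quotient.mk 𝔭 ϖ) ^ i) ((Ideal.Quotient.mk 𝔭 ϖ) ^ j) :=
    hi.symm.trans hj
  have key : ∀ {i j : ℕ}, i ≤ j →
      Associated ((Ideal.Quotient.mk 𝔭 ϖ) ^ i) ((Ideal.Quotient.mk 𝔭 ϖ) ^ j) → i = j := by
    intro i j hij h
    obtain ⟨c, hc⟩ := h
    obtain ⟨k, rfl⟩ := Nat.exists_eq_add_of_le hij
    rw [pow_add] at hc
    have h2 := mul_left_cancel₀ (pow_ne_zero i hq0) hc
    by_contra hne
    have hk : k ≠ 0 := fun h0 => hne (by rw [h0, add_zero])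
    exact hnu ((isUnit_pow_iff hk).1 (h2 ▸ c.isUnit))
  rcases le_total i j with hij | hji
  · exact key hij hass
  · exact (key hji hass.symm).symm

end Ord

section Slope

variable {R : Type*} [CommRing R] [IsDomain R] [IsNoetherianRing R] [IsIntegrallyClosed R]
variable {K : Type*} [Field K] [Algebra R K] [IsFractionRing R K]
variable {π ϖ : R} {𝔭 𝔮 : Ideal R}

/-- A branch `𝔭` of the special fibre `π = 0` (complementary ideal `𝔮`) with a uniformiser `ϖ` of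
the discrete valuation ring `R ⧸ 𝔭`. -/
structure BranchData (π : R) (𝔭 𝔮 : Ideal R) (ϖ : R) : Prop where
  vert : VertData π 𝔭 𝔮
  notMem : ϖ ∉ 𝔭
  nonunit : ¬ IsUnit (Ideal.Quotient.mk 𝔭 ϖ)
  unif : ∀ a : R, a ∉ 𝔭 → ∃ s : ℕ, I6.OrdOn 𝔭 ϖ a s

theorem exists_slopeAt (h : BranchData π 𝔭 𝔮 ϖ) {u : K} (hu : u ≠ 0) :
    ∃ s : ℤ, I6.SlopeAt K 𝔭 π ϖ u s := by
  obtain ⟨v, a, b, ha, hb, hab⟩ := exists_valAt (K := K) h.vert hu
  obtain ⟨i, hi⟩ := h.unif a ha
  obtain ⟨j, hj⟩ := h.unif b hb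
  exact ⟨(i : ℤ) - j, v, a, b, i, j, ha, hb, hab, hi, hj, rfl⟩

theorem slopeAt_ne_zero (h : BranchData π 𝔭 𝔮 ϖ) {u : K} {s : ℤ}
    (hs : I6.SlopeAt K 𝔭 π ϖ u s) : u ≠ 0 := by
  obtain ⟨v, a, b, i, j, ha, hb, hab, -, -, -⟩ := hs
  exact valAt_ne_zero h.vert ⟨a, b, ha, hb, hab⟩

theorem slopeAt_unique (h : BranchData π 𝔭 𝔮 ϖ) {u : K} {s s' : ℤ}
    (hs : I6.SlopeAt K 𝔭 π ϖ u s) (hs' : I6.SlopeAt K 𝔭 π ϖ u s') : s = s' := by
  have hp := h.vert.prime
  have hπ : algebraMap R K π ≠ 0 := algebraMap_ne_zero h.vert.w_ne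
  obtain ⟨v, a, b, i, j, ha, hb, hab, hi, hj, rfl⟩ := hs
  obtain ⟨v', a', b', i', j', ha', hb', hab', hi', hj', rfl⟩ := hs'
  have hv : v = v' := valAt_unique h.vert ⟨a, b, ha, hb, hab⟩ ⟨a', b', ha', hb', hab'⟩
  subst hv
  have e : a * b' = a' * b := by
    apply IsFractionRing.injective R K
    simp only [map_mul]
    have h1 : (algebraMap R K π) ^ v * (algebraMap R K a * algebraMap R K b') =
        (algebraMap R K π) ^ v * (algebraMap R K a' * algebraMap R K b) := by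
      linear_combination (-algebraMap R K b') * hab + (algebraMap R K b) * hab'
    exact mul_left_cancel₀ (zpow_ne_zero v hπ) h1
  have h1 : I6.OrdOn 𝔭 ϖ (a * b') (i + j') := ordOn_mul hi hj'
  have h2 : I6.OrdOn 𝔭 ϖ (a * b') (i' + j) := e ▸ ordOn_mul hi' hj
  have := ordOn_unique h.notMem h.nonunit h1 h2
  omega

theorem slopeAt_mul (h : BranchData π 𝔭 𝔮 ϖ) {u u' : K} {s s' : ℤ}
    (hs : I6.SlopeAt K 𝔭 π ϖ u s) (hs' : I6.SlopeAt K 𝔭 π ϖ u' s') :
    I6.SlopeAt K 𝔭 π ϖ (u * u') (s + s') := by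
  have hp := h.vert.prime
  have hπ : algebraMap R K π ≠ 0 := algebraMap_ne_zero h.vert.w_ne
  obtain ⟨v, a, b, i, j, ha, hb, hab, hi, hj, rfl⟩ := hs
  obtain ⟨v', a', b', i', j', ha', hb', hab', hi', hj', rfl⟩ := hs'
  refine ⟨v + v', a * a', b * b', i + i', j + j', fun hm => (hp.mem_or_mem hm).elim ha ha',
    fun hm => (hp.mem_or_mem hm).elim hb hb', ?_, ordOn_mul hi hi', ordOn_mul hj hj', ?_⟩
  · rw [map_mul, map_mul, zpow_add₀ hπ]
    linear_combination (u' * algebraMap R K b') * hab +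
      ((algebraMap R K π) ^ v * algebraMap R K a) * hab'
  · push_cast; ring

theorem slopeAt_inv (h : BranchData π 𝔭 𝔮 ϖ) {u : K} {s : ℤ}
    (hs : I6.SlopeAt K 𝔭 π ϖ u s) : I6.SlopeAt K 𝔭 π ϖ u⁻¹ (-s) := by
  have hu0 := slopeAt_ne_zero h hs
  obtain ⟨v, a, b, i, j, ha, hb, hab, hi, hj, rfl⟩ := hs
  obtain ⟨a₁, b₁, ha₁, hb₁, hab₁⟩ := valAt_inv h.vert ⟨a, b, ha, hb, hab⟩
  have hπ : algebraMap R K π ≠ 0 := algebraMap_ne_zero h.vert.w_ne
  have hz : (algebraMap R K π) ^ v ≠ 0 := zpow_ne_zero _ hπ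
  refine ⟨-v, b, a, j, i, hb, ha, ?_, hj, hi, by ring⟩
  rw [zpow_neg]
  field_simp
  linear_combination -hab

theorem slopeAt_one (h : BranchData π 𝔭 𝔮 ϖ) : I6.SlopeAt K 𝔭 π ϖ (1 : K) 0 := by
  have h1 : (1 : R) ∉ 𝔭 := fun h1 => h.vert.prime.ne_top ((Ideal.eq_top_iff_one _).2 h1)
  exact ⟨0, 1, 1, 0, 0, h1, h1, by simp, ordOn_one, ordOn_one, by simp⟩

theorem slopeAt_pi (h : BranchData π 𝔭 𝔮 ϖ) : I6.SlopeAt K 𝔭 π ϖ (algebraMap R K π) 0 := by
  have h1 : (1 : R) ∉ 𝔭 := fun h1 => h.vert.prime.ne_top ((Ideal.eq_top_iff_one _).2 h1)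
  exact ⟨1, 1, 1, 0, 0, h1, h1, by simp, ordOn_one, ordOn_one, by simp⟩

/-- The slope of an element of `R ∖ 𝔭` is its order on the branch. -/
theorem slopeAt_of_ordOn (h : BranchData π 𝔭 𝔮 ϖ) {a : R} (ha : a ∉ 𝔭) {i : ℕ}
    (hi : I6.OrdOn 𝔭 ϖ a i) : I6.SlopeAt K 𝔭 π ϖ (algebraMap R K a) i := by
  have h1 : (1 : R) ∉ 𝔭 := fun h1 => h.vert.prime.ne_top ((Ideal.eq_top_iff_one _).2 h1)
  exact ⟨0, a, 1, i, 0, ha, h1, by simp, hi, ordOn_one, by simp⟩

theorem slopeAt_pow (h : BranchData π 𝔭 𝔮 ϖ) {u : K} {s : ℤ}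
    (hs : I6.SlopeAt K 𝔭 π ϖ u s) (n : ℕ) : I6.SlopeAt K 𝔭 π ϖ (u ^ n) (n * s) := by
  induction n with
  | zero => simpa using slopeAt_one (K := K) h
  | succ n ih =>
    rw [pow_succ]
    have := slopeAt_mul h ih hs
    have e : (n : ℤ) * s + s = ((n + 1 : ℕ) : ℤ) * s := by push_cast; ring
    rwa [e] at this

open Classical in
/-- The slope of `u ∈ Kˣ` along the branch `𝔭` at the closed point (junk value `0` at `0`). -/
noncomputable def branchSlope (h : BranchData π 𝔭 𝔮 ϖ) (u : K) : ℤ :=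
  if hu : u = 0 then 0 else (exists_slopeAt (K := K) h hu).choose

theorem branchSlope_spec (h : BranchData π 𝔭 𝔮 ϖ) {u : K} (hu : u ≠ 0) :
    I6.SlopeAt K 𝔭 π ϖ u (branchSlope h u) := by
  unfold branchSlope
  rw [dif_neg hu]
  exact (exists_slopeAt (K := K) h hu).choose_spec

theorem branchSlope_eq (h : BranchData π 𝔭 𝔮 ϖ) {u : K} {s : ℤ}
    (hs : I6.SlopeAt K 𝔭 π ϖ u s) : branchSlope h u = s :=
  slopeAt_unique h (branchSlope_spec h (slopeAt_ne_zero h hs)) hs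

theorem branchSlope_mul (h : BranchData π 𝔭 𝔮 ϖ) (a b : K) (ha : a ≠ 0) (hb : b ≠ 0) :
    branchSlope h (a * b) = branchSlope h a + branchSlope h b :=
  branchSlope_eq h (slopeAt_mul h (branchSlope_spec h ha) (branchSlope_spec h hb))

end Slope

/-! ## Node rings -/

section Node

variable {R : Type*} [CommRing R] [IsDomain R] [IsLocalRing R]
variable {𝔭₁ 𝔭₂ : Ideal R} {π x y : R}

omit [IsDomain R] in
/-- The two branches of a node play symmetric roles. -/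
theorem isNode_symm (hN : I6.IsNode 𝔭₁ 𝔭₂ π x y) : I6.IsNode 𝔭₂ 𝔭₁ π y x where
  prime₁ := hN.prime₂
  prime₂ := hN.prime₁
  inf_eq := by rw [inf_comm]; exact hN.inf_eq
  sup_eq := by rw [sup_comm]; exact hN.sup_eq
  hx := hN.hy
  hy := hN.hx
  unif₁ := hN.unif₂
  unif₂ := hN.unif₁
  hx₁ := hN.hy₂
  hy₂ := hN.hx₁
  nonunit₁ := hN.nonunit₂
  nonunit₂ := hN.nonunit₁

theorem isNode_pi_ne_zero (hN : I6.IsNode 𝔭₁ 𝔭₂ π x y) : π ≠ 0 := by
  rintro rfl
  have hxy : x * y ∈ 𝔭₁ ⊓ 𝔭₂ := ⟨𝔭₁.mul_mem_left _ hN.hy, 𝔭₂.mul_mem_right _ hN.hx⟩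
  rw [hN.inf_eq, Ideal.mem_span_singleton, zero_dvd_iff] at hxy
  rcases mul_eq_zero.1 hxy with h0 | h0
  · exact hN.hx₁ (h0 ▸ 𝔭₁.zero_mem)
  · exact hN.hy₂ (h0 ▸ 𝔭₂.zero_mem)

theorem vertData_left (hN : I6.IsNode 𝔭₁ 𝔭₂ π x y) : VertData π 𝔭₁ 𝔭₂ where
  prime := hN.prime₁
  w_ne := isNode_pi_ne_zero hN
  not_le := fun h => hN.hx₁ (h hN.hx)
  inf_eq := hN.inf_eq

theorem vertData_right (hN : I6.IsNode 𝔭₁ 𝔭₂ π x y) : VertData π 𝔭₂ 𝔭₁ :=
  vertData_left (isNode_symm hN)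

variable [IsNoetherianRing R] [IsIntegrallyClosed R]

/-- The first branch of a node ring, with its uniformiser `x`. -/
theorem branchData_left (hN : I6.IsNode 𝔭₁ 𝔭₂ π x y) : BranchData π 𝔭₁ 𝔭₂ x where
  vert := vertData_left hN
  notMem := hN.hx₁
  nonunit := hN.nonunit₁
  unif := hN.unif₁

/-- The second branch of a node ring, with its uniformiser `y`. -/
theorem branchData_right (hN : I6.IsNode 𝔭₁ 𝔭₂ π x y) : BranchData π 𝔭₂ 𝔭₁ y :=
  branchData_left (isNode_symm hN)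

/-! ### Horizontal primes of a node ring have height one -/

omit [IsDomain R] [IsNoetherianRing R] [IsIntegrallyClosed R] in
/-- `𝔪 = 𝔭₁ + (x)`. -/
theorem isNode_mem_sup_span (hN : I6.IsNode 𝔭₁ 𝔭₂ π x y) {z : R}
    (hz : z ∈ IsLocalRing.maximalIdeal R) : z ∈ 𝔭₁ ⊔ Ideal.span {x} := by
  have hp := hN.prime₁
  by_cases hz₁ : z ∈ 𝔭₁
  · exact Ideal.mem_sup_left hz₁
  obtain ⟨s, hs⟩ := hN.unif₁ z hz₁
  have hs0 : s ≠ 0 := by
    rintro rfl
    unfold I6.OrdOn at hs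
    rw [pow_zero] at hs
    have hu : IsUnit (Ideal.Quotient.mk 𝔭₁ z) := hs.symm.isUnit isUnit_one
    obtain ⟨c, hc⟩ := hu.exists_right_inv
    obtain ⟨c, rfl⟩ := Ideal.Quotient.mk_surjective c
    rw [← map_mul, ← map_one (Ideal.Quotient.mk 𝔭₁), Ideal.Quotient.eq] at hc
    have h1 : z * c - 1 ∈ IsLocalRing.maximalIdeal R := IsLocalRing.le_maximalIdeal hp.ne_top hc
    have h2 : z * c ∈ IsLocalRing.maximalIdeal R := Ideal.mul_mem_right _ _ hz
    have h3 : (1 : R) ∈ IsLocalRing.maximalIdeal R := by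
      have : (1 : R) = z * c - (z * c - 1) := by ring
      rw [this]
      exact Ideal.sub_mem _ h2 h1
    exact (Ideal.ne_top_iff_one _).1 (IsLocalRing.maximalIdeal.isMaximal R).ne_top h3
  obtain ⟨c, hc⟩ := hs.symm
  obtain ⟨c', hc'⟩ := Ideal.Quotient.mk_surjective (c : R ⧸ 𝔭₁)
  obtain ⟨k, rfl⟩ := Nat.exists_eq_succ_of_ne_zero hs0
  have e : Ideal.Quotient.mk 𝔭₁ z = Ideal.Quotient.mk 𝔭₁ (x ^ (k + 1) * c') := by
    rw [map_mul, map_pow, hc', hc]
  rw [Ideal.Quotient.eq] at e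
  have : z = (z - x ^ (k + 1) * c') + x * (x ^ k * c') := by ring
  rw [this]
  exact Ideal.add_mem _ (Ideal.mem_sup_left e)
    (Ideal.mem_sup_right (Ideal.mul_mem_right _ _ (Ideal.mem_span_singleton_self x)))

omit [IsDomain R] [IsNoetherianRing R] [IsIntegrallyClosed R] in
/-- The maximal ideal of a node ring is a minimal prime over `(π, x + y)`. -/
theorem isNode_maximalIdeal_mem_minimalPrimes (hN : I6.IsNode 𝔭₁ 𝔭₂ π x y) :
    IsLocalRing.maximalIdeal R ∈ (Ideal.span ({π, x + y} : Set R)).minimalPrimes := by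
  have hπ₁ : π ∈ 𝔭₁ := (inf_le_left : 𝔭₁ ⊓ 𝔭₂ ≤ 𝔭₁) (hN.inf_eq ▸ Ideal.mem_span_singleton_self π)
  have hle₁ : 𝔭₁ ≤ IsLocalRing.maximalIdeal R := IsLocalRing.le_maximalIdeal hN.prime₁.ne_top
  have hle₂ : 𝔭₂ ≤ IsLocalRing.maximalIdeal R := IsLocalRing.le_maximalIdeal hN.prime₂.ne_top
  refine ⟨⟨(IsLocalRing.maximalIdeal.isMaximal R).isPrime, ?_⟩, ?_⟩
  · rw [Ideal.span_le]
    rintro z (rfl | rfl)
    · exact hle₁ hπ₁
    · exact Ideal.add_mem _ (hle₂ hN.hx) (hle₁ hN.hy)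
  · rintro Q ⟨hQ, hQle⟩ -
    have hπQ : π ∈ Q := hQle (Ideal.subset_span (by simp))
    have hxyQ : x + y ∈ Q := hQle (Ideal.subset_span (by simp))
    have hinf : 𝔭₁ ⊓ 𝔭₂ ≤ Q := by
      rw [hN.inf_eq, Ideal.span_le, Set.singleton_subset_iff]
      exact hπQ
    -- the symmetric statement
    have key : ∀ {𝔭₁ 𝔭₂ : Ideal R} {x y : R}, I6.IsNode 𝔭₁ 𝔭₂ π x y → x + y ∈ Q → 𝔭₁ ≤ Q →
        IsLocalRing.maximalIdeal R ≤ Q := by
      intro 𝔭₁ 𝔭₂ x y hN hxy h₁ z hz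
      have hx : x ∈ Q := by
        have : x = (x + y) - y := by ring
        rw [this]
        exact Q.sub_mem hxy (h₁ hN.hy)
      have := isNode_mem_sup_span hN hz
      exact (sup_le h₁ ((Ideal.span_singleton_le_iff_mem Q).2 hx)) this
    rcases (Ideal.IsPrime.inf_le hQ).1 hinf with h₁ | h₂
    · exact key hN hxyQ h₁
    · exact key (isNode_symm hN) (by rwa [add_comm]) h₂

omit [IsDomain R] [IsIntegrallyClosed R] in
theorem isNode_height_le_two (hN : I6.IsNode 𝔭₁ 𝔭₂ π x y) :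
    (IsLocalRing.maximalIdeal R).height ≤ 2 := by
  classical
  have h := Ideal.height_le_card_of_mem_minimalPrimes_span_finset
    (p := IsLocalRing.maximalIdeal R) (s := ({π, x + y} : Finset R))
    (by
      have : ((({π, x + y} : Finset R) : Set R)) = ({π, x + y} : Set R) := by simp
      rw [this]
      exact isNode_maximalIdeal_mem_minimalPrimes hN)
  refine h.trans ?_
  have : ({π, x + y} : Finset R).card ≤ 2 := Finset.card_le_two
  exact_mod_cast this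

omit [IsIntegrallyClosed R] in
/-- A prime of a node ring which does not contain `π` has height `≤ 1`. -/
theorem horizontal_height_one (hN : I6.IsNode 𝔭₁ 𝔭₂ π x y) (𝔓 : Ideal R) [h𝔓 : 𝔓.IsPrime]
    (hπ : π ∉ 𝔓) : ∀ Q : Ideal R, Q.IsPrime → Q ≠ ⊥ → Q ≤ 𝔓 → Q = 𝔓 := by
  intro Q hQ hQ0 hQ𝔓
  by_contra hne
  have hlt₂ : Q < 𝔓 := lt_of_le_of_ne hQ𝔓 hne
  have hlt₁ : (⊥ : Ideal R) < Q := bot_lt_iff_ne_bot.2 hQ0
  have hπ₁ : π ∈ 𝔭₁ := (inf_le_left : 𝔭₁ ⊓ 𝔭₂ ≤ 𝔭₁) (hN.inf_eq ▸ Ideal.mem_span_singleton_self π)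
  have hπm : π ∈ IsLocalRing.maximalIdeal R := IsLocalRing.le_maximalIdeal hN.prime₁.ne_top hπ₁
  have hlt₃ : 𝔓 < IsLocalRing.maximalIdeal R :=
    lt_of_le_of_ne (IsLocalRing.le_maximalIdeal h𝔓.ne_top) (fun h => hπ (h ▸ hπm))
  haveI : (⊥ : Ideal R).IsPrime := Ideal.isPrime_bot
  haveI := hQ
  have h1 := Ideal.height_strict_mono_of_isPrime_of_isPrime hlt₁
  have h2 := Ideal.height_strict_mono_of_isPrime_of_isPrime hlt₂
  have h3 := Ideal.height_strict_mono_of_isPrime_of_isPrime hlt₃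
  have h4 := isNode_height_le_two hN
  have hfin : (IsLocalRing.maximalIdeal R).height ≠ ⊤ :=
    ne_top_of_le_ne_top (by simp) h4
  have hfin𝔓 : 𝔓.height ≠ ⊤ := ne_top_of_lt h3
  have hfinQ : Q.height ≠ ⊤ := ne_top_of_lt h2
  have hfin0 : (⊥ : Ideal R).height ≠ ⊤ := ne_top_of_lt h1
  lift (IsLocalRing.maximalIdeal R).height to ℕ using hfin with a
  lift 𝔓.height to ℕ using hfin𝔓 with b
  lift Q.height to ℕ using hfinQ with c
  lift (⊥ : Ideal R).height to ℕ using hfin0 with d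
  norm_cast at h1 h2 h3 h4
  omega

/-- **Horizontal divisibility in a node ring.**  If `u' ∈ R ∖ {0}` equals `u · bᵐ` in `K` and
`u` is a unit times an `m`-th power at every discrete valuation ring of `K` containing
`R[1/π]`, then `u'` is horizontally `m`-divisible. -/
theorem horDiv_of_divisible {K : Type*} [Field K] [Algebra R K] [IsFractionRing R K]
    (hN : I6.IsNode 𝔭₁ 𝔭₂ π x y) {m : ℕ} (hm : m ≠ 0) {u : K} (hu : u ≠ 0) {u' b : R}
    (hu' : algebraMap R K u' = u * algebraMap R K b ^ m)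
    (hdiv : ∀ V : ValuationSubring K, IsDiscreteValuationRing V →
      (∀ r : R, algebraMap R K r ∈ V) → (algebraMap R K π)⁻¹ ∈ V →
      ∃ h u₀ : K, u₀ ∈ V ∧ u₀⁻¹ ∈ V ∧ u = u₀ * h ^ m) :
    I6.HorDiv π m u' := by
  intro 𝔓 h𝔓 hu'𝔓 hπ𝔓
  by_cases h0 : u' = 0
  · exact ⟨0, 1, fun h1 => h𝔓.ne_top ((Ideal.eq_top_iff_one _).2 h1), by
      rw [h0, zero_mul, zero_pow hm]⟩
  have h𝔓0 : 𝔓 ≠ ⊥ := fun hb => h0 (by rw [hb, Ideal.mem_bot] at hu'𝔓; exact hu'𝔓)
  obtain ⟨O, hO⟩ := exists_isLocDVR_of_height_one (F := K) 𝔓 h𝔓0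
    (horizontal_height_one hN 𝔓 hπ𝔓)
  obtain ⟨h, u₀, hu₀, hu₀', huh⟩ := hdiv O hO.dvr hO.le (hO.inv_mem π hπ𝔓)
  have hu₀0 : u₀ ≠ 0 := by
    rintro rfl
    rw [zero_mul] at huh
    exact hu huh
  exact exists_pow_eq_mul_of_isLocDVR hO hm hu' hu₀ hu₀' hu₀0 huh

/-- **`I6.HorDivFrac` from divisibility** (the shape of `A2.DivisibleDiv`). -/
theorem horDivFrac_of_divisible {K : Type*} [Field K] [Algebra R K] [IsFractionRing R K]
    (hN : I6.IsNode 𝔭₁ 𝔭₂ π x y) {m : ℕ} (hm : m ≠ 0) {u : K} (hu : u ≠ 0)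
    (hdiv : ∀ V : ValuationSubring K, IsDiscreteValuationRing V →
      (∀ r : R, algebraMap R K r ∈ V) → (algebraMap R K π)⁻¹ ∈ V →
      ∃ h u₀ : K, u₀ ∈ V ∧ u₀⁻¹ ∈ V ∧ u = u₀ * h ^ m) :
    I6.HorDivFrac K π m u := by
  obtain ⟨a, b, hb, hab⟩ := IsFractionRing.div_surjective (A := R) u
  have hb0 : b ≠ 0 := nonZeroDivisors.ne_zero hb
  have hbK : algebraMap R K b ≠ 0 := algebraMap_ne_zero hb0
  have hub : u * algebraMap R K b = algebraMap R K a := by
    rw [← hab]; field_simp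
  refine ⟨a, b, hb0, hub, horDiv_of_divisible hN hm hu (b := b) ?_ hdiv⟩
  obtain ⟨k, rfl⟩ := Nat.exists_eq_succ_of_ne_zero hm
  rw [Nat.succ_sub_one, map_mul, map_pow, ← hub, pow_succ]
  ring

end Node

end Fermat.Agent.Ribet.H132
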