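import Fermat.Agent.Ribet.H132.WildChartProof
import Fermat.Agent.Ribet.H520.SmoothPure
import Fermat.Agent.Ribet.H472.DictPure

/-!
# RIBET wall-p, (S4) WILD: `WildStatement` from `WildFrameStatement` alone (helper132)

Integration of the three closed leaves of `H704.CoreOut.wild_of`:
`H132.wildChart` (WILD-CHART), `H520.smoothPure` (SMOOTH-PURE), `H472.dictPure` (DICT-PURE).
The only remaining input of WILD is the frame (INST), `H704.CoreOut.WildFrameStatement`.
-/

set_option autoImplicit false

namespace Fermat.Agent.Ribet.H132

open Fermat.Agent.Ribet.H704.CoreOut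

/-- **WILD from the frame.** -/
theorem wild_of_frame (hF : WildFrameStatement) : WildStatement :=
  wild_of hF wildChart Fermat.Agent.Ribet.H520.smoothPure Fermat.Agent.Ribet.H472.dictPure

/-- **CORE-OUT (with NE) from TAME and the frame.** -/
theorem coreOutNE_of_tame_frame (hT : TameStatement) (hF : WildFrameStatement) :
    CoreOutNEStatement :=
  coreOutNE_of_tame_wild hT (wild_of_frame hF)

end Fermat.Agent.Ribet.H132
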