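import Fermat.Agent.Ribet.H704.I6Inst
import Fermat.Agent.Ribet.H600.EtaleNode
import Fermat.Agent.Ribet.H524.WildPurity
import Fermat.Agent.A2.H348.SubLoc

/-!
# RIBET wall-p, I6 spec v3: leaf COVER-NODE, VERBATIM (helper132)

`coverNode : I6.CoverNodeStatement` (frozen in `Ribet/H704/I6Inst.lean`).

Route: WPUR (`H524.wildPurity524`) gives `g d₂^p = d₁^p s^p (1 + λ^p z)`.  Put
`Y := (h d₂ / (d₁ s) - 1) / λ ∈ L`; it is a root of the Artin–Schreier type polynomial `P`
(`exists_asPoly`: `λ^p P = (1 + λ X)^p - 1 - λ^p z`, `P` monic, `P' = ε⁻¹ (1 + λ X)^(p-1)`), and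
`P'(Y)` is a unit of `A := R[Y]` because `(1 + λ Y)^p = 1 + λ^p z ∈ Rˣ`.  `R'` := the localisation
of `A` at a maximal ideal `𝔫`, as a subalgebra of `L` (`A2.H348.locAt`).  The residue field of
`R'` is algebraic over the algebraically closed residue field of `R`, hence equal to it.
ETNODE (`H600.etaleNode`) shows that `R'` is a normal noetherian node ring with the same
`π, x, y`; extended primes contract to themselves (`H600.mem_of_algebraMap_mem_map`).
-/

set_option autoImplicit false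
set_option linter.unusedSectionVars false
set_option linter.style.haveILetI false

open Polynomial

namespace Fermat.Agent.Ribet.H132

open Fermat.Agent.Ribet.H704

/-! ## The Artin–Schreier type polynomial -/

/-- The binomial expansion of `(1 + t) ^ p`, `p` prime: the middle terms are divisible by `p t`. -/
theorem one_add_pow_prime_eq {A : Type*} [CommRing A] {p : ℕ} (hp : p.Prime) (t : A) :
    (1 + t) ^ p = 1 + t ^ p +
      (p : A) * t * ∑ k ∈ Finset.range (p - 1), ((p.choose (k + 1) / p : ℕ) : A) * t ^ k := by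
  obtain ⟨n, rfl⟩ : ∃ n, p = n + 1 := ⟨p - 1, by have := hp.one_lt; omega⟩
  rw [Nat.add_sub_cancel, add_comm (1 : A) t, add_pow]
  simp only [one_pow, mul_one]
  rw [Finset.sum_range_succ, Finset.sum_range_succ']
  simp only [Nat.choose_self, Nat.cast_one, mul_one, pow_zero, Nat.choose_zero_right]
  have hsum : ∑ k ∈ Finset.range n, t ^ (k + 1) * (((n + 1).choose (k + 1) : ℕ) : A) =
      ((n + 1 : ℕ) : A) * t *
        ∑ k ∈ Finset.range n, (((n + 1).choose (k + 1) / (n + 1) : ℕ) : A) * t ^ k := by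
    rw [Finset.mul_sum]
    refine Finset.sum_congr rfl fun k hk => ?_
    rw [Finset.mem_range] at hk
    have hdvd : (n + 1) ∣ (n + 1).choose (k + 1) :=
      hp.dvd_choose_self (Nat.succ_ne_zero k) (by omega)
    have hc : ((n + 1).choose (k + 1) : ℕ) = (n + 1) * ((n + 1).choose (k + 1) / (n + 1)) :=
      (Nat.mul_div_cancel' hdvd).symm
    conv_lhs => rw [hc]
    push_cast
    ring
  rw [hsum]
  ring

/-- **The Artin–Schreier type polynomial** of a wild Kummer equation:
`λ ^ p · P = (1 + λ X) ^ p - 1 - λ ^ p z`, `P` monic of degree `p`, `P' = ε' (1 + λ X) ^ (p - 1)`,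
where `p = λ ^ (p - 1) ε'`. -/
theorem exists_asPoly {R : Type*} [CommRing R] [IsDomain R] {p : ℕ} (hp : p.Prime)
    (lam ε' z : R) (hlam : lam ≠ 0) (hpl : (p : R) = lam ^ (p - 1) * ε') :
    ∃ P : R[X], P.Monic ∧
      C (lam ^ p) * P = (1 + C lam * X) ^ p - 1 - C (lam ^ p * z) ∧
      derivative P = C ε' * (1 + C lam * X) ^ (p - 1) := by
  have hp1 : 1 ≤ p := hp.one_lt.le
  have hidx : p - 1 + 1 = p := by omega
  set S : R[X] := ∑ k ∈ Finset.range (p - 1),
    ((p.choose (k + 1) / p : ℕ) : R[X]) * (C lam * X) ^ k with hS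
  set q : R[X] := C ε' * X * S - C z with hq
  have hSdeg : S.degree < (p - 1 : ℕ) := by
    rw [Polynomial.degree_lt_iff_coeff_zero]
    intro m hm
    rw [hS, Polynomial.finsetSum_coeff]
    refine Finset.sum_eq_zero fun k hk => ?_
    rw [Finset.mem_range] at hk
    rw [mul_pow, ← C_pow, coeff_natCast_mul, coeff_C_mul, coeff_X_pow, if_neg (by omega),
      mul_zero, mul_zero]
  have hqdeg : q.degree < (p : ℕ) := by
    rw [hq]
    refine lt_of_le_of_lt (degree_sub_le _ _) (max_lt ?_ ?_)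
    · refine lt_of_le_of_lt (degree_mul_le _ _) ?_
      have h1 : (C ε' * X : R[X]).degree ≤ 1 :=
        (degree_mul_le _ _).trans (by
          have := degree_C_le (a := ε')
          have h2 : (X : R[X]).degree ≤ 1 := degree_X_le
          calc (C ε').degree + (X : R[X]).degree ≤ 0 + 1 := add_le_add this h2
            _ = 1 := by simp)
      by_cases hS0 : S = 0
      · rw [hS0, degree_zero]
        simp
      have hSn : S.degree = (S.natDegree : WithBot ℕ) := degree_eq_natDegree hS0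
      rw [hSn] at hSdeg ⊢
      have hlt : S.natDegree < p - 1 := by exact_mod_cast hSdeg
      calc (C ε' * X : R[X]).degree + (S.natDegree : WithBot ℕ)
          ≤ 1 + (S.natDegree : WithBot ℕ) := add_le_add h1 le_rfl
        _ < (p : ℕ) := by
          have : 1 + S.natDegree < p := by omega
          exact_mod_cast this
    · refine lt_of_le_of_lt degree_C_le ?_
      exact_mod_cast hp.pos
  set P : R[X] := X ^ p + q with hP
  have hmonic : P.Monic := monic_X_pow_add hqdeg
  have hbin := one_add_pow_prime_eq (A := R[X]) hp (C lam * X)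
  have hpC : (p : R[X]) = C (lam ^ (p - 1)) * C ε' := by
    rw [← C_mul, ← hpl]
    simp
  have hlp : lam ^ p = lam ^ (p - 1) * lam := by
    conv_lhs => rw [← hidx]
    rw [pow_succ]
  have hmain : C (lam ^ p) * P = (1 + C lam * X) ^ p - 1 - C (lam ^ p * z) := by
    rw [hbin, hP, hq, ← hS, hpC, mul_pow, ← C_pow, C_mul, hlp, C_mul]
    ring
  clear_value P
  refine ⟨P, hmonic, hmain, ?_⟩
  have hC0 : C (lam ^ p) ≠ (0 : R[X]) := by
    rw [Ne, C_eq_zero]
    exact pow_ne_zero _ hlam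
  have hder := congrArg derivative hmain
  have hL : derivative (C (lam ^ p) * P) = C (lam ^ p) * derivative P := by
    rw [derivative_mul, derivative_C, zero_mul, zero_add]
  have hR : derivative ((1 + C lam * X) ^ p - 1 - C (lam ^ p * z)) =
      C (p : R) * (1 + C lam * X) ^ (p - 1) * C lam := by
    rw [derivative_sub, derivative_sub, derivative_C, derivative_one, sub_zero, sub_zero,
      derivative_pow, derivative_add, derivative_one, zero_add, derivative_mul, derivative_C,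
      zero_mul, zero_add, derivative_X, mul_one]
  rw [hL, hR] at hder
  apply mul_left_cancel₀ hC0
  rw [hder, hpl, hlp, C_mul, C_mul]
  ring

/-! ## The local ring `A_𝔫 ⊆ L` of a subalgebra at a maximal ideal -/

section SubLoc

variable {R L : Type*} [CommRing R] [Field L] [Algebra R L]

/-- `A_𝔫 = A2.H348.locAt A 𝔫` is the localisation of `A` at `𝔫`. -/
theorem isLocalization_subLoc (A : Subalgebra R L) (𝔫 : Ideal A) [h𝔫 : 𝔫.IsPrime] :
    letI : Algebra A (Fermat.Agent.A2.H348.locAt A 𝔫) :=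
      (Subalgebra.inclusion (Fermat.Agent.A2.H348.le_locAt 𝔫)).toRingHom.toAlgebra
    IsLocalization.AtPrime (Fermat.Agent.A2.H348.locAt A 𝔫) 𝔫 := by
  letI : Algebra A (Fermat.Agent.A2.H348.locAt A 𝔫) :=
    (Subalgebra.inclusion (Fermat.Agent.A2.H348.le_locAt 𝔫)).toRingHom.toAlgebra
  show IsLocalization 𝔫.primeCompl _
  rw [isLocalization_iff]
  refine ⟨?_, ?_, ?_⟩
  · intro y
    refine IsUnit.of_mul_eq_one
      (⟨((y : A) : L)⁻¹, Fermat.Agent.A2.H348.inv_mem_locAt 𝔫 y.2⟩ :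
        Fermat.Agent.A2.H348.locAt A 𝔫) ?_
    apply Subtype.ext
    show ((y : A) : L) * ((y : A) : L)⁻¹ = 1
    exact mul_inv_cancel₀ (Fermat.Agent.A2.H348.coe_ne_zero_of_notMem 𝔫 y.2)
  · intro z
    obtain ⟨s, hs, hsz⟩ := z.2
    refine ⟨(⟨(s : L) * z, hsz⟩, ⟨s, hs⟩), ?_⟩
    apply Subtype.ext
    show (z : L) * (s : L) = (s : L) * z
    exact mul_comm _ _
  · intro a b hab
    refine ⟨1, ?_⟩
    have : (a : L) = (b : L) := congrArg (fun t : Fermat.Agent.A2.H348.locAt A 𝔫 => (t : L)) hab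
    rw [Subtype.ext this]

end SubLoc

/-! ## The abstract construction -/

section Etale

variable {R L : Type} [CommRing R] [IsDomain R] [IsIntegrallyClosed R] [IsNoetherianRing R]
  [IsLocalRing R] [Field L] [Algebra R L]

/-- **Étale local extension inside a field.**  `R` a node ring with algebraically closed residue
field, `R ⊆ L` a field, `Y ∈ L` a root of a monic `P ∈ R[X]` with `P'(Y)` a unit of `R[Y]`, and
`L = Frac R[Y]`.  Then the localisation `R'` of `R[Y]` at any maximal ideal is a normal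
noetherian node ring with fraction field `L`, with the same `π, x, y`. -/
theorem exists_nodeRing_of_etale (hinj : Function.Injective (algebraMap R L))
    (hk : IsAlgClosed (IsLocalRing.ResidueField R))
    {𝔭₁ 𝔭₂ : Ideal R} {π x y : R} (hN : I6.IsNode 𝔭₁ 𝔭₂ π x y)
    (Y : L) (P : R[X]) (hP : P.Monic) (hPY : aeval Y P = 0)
    (hP' : ∃ w ∈ Algebra.adjoin R ({Y} : Set L), aeval Y (derivative P) * w = 1)
    (hfrac : ∀ z : L, ∃ a b : L, a ∈ Algebra.adjoin R ({Y} : Set L) ∧
      b ∈ Algebra.adjoin R ({Y} : Set L) ∧ b ≠ 0 ∧ z * b = a) :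
    ∃ (R' : Subalgebra R L) (_ : IsLocalRing R'),
      IsIntegrallyClosed R' ∧ IsNoetherianRing R' ∧ IsFractionRing R' L ∧
      I6.IsNode (𝔭₁.map (algebraMap R R')) (𝔭₂.map (algebraMap R R')) (algebraMap R R' π)
        (algebraMap R R' x) (algebraMap R R' y) ∧
      (∀ a : R, algebraMap R R' a ∈ 𝔭₁.map (algebraMap R R') → a ∈ 𝔭₁) ∧
      (∀ a : R, algebraMap R R' a ∈ 𝔭₂.map (algebraMap R R') → a ∈ 𝔭₂) := by
  classical
  set A : Subalgebra R L := Algebra.adjoin R ({Y} : Set L) with hA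
  have hYA : Y ∈ A := Algebra.subset_adjoin (Set.mem_singleton Y)
  have hYint : IsIntegral R Y := ⟨P, hP, by rwa [← aeval_def]⟩
  haveI hAint : Algebra.IsIntegral R A :=
    Algebra.IsIntegral.adjoin (fun z hz => by rw [Set.mem_singleton_iff.1 hz]; exact hYint)
  -- a maximal ideal of `A`
  obtain ⟨𝔫, h𝔫⟩ := Ideal.exists_maximal A
  haveI := h𝔫
  haveI h𝔫p : 𝔫.IsPrime := h𝔫.isPrime
  set R' : Subalgebra R L := Fermat.Agent.A2.H348.locAt A 𝔫 with hR'
  have hle : A ≤ R' := Fermat.Agent.A2.H348.le_locAt 𝔫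
  letI algAR' : Algebra A R' := (Subalgebra.inclusion hle).toRingHom.toAlgebra
  haveI hloc : IsLocalization.AtPrime R' 𝔫 := isLocalization_subLoc A 𝔫
  haveI hlocal : IsLocalRing R' := IsLocalization.AtPrime.isLocalRing R' 𝔫
  haveI htower : IsScalarTower R A R' := IsScalarTower.of_algebraMap_eq fun r => rfl
  have hmaxR' : ∀ a : A, algebraMap A R' a ∈ IsLocalRing.maximalIdeal R' ↔ a ∈ 𝔫 := fun a =>
    IsLocalization.AtPrime.to_map_mem_maximal_iff R' 𝔫 a
  -- (1) `𝔫` lies over the maximal ideal of `R`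
  have hcomap : 𝔫.comap (algebraMap R A) = IsLocalRing.maximalIdeal R := by
    haveI : (𝔫.comap (algebraMap R A)).IsMaximal :=
      Ideal.isMaximal_comap_of_isIntegral_of_isMaximal (R := R) (S := A) 𝔫
    exact IsLocalRing.eq_maximalIdeal inferInstance
  have hm𝔫 : ∀ r : R, r ∈ IsLocalRing.maximalIdeal R → algebraMap R A r ∈ 𝔫 := by
    intro r hr
    rw [← hcomap] at hr
    exact hr
  -- (2) the structure map is local
  haveI hlh : IsLocalHom (algebraMap R R') := by
    constructor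
    intro r hr
    by_contra hnu
    have h1 : algebraMap R A r ∈ 𝔫 := hm𝔫 r ((IsLocalRing.mem_maximalIdeal r).2 hnu)
    have h2 : algebraMap A R' (algebraMap R A r) ∈ IsLocalRing.maximalIdeal R' := (hmaxR' _).2 h1
    rw [← IsScalarTower.algebraMap_apply] at h2
    exact (IsLocalRing.mem_maximalIdeal _).1 h2 hr
  -- (3) injectivity
  have hinj' : Function.Injective (algebraMap R R') := by
    intro a b hab
    apply hinj
    exact congrArg (fun t : R' => (t : L)) hab
  haveI : Module.IsTorsionFree R R' := Module.isTorsionFree_iff_algebraMap_injective.2 hinj'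
  -- (4) the root
  set Y' : R' := ⟨Y, hle hYA⟩ with hY'
  have hcoe : ∀ Q : R[X], ((aeval Y' Q : R') : L) = aeval Y Q := fun Q =>
    aeval_subalgebra_coe Q R' Y'
  have hPY' : aeval Y' P = 0 := by
    apply Subtype.ext
    rw [hcoe, hPY]
    rfl
  have hYint' : IsIntegral R Y' := ⟨P, hP, by rwa [← aeval_def]⟩
  -- (5) the derivative is a unit
  have hP'u : IsUnit (aeval Y' (derivative P)) := by
    obtain ⟨w, hw, hPw⟩ := hP'
    refine IsUnit.of_mul_eq_one (⟨w, hle hw⟩ : R') ?_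
    apply Subtype.ext
    show ((aeval Y' (derivative P) : R') : L) * w = 1
    rw [hcoe, hPw]
  -- (6) fractions
  have hadj : ∀ a₀ : L, ∀ ha₀ : a₀ ∈ A, (⟨a₀, hle ha₀⟩ : R') ∈ Algebra.adjoin R ({Y'} : Set R') := by
    intro a₀ ha₀
    have hmap : (Algebra.adjoin R ({Y'} : Set R')).map R'.val = A := by
      rw [AlgHom.map_adjoin, Set.image_singleton]
      rfl
    have : a₀ ∈ (Algebra.adjoin R ({Y'} : Set R')).map R'.val := by rw [hmap]; exact ha₀
    obtain ⟨a', ha', hval⟩ := this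
    have : a' = ⟨a₀, hle ha₀⟩ := Subtype.ext hval
    rw [← this]
    exact ha'
  have hfracE : ∀ z : R', ∃ (a : R') (s : R'), a ∈ Algebra.adjoin R ({Y'} : Set R') ∧
      s ∈ Algebra.adjoin R ({Y'} : Set R') ∧ IsUnit s ∧ z * s = a := by
    intro z
    obtain ⟨s₀, hs₀, hsz⟩ := z.2
    refine ⟨⟨(s₀ : L) * z, hle hsz⟩, ⟨(s₀ : L), hle s₀.2⟩, hadj _ hsz, hadj _ s₀.2, ?_, ?_⟩
    · exact IsLocalization.map_units R' (⟨s₀, hs₀⟩ : 𝔫.primeCompl)
    · apply Subtype.ext
      show (z : L) * (s₀ : L) = (s₀ : L) * z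
      exact mul_comm _ _
  -- (7) the residue field is trivial
  have hresA : ∀ a : A, ∃ r : R, a - algebraMap R A r ∈ 𝔫 := by
    intro a
    letI : Field (A ⧸ 𝔫) := Ideal.Quotient.field 𝔫
    set φ : R →+* (A ⧸ 𝔫) := (Ideal.Quotient.mk 𝔫).comp (algebraMap R A) with hφ
    have hφint : φ.IsIntegral :=
      RingHom.IsIntegral.trans _ _ (fun a => Algebra.IsIntegral.isIntegral (R := R) a)
        (RingHom.isIntegral_of_surjective _ Ideal.Quotient.mk_surjective)
    have hkill : ∀ r ∈ IsLocalRing.maximalIdeal R, φ r = 0 := by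
      intro r hr
      rw [hφ, RingHom.comp_apply, Ideal.Quotient.eq_zero_iff_mem]
      exact hm𝔫 r hr
    let ρ : IsLocalRing.ResidueField R →+* (A ⧸ 𝔫) :=
      Ideal.Quotient.lift (IsLocalRing.maximalIdeal R) φ hkill
    have hρ : ∀ r : R, ρ (IsLocalRing.residue R r) = φ r := fun r => rfl
    have hρint : ρ.IsIntegral := by
      refine RingHom.IsIntegral.tower_top (IsLocalRing.residue R) ρ ?_
      have : ρ.comp (IsLocalRing.residue R) = φ := RingHom.ext hρ
      rw [this]
      exact hφint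
    obtain ⟨c, hc⟩ := (IsAlgClosed.ringHom_bijective_of_isIntegral ρ hρint).2
      (Ideal.Quotient.mk 𝔫 a)
    obtain ⟨r, rfl⟩ := IsLocalRing.residue_surjective c
    refine ⟨r, ?_⟩
    rw [← Ideal.Quotient.eq, ← hc, hρ]
    rfl
  have hres : ∀ z : R', ∃ r : R, z - algebraMap R R' r ∈ IsLocalRing.maximalIdeal R' := by
    intro z
    obtain ⟨⟨a, s⟩, hz⟩ := IsLocalization.surj 𝔫.primeCompl z
    obtain ⟨r₁, hr₁⟩ := hresA a
    obtain ⟨r₂, hr₂⟩ := hresA (s : A)
    have hr₂u : IsUnit r₂ := by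
      by_contra hnu
      have h1 : algebraMap R A r₂ ∈ 𝔫 := hm𝔫 r₂ ((IsLocalRing.mem_maximalIdeal r₂).2 hnu)
      have h2 : (s : A) ∈ 𝔫 := by
        have : (s : A) = ((s : A) - algebraMap R A r₂) + algebraMap R A r₂ := by ring
        rw [this]
        exact 𝔫.add_mem hr₂ h1
      exact s.2 h2
    obtain ⟨r₂', hr₂'⟩ := hr₂u.exists_right_inv
    refine ⟨r₁ * r₂', ?_⟩
    set ι := algebraMap A R' with hι
    have hsu : IsUnit (ι (s : A)) := IsLocalization.map_units R' s
    have e0 : algebraMap R R' (r₁ * r₂') = ι (algebraMap R A (r₁ * r₂')) :=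
      IsScalarTower.algebraMap_apply R A R' _
    have key : (z - ι (algebraMap R A (r₁ * r₂'))) * ι (s : A) =
        ι (a - algebraMap R A r₁) -
          ι (algebraMap R A (r₁ * r₂')) * ι ((s : A) - algebraMap R A r₂) := by
      have e1 : ι (algebraMap R A (r₁ * r₂')) * ι (algebraMap R A r₂) =
          ι (algebraMap R A r₁) := by
        rw [← map_mul, ← map_mul]
        congr 2
        rw [mul_assoc, mul_comm r₂' r₂, hr₂', mul_one]
      simp only [map_sub, sub_mul, mul_sub]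
      rw [hz, e1]
      ring
    have hmem : (z - ι (algebraMap R A (r₁ * r₂'))) * ι (s : A) ∈
        IsLocalRing.maximalIdeal R' := by
      rw [key]
      exact Ideal.sub_mem _ ((hmaxR' _).2 hr₁) (Ideal.mul_mem_left _ _ ((hmaxR' _).2 hr₂))
    obtain ⟨t, ht⟩ := hsu.exists_right_inv
    have : z - algebraMap R R' (r₁ * r₂') =
        (z - ι (algebraMap R A (r₁ * r₂'))) * ι (s : A) * t := by
      rw [mul_assoc, ht, mul_one, e0]
    rw [this]
    exact Ideal.mul_mem_right _ _ hmem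
  -- (8) ETNODE
  obtain ⟨hIC, hNoeth, hNode⟩ := Fermat.Agent.Ribet.H600.etaleNode R R' 𝔭₁ 𝔭₂ π x y hN hinj'
    Y' P hP hPY' hP'u hfracE hres
  -- (9) the fraction field
  have hFrac : IsFractionRing R' L := by
    haveI : FaithfulSMul R' L :=
      (faithfulSMul_iff_algebraMap_injective R' L).2 Subtype.val_injective
    refine IsFractionRing.of_field (R := R') (K := L) ?_
    intro z
    obtain ⟨a, b, ha, hb, hb0, hzb⟩ := hfrac z
    refine ⟨⟨a, hle ha⟩, ⟨b, hle hb⟩, ?_⟩
    show z = a / b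
    rw [eq_div_iff hb0, hzb]
  exact ⟨R', hlocal, hIC, hNoeth, hFrac, hNode,
    fun a ha => Fermat.Agent.Ribet.H600.mem_of_algebraMap_mem_map Y' hYint' hfracE hN.prime₁ ha,
    fun a ha => Fermat.Agent.Ribet.H600.mem_of_algebraMap_mem_map Y' hYint' hfracE hN.prime₂ ha⟩

end Etale

/-! ## The leaf -/

/-- **COVER-NODE** (verbatim). -/
theorem coverNode : I6.CoverNodeStatement := by
  intro R K L _ _ _ _ _ _ _ _ _ _ _ _ 𝔭₁ 𝔭₂ π x y hN hk p hp ζ hζ lam ε η e hlamζ hε hlam_p hη he
    hlam g hg₁ hg₂ hdiv hs₁ hs₂ h hh hadj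
  -- WPUR
  obtain ⟨d₁, d₂, s, z, hd₁, hd₂, hs, hgd⟩ := Fermat.Agent.Ribet.H524.wildPurity524 R 𝔭₁ 𝔭₂ π x y
    hN p hp lam ε η e hε hlam_p hη he hlam g hg₁ hg₂ hdiv hs₁ hs₂
  set ι : R →+* L := algebraMap R L with hι
  have hinj : Function.Injective ι := by
    rw [hι, IsScalarTower.algebraMap_eq R K L]
    exact (algebraMap K L).injective.comp (IsFractionRing.injective R K)
  have hι0 : ∀ r : R, r ≠ 0 → ι r ≠ 0 := fun r hr h0 => hr (hinj (by rw [h0, map_zero]))
  -- `π ≠ 0`, `λ ≠ 0`, `λ ∈ 𝔪`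
  have hπ0 : π ≠ 0 := by
    rintro rfl
    have hxy : x * y ∈ 𝔭₁ ⊓ 𝔭₂ := ⟨𝔭₁.mul_mem_left _ hN.hy, 𝔭₂.mul_mem_right _ hN.hx⟩
    rw [hN.inf_eq, Ideal.mem_span_singleton, zero_dvd_iff] at hxy
    rcases mul_eq_zero.1 hxy with h0 | h0
    · exact hN.hx₁ (h0 ▸ 𝔭₁.zero_mem)
    · exact hN.hy₂ (h0 ▸ 𝔭₂.zero_mem)
  have hlam0 : lam ≠ 0 := by
    rw [hlam]
    exact mul_ne_zero hη.ne_zero (pow_ne_zero _ hπ0)
  have hπm : π ∈ IsLocalRing.maximalIdeal R := by
    have h1 : π ∈ 𝔭₁ := (inf_le_left : 𝔭₁ ⊓ 𝔭₂ ≤ 𝔭₁) (hN.inf_eq ▸ Ideal.mem_span_singleton_self π)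
    exact IsLocalRing.le_maximalIdeal hN.prime₁.ne_top h1
  have hlamm : lam ∈ IsLocalRing.maximalIdeal R := by
    rw [hlam]
    exact Ideal.mul_mem_left _ _ (Ideal.pow_mem_of_mem _ hπm e he)
  -- the inverse of `ε`
  obtain ⟨ε', hεε'⟩ := hε.exists_right_inv
  have hpl : (p : R) = lam ^ (p - 1) * ε' := by
    rw [hlam_p, mul_assoc, hεε', mul_one]
  obtain ⟨P, hP, hPmain, hPder⟩ := exists_asPoly hp lam ε' z hlam0 hpl
  -- the unit `1 + λ^p z`
  have hunit : IsUnit (1 + lam ^ p * z) := by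
    by_contra hnu
    have h1 : 1 + lam ^ p * z ∈ IsLocalRing.maximalIdeal R := (IsLocalRing.mem_maximalIdeal _).2 hnu
    have h2 : lam ^ p * z ∈ IsLocalRing.maximalIdeal R :=
      Ideal.mul_mem_right _ _ (Ideal.pow_mem_of_mem _ hlamm p hp.pos)
    have h3 : (1 : R) ∈ IsLocalRing.maximalIdeal R := by
      have : (1 : R) = (1 + lam ^ p * z) - lam ^ p * z := by ring
      rw [this]
      exact Ideal.sub_mem _ h1 h2
    exact (Ideal.ne_top_iff_one _).1 (IsLocalRing.maximalIdeal.isMaximal R).ne_top h3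
  obtain ⟨v, hv⟩ := hunit.exists_right_inv
  -- the Kummer generator in Artin–Schreier form
  have hd₁L : ι d₁ ≠ 0 := hι0 d₁ hd₁
  have hd₂L : ι d₂ ≠ 0 := hι0 d₂ hd₂
  have hsL : ι s ≠ 0 := hι0 s hs.ne_zero
  have hlamL : ι lam ≠ 0 := hι0 lam hlam0
  set u : L := h * ι d₂ / (ι d₁ * ι s) with hu
  have hup : u ^ p = ι (1 + lam ^ p * z) := by
    have e1 : h ^ p * ι d₂ ^ p = ι d₁ ^ p * ι s ^ p * ι (1 + lam ^ p * z) := by
      rw [hh]
      show ι g * ι d₂ ^ p = _
      rw [← map_pow, ← map_pow, ← map_pow, ← map_mul, ← map_mul, ← map_mul, hgd]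
    rw [hu, div_pow, mul_pow, mul_pow, e1]
    field_simp
  set Y : L := (u - 1) / ι lam with hY
  have huY : 1 + ι lam * Y = u := by
    rw [hY]
    field_simp
    ring
  have haevalC : ∀ r : R, aeval Y (C r) = ι r := fun r => aeval_C Y r
  have hPY : aeval Y P = 0 := by
    have h1 : aeval Y (C (lam ^ p) * P) = 0 := by
      rw [hPmain]
      simp only [map_sub, map_pow, map_add, map_one, map_mul, aeval_X, haevalC]
      rw [huY, hup]
      simp only [map_add, map_one, map_mul, map_pow]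
      ring
    rw [map_mul, haevalC] at h1
    exact (mul_eq_zero.1 h1).resolve_left (hι0 _ (pow_ne_zero _ hlam0))
  have hder : aeval Y (derivative P) = ι ε' * u ^ (p - 1) := by
    rw [hPder]
    simp only [map_mul, map_pow, map_add, map_one, aeval_X, haevalC]
    rw [huY]
  -- `P'(Y)` is a unit of `R[Y]`
  have hYA : Y ∈ Algebra.adjoin R ({Y} : Set L) := Algebra.subset_adjoin (Set.mem_singleton Y)
  have huA : u ∈ Algebra.adjoin R ({Y} : Set L) := by
    rw [← huY]
    exact Subalgebra.add_mem _ (Subalgebra.one_mem _)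
      (Subalgebra.mul_mem _ (Subalgebra.algebraMap_mem _ lam) hYA)
  have hP' : ∃ w ∈ Algebra.adjoin R ({Y} : Set L), aeval Y (derivative P) * w = 1 := by
    refine ⟨ι ε * u * ι v, Subalgebra.mul_mem _ (Subalgebra.mul_mem _
      (Subalgebra.algebraMap_mem _ ε) huA) (Subalgebra.algebraMap_mem _ v), ?_⟩
    rw [hder]
    have hidx : p - 1 + 1 = p := by have := hp.one_lt; omega
    have e1 : ι ε' * u ^ (p - 1) * (ι ε * u * ι v) = ι (ε * ε') * (u ^ (p - 1 + 1)) * ι v := by
      rw [map_mul, pow_succ]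
      ring
    rw [e1, hidx, hup, hεε', map_one, one_mul, ← map_mul, hv, map_one]
  -- `L = Frac R[Y]`
  have hfrac : ∀ z' : L, ∃ a b : L, a ∈ Algebra.adjoin R ({Y} : Set L) ∧
      b ∈ Algebra.adjoin R ({Y} : Set L) ∧ b ≠ 0 ∧ z' * b = a := by
    set A : Subalgebra R L := Algebra.adjoin R ({Y} : Set L) with hA
    set Q : Subfield L := Subfield.closure (A : Set L) with hQ
    have hAQ : ∀ a ∈ A, a ∈ Q := fun a ha => Subfield.subset_closure ha
    have hKQ : ∀ k : K, algebraMap K L k ∈ Q := by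
      intro k
      obtain ⟨a, b, -, rfl⟩ := IsFractionRing.div_surjective (A := R) k
      rw [map_div₀, ← IsScalarTower.algebraMap_apply, ← IsScalarTower.algebraMap_apply]
      exact div_mem (hAQ _ (Subalgebra.algebraMap_mem _ a)) (hAQ _ (Subalgebra.algebraMap_mem _ b))
    have hhQ : h ∈ Q := by
      have : h = u * (ι d₁ * ι s) / ι d₂ := by
        rw [hu]
        field_simp
      rw [this]
      exact div_mem (mul_mem (hAQ _ huA) (mul_mem (hAQ _ (Subalgebra.algebraMap_mem _ d₁))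
        (hAQ _ (Subalgebra.algebraMap_mem _ s)))) (hAQ _ (Subalgebra.algebraMap_mem _ d₂))
    have htop : IntermediateField.adjoin K ({h} : Set L) ≤ Subfield.toIntermediateField Q hKQ := by
      rw [IntermediateField.adjoin_le_iff]
      intro t ht
      rw [Set.mem_singleton_iff] at ht
      subst ht
      exact hhQ
    intro z'
    have hz' : z' ∈ Q := htop (by rw [hadj]; trivial)
    rw [hQ, Subfield.mem_closure_iff] at hz'
    obtain ⟨a, ha, b, hb, hab⟩ := hz'
    have hcl : Subring.closure (A : Set L) ≤ A.toSubring := Subring.closure_le.2 (fun t ht => ht)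
    by_cases hb0 : b = 0
    · refine ⟨0, 1, Subalgebra.zero_mem _, Subalgebra.one_mem _, one_ne_zero, ?_⟩
      rw [← hab, hb0, div_zero, zero_mul]
    · refine ⟨a, b, hcl ha, hcl hb, hb0, ?_⟩
      rw [← hab]
      field_simp
  exact exists_nodeRing_of_etale hinj hk hN Y P hP hPY hP' hfrac

end Fermat.Agent.Ribet.H132
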