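import Fermat.Agent.A2.H609.ChartPrep
import Mathlib

/-!
# Functoriality of `A2.H849.locAt` (helper132)

`B₁ → B₂` domains with fraction fields `K₁ → K₂`, `n` a prime of `B₂`, `n₁ = n ∩ B₁`:
the local homomorphism `(B₁)_{n₁} → (B₂)_n`, its injectivity, and "branches lie over branches".
Also: in a ring `B` with `B ⧸ p` Dedekind, a prime `n ⊋ p` is maximal; in a discrete valuation
ring with fraction field `E`, every `e ∈ Eˣ` is `unit · w ^ j`.
-/

set_option autoImplicit false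
set_option linter.unusedSectionVars false
set_option linter.style.haveILetI false
set_option linter.unusedVariables false

namespace Fermat.Agent.Ribet.H132

open Fermat.Agent.A2.H849 Fermat.Agent.A2.H609

section Frac

variable {B : Type*} [CommRing B] [IsDomain B]
variable {F : Type*} [Field F] [Algebra B F] [IsFractionRing B F]

/-- Membership of `z = b / s ∈ B_n` in `p B_n` is membership of `b` in `p`. -/
theorem mem_map_iff_of_frac {p n : Ideal B} [p.IsPrime] [n.IsPrime] (hpn : p ≤ n)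
    {z : locAt F n} {b s : B} (hs : s ∉ n)
    (hzs : (z : F) * algebraMap B F s = algebraMap B F b) :
    z ∈ p.map (algebraMap B (locAt F n)) ↔ b ∈ p := by
  have hsu : IsUnit (algebraMap B (locAt F n) s) :=
    (IsLocalization.AtPrime.isUnit_to_map_iff (locAt F n) n s).2 hs
  have h1 : z * algebraMap B (locAt F n) s = algebraMap B (locAt F n) b := by
    apply Subtype.ext
    exact hzs
  rw [← algebraMap_mem_map_iff (F := F) hpn b, ← h1]
  constructor
  · intro hz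
    exact Ideal.mul_mem_right _ _ hz
  · intro hz
    obtain ⟨t, ht⟩ := hsu.exists_right_inv
    have h3 : z = z * algebraMap B (locAt F n) s * t := by
      rw [mul_assoc, ht, mul_one]
    rw [h3]
    exact Ideal.mul_mem_right _ _ hz

end Frac

section LocHom

variable {B₁ B₂ : Type*} [CommRing B₁] [IsDomain B₁] [CommRing B₂] [IsDomain B₂]
  {K₁ K₂ : Type*} [Field K₁] [Field K₂] [Algebra B₁ K₁] [IsFractionRing B₁ K₁]
  [Algebra B₂ K₂] [IsFractionRing B₂ K₂]

theorem map_mem_locAt132 (ψ : K₁ →+* K₂) (φ : B₁ →+* B₂)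
    (hφ : ∀ b, algebraMap B₂ K₂ (φ b) = ψ (algebraMap B₁ K₁ b))
    (n : Ideal B₂) [n.IsPrime] (n₁ : Ideal B₁) [n₁.IsPrime] (hn₁ : ∀ b, b ∉ n₁ → φ b ∉ n)
    {z : K₁} (hz : z ∈ locAt K₁ n₁) :
    ψ z ∈ locAt K₂ n := by
  obtain ⟨a, s, hs, rfl⟩ := (mem_locAt_iff _ z).1 hz
  refine (mem_locAt_iff _ _).2 ⟨φ a, φ s, hn₁ s hs, ?_⟩
  rw [map_mul, map_inv₀, hφ, hφ]

/-- The local homomorphism `(B₁)_{n₁} → (B₂)_n`. -/
noncomputable def locHom132 (ψ : K₁ →+* K₂) (φ : B₁ →+* B₂)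
    (hφ : ∀ b, algebraMap B₂ K₂ (φ b) = ψ (algebraMap B₁ K₁ b))
    (n : Ideal B₂) [n.IsPrime] (n₁ : Ideal B₁) [n₁.IsPrime] (hn₁ : ∀ b, b ∉ n₁ → φ b ∉ n) :
    locAt K₁ n₁ →+* locAt K₂ n where
  toFun a := ⟨ψ (a : K₁), map_mem_locAt132 ψ φ hφ n n₁ hn₁ a.2⟩
  map_one' := Subtype.ext (map_one ψ)
  map_mul' a b := Subtype.ext (map_mul ψ (a : K₁) (b : K₁))
  map_zero' := Subtype.ext (map_zero ψ)
  map_add' a b := Subtype.ext (map_add ψ (a : K₁) (b : K₁))

variable (ψ : K₁ →+* K₂) (φ : B₁ →+* B₂)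
    (hφ : ∀ b, algebraMap B₂ K₂ (φ b) = ψ (algebraMap B₁ K₁ b))
    (n : Ideal B₂) [n.IsPrime] (n₁ : Ideal B₁) [n₁.IsPrime] (hn₁ : ∀ b, b ∉ n₁ → φ b ∉ n)

theorem coe_locHom132 (a : locAt K₁ n₁) :
    ((locHom132 ψ φ hφ n n₁ hn₁ a : locAt K₂ n) : K₂) = ψ (a : K₁) := rfl

theorem locHom132_injective : Function.Injective (locHom132 ψ φ hφ n n₁ hn₁) := by
  intro a b hab
  apply Subtype.ext
  apply ψ.injective
  exact congrArg (fun z : locAt K₂ n => (z : K₂)) hab

theorem locHom132_algebraMap (b : B₁) :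
    locHom132 ψ φ hφ n n₁ hn₁ (algebraMap B₁ (locAt K₁ n₁) b) = algebraMap B₂ (locAt K₂ n) (φ b) := by
  apply Subtype.ext
  show ψ (algebraMap B₁ K₁ b) = algebraMap B₂ K₂ (φ b)
  rw [hφ]

/-- Branches lie over branches. -/
theorem locHom132_mem_map_iff {p₁ : Ideal B₁} {p₂ : Ideal B₂} [p₁.IsPrime] [p₂.IsPrime]
    (h₁ : p₁ ≤ n₁) (h₂ : p₂ ≤ n) (hpp : ∀ b, φ b ∈ p₂ ↔ b ∈ p₁) (a : locAt K₁ n₁) :
    locHom132 ψ φ hφ n n₁ hn₁ a ∈ p₂.map (algebraMap B₂ (locAt K₂ n)) ↔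
      a ∈ p₁.map (algebraMap B₁ (locAt K₁ n₁)) := by
  obtain ⟨b, s, hs, hzs⟩ := (mem_locAt_iff n₁ (a : K₁)).1 a.2
  have hinj : Function.Injective (algebraMap B₁ K₁) := IsFractionRing.injective B₁ K₁
  have hsF : algebraMap B₁ K₁ s ≠ 0 := by
    intro h0
    apply hs
    rw [hinj (by rw [h0, map_zero] : algebraMap B₁ K₁ s = algebraMap B₁ K₁ 0)]
    exact n₁.zero_mem
  have hzs' : (a : K₁) * algebraMap B₁ K₁ s = algebraMap B₁ K₁ b := by
    rw [hzs]
    field_simp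
  have hzs'' : ((locHom132 ψ φ hφ n n₁ hn₁ a : locAt K₂ n) : K₂) * algebraMap B₂ K₂ (φ s) =
      algebraMap B₂ K₂ (φ b) := by
    rw [coe_locHom132, hφ, hφ, ← map_mul, hzs']
  rw [mem_map_iff_of_frac h₂ (hn₁ s hs) hzs'', mem_map_iff_of_frac h₁ hs hzs', hpp]

end LocHom

section Maximal

/-- In a ring `B` with `B ⧸ p` a Dedekind domain, every prime strictly containing `p` is
maximal. -/
theorem isMaximal_of_dedekind_quotient {B : Type*} [CommRing B] (p n : Ideal B) [p.IsPrime]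
    [hn : n.IsPrime] [IsDedekindDomain (B ⧸ p)] (hpn : p ≤ n) (hne : ¬ n ≤ p) : n.IsMaximal := by
  have hsurj : Function.Surjective (Ideal.Quotient.mk p) := Ideal.Quotient.mk_surjective
  have hker : RingHom.ker (Ideal.Quotient.mk p) ≤ n := by
    rw [Ideal.mk_ker]; exact hpn
  have hq : (n.map (Ideal.Quotient.mk p)).IsPrime := Ideal.map_isPrime_of_surjective hsurj hker
  have hq0 : n.map (Ideal.Quotient.mk p) ≠ ⊥ := by
    intro h0
    apply hne
    intro z hz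
    have : Ideal.Quotient.mk p z ∈ n.map (Ideal.Quotient.mk p) := Ideal.mem_map_of_mem _ hz
    rw [h0, Ideal.mem_bot] at this
    exact Ideal.Quotient.eq_zero_iff_mem.1 this
  have hqm : (n.map (Ideal.Quotient.mk p)).IsMaximal := hq.isMaximal hq0
  have hcomap : (n.map (Ideal.Quotient.mk p)).comap (Ideal.Quotient.mk p) = n := by
    rw [Ideal.comap_map_of_surjective _ hsurj, ← RingHom.ker_eq_comap_bot, Ideal.mk_ker]
    exact sup_eq_left.2 hpn
  rw [← hcomap]
  exact Ideal.comap_isMaximal_of_surjective _ hsurj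

end Maximal

section DVR

/-- In a discrete valuation ring `O` with fraction field `E` and uniformiser `w`, every nonzero
`e ∈ E` is `ε · w ^ j` with `ε ∈ Oˣ`, `j ∈ ℤ`. -/
theorem exists_unit_mul_zpow_of_ne_zero {O E : Type*} [CommRing O] [IsDomain O]
    [IsDiscreteValuationRing O] [Field E] [Algebra O E] [IsFractionRing O E] {w : O}
    (hw : Irreducible w) {e : E} (he : e ≠ 0) :
    ∃ (ε : O) (j : ℤ), IsUnit ε ∧ e = algebraMap O E ε * (algebraMap O E w) ^ j := by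
  obtain ⟨a, b, hb, rfl⟩ := IsFractionRing.div_surjective (A := O) e
  have hb0 : b ≠ 0 := nonZeroDivisors.ne_zero hb
  have ha0 : a ≠ 0 := by
    rintro rfl
    rw [map_zero, zero_div] at he
    exact he rfl
  obtain ⟨k, u, hu⟩ := IsDiscreteValuationRing.eq_unit_mul_pow_irreducible ha0 hw
  obtain ⟨k', u', hu'⟩ := IsDiscreteValuationRing.eq_unit_mul_pow_irreducible hb0 hw
  have hw0 : algebraMap O E w ≠ 0 :=
    (map_ne_zero_iff _ (IsFractionRing.injective O E)).2 hw.ne_zero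
  have hu'0 : algebraMap O E (u' : O) ≠ 0 :=
    (map_ne_zero_iff _ (IsFractionRing.injective O E)).2 u'.ne_zero
  refine ⟨((u * u'⁻¹ : Oˣ) : O), (k : ℤ) - (k' : ℤ), Units.isUnit _, ?_⟩
  have h1 : algebraMap O E ((u * u'⁻¹ : Oˣ) : O) * algebraMap O E (u' : O) =
      algebraMap O E (u : O) := by
    rw [← map_mul]
    congr 1
    rw [Units.val_mul, mul_assoc, Units.inv_mul, mul_one]
  rw [hu, hu', map_mul, map_mul, map_pow, map_pow, zpow_sub₀ hw0, zpow_natCast, zpow_natCast,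
    ← h1]
  field_simp

end DVR

end Fermat.Agent.Ribet.H132
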