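import Fermat.Agent.Ribet.H132.InstA

/-!
# RIBET wall-p, I6 instantiation: the residue field at a closed point of a chart (helper132)

`R` a discrete valuation ring with algebraically closed residue field `k`, `B ⊆ F` a chart
(`Alg.ChartCtx`: the integral closure of `R[x₀]` in `F`), `n` a maximal ideal of `B` containing
the uniformiser `w`.  Then `B ⧸ n = k`:

* `surjective_of_integral_polynomial` : a field `L` integral over `k[X]`, `k` algebraically
  closed, is equal to `k`;
* `exists_const_sub_mem_chart` : `∀ b : B, ∃ r : R, b - r ∈ n`;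
* `exists_const_sub_mem_locAt` : the same in the local ring `B_n = locAt F n`
  (the hypothesis "trivial residue extension" of `I6.EtaleNodeStatement` for every local
  extension with residue field algebraic over `k`);
* `isAlgClosed_residueField_locAt` : the residue field of `B_n` is algebraically closed.
-/

set_option autoImplicit false
set_option linter.unusedSectionVars false
set_option linter.style.haveILetI false

namespace Fermat.Agent.Ribet.H132

open Fermat.Agent.A2 Fermat.Agent.A2.H849 Polynomial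

section Abstract

/-- A field which is integral over `k[X]`, `k` algebraically closed, is equal to `k`. -/
theorem surjective_of_integral_polynomial {k L : Type*} [Field k] [IsAlgClosed k] [Field L]
    (g : k[X] →+* L) (hg : g.IsIntegral) : Function.Surjective (g.comp C) := by
  -- the kernel of `g` is not zero
  have hker : ∃ p : k[X], p ≠ 0 ∧ g p = 0 := by
    by_contra hcon
    have hinj : Function.Injective g := by
      rw [injective_iff_map_eq_zero]
      intro p hp
      by_contra h
      exact hcon ⟨p, h, hp⟩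
    letI : Algebra k[X] L := g.toAlgebra
    haveI : Algebra.IsIntegral k[X] L := ⟨fun d => hg d⟩
    exact Polynomial.not_isField k
      (isField_of_isIntegral_of_isField (R := k[X]) (S := L) hinj (Field.toIsField L))
  obtain ⟨p, hp0, hp⟩ := hker
  set ψ : k →+* L := g.comp C with hψ
  have hg_eq : g = eval₂RingHom ψ (g X) := by
    refine Polynomial.ringHom_ext (fun r => ?_) ?_
    · simp [hψ]
    · simp
  letI : Algebra k L := ψ.toAlgebra
  -- `g X` is integral over `k`
  have hξ : IsIntegral k (g X) := by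
    refine IsAlgebraic.isIntegral ⟨p, hp0, ?_⟩
    have : aeval (g X) p = eval₂ ψ (g X) p := rfl
    rw [this]
    have h2 : g p = eval₂ ψ (g X) p := by
      conv_lhs => rw [hg_eq]
      rfl
    rw [← h2, hp]
  -- hence `g X` is a constant
  obtain ⟨a, ha⟩ : ∃ a : k, ψ a = g X := by
    have hsurj := (IsAlgClosed.algebraMap_bijective_of_isIntegral (k := k)
      (K := integralClosure k L)).2
    obtain ⟨a, ha⟩ := hsurj ⟨g X, hξ⟩
    exact ⟨a, congrArg Subtype.val ha⟩
  have hcomp : g = ψ.comp (evalRingHom a) := by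
    refine Polynomial.ringHom_ext (fun r => ?_) ?_
    · simp [hψ]
    · simp [ha]
  have hψint : ψ.IsIntegral := by
    refine RingHom.IsIntegral.tower_top (evalRingHom a) ψ ?_
    rw [← hcomp]
    exact hg
  exact (IsAlgClosed.ringHom_bijective_of_isIntegral ψ hψint).2

/-- The image of an algebraically closed field under a surjective ring homomorphism to a field
is algebraically closed (universe-polymorphic). -/
theorem isAlgClosed_of_surjective {k K : Type*} [Field k] [Field K] [IsAlgClosed k]
    (ρ : k →+* K) (hρ : Function.Surjective ρ) : IsAlgClosed K := by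
  apply IsAlgClosed.of_exists_root
  intro p _ hirr
  obtain ⟨q, rfl⟩ := Polynomial.map_surjective ρ hρ p
  have hdeg : q.degree ≠ 0 := by
    rw [← degree_map q ρ]
    exact (degree_pos_of_irreducible hirr).ne'
  obtain ⟨x, hx⟩ := IsAlgClosed.exists_root q hdeg
  refine ⟨ρ x, ?_⟩
  rw [eval_map, eval₂_hom]
  rw [IsRoot.def] at hx
  rw [hx, map_zero]

end Abstract

section Chart

variable {R E F : Type*} [CommRing R] [IsDomain R] [IsDiscreteValuationRing R]
  [IsAlgClosed (IsLocalRing.ResidueField R)]
  [Field E] [Algebra R E] [IsFractionRing R E]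
  [Field F] [Algebra E F] [Algebra R F] [IsScalarTower R E F]

/-- **The residue field at a closed point of the special fibre of a chart is `k`.** -/
theorem exists_const_sub_mem_chart (w : R) (x₀ : F) (B : Subalgebra R F)
    (hC : Alg.ChartCtx E w x₀ B) (n : Ideal B) [hn : n.IsMaximal] (hwn : algebraMap R B w ∈ n)
    (b : B) : ∃ r : R, b - algebraMap R B r ∈ n := by
  letI : Field (B ⧸ n) := Ideal.Quotient.field n
  have hx : x₀ ∈ B := Fermat.Agent.A2.Alg.H132.coord_mem_chart x₀ B hC.hB
  set f : R[X] →+* (B ⧸ n) :=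
    (Ideal.Quotient.mk n).comp ((aeval (⟨x₀, hx⟩ : B) : R[X] →ₐ[R] B) : R[X] →+* B) with hf
  have hfint : f.IsIntegral :=
    RingHom.IsIntegral.trans _ _ (Fermat.Agent.A2.Alg.H132.isIntegral_aeval_chart x₀ B hC.hB hx)
      (RingHom.isIntegral_of_surjective _ Ideal.Quotient.mk_surjective)
  have hfI : ∀ r ∈ IsLocalRing.maximalIdeal R, f (C r) = 0 := by
    intro r hr
    rw [hC.hw.maximalIdeal_eq, Ideal.mem_span_singleton] at hr
    obtain ⟨s, rfl⟩ := hr
    rw [hf, RingHom.comp_apply, Ideal.Quotient.eq_zero_iff_mem]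
    have h : ((aeval (⟨x₀, hx⟩ : B) : R[X] →ₐ[R] B) : R[X] →+* B) (C (w * s))
        = algebraMap R B w * algebraMap R B s := by
      simp
    rw [h]
    exact n.mul_mem_right _ hwn
  let φ₁ : IsLocalRing.ResidueField R →+* (B ⧸ n) :=
    Ideal.Quotient.lift (IsLocalRing.maximalIdeal R) (f.comp C) (fun r hr => hfI r hr)
  let g : (IsLocalRing.ResidueField R)[X] →+* (B ⧸ n) := eval₂RingHom φ₁ (f X)
  have hφ₁ : ∀ r : R, φ₁ (IsLocalRing.residue R r) = f (C r) := fun r => rfl
  have hcomp : g.comp (mapRingHom (IsLocalRing.residue R)) = f := by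
    refine Polynomial.ringHom_ext (fun r => ?_) ?_
    · show eval₂ φ₁ (f X) ((C r).map (IsLocalRing.residue R)) = f (C r)
      rw [Polynomial.map_C, eval₂_C, hφ₁]
    · show eval₂ φ₁ (f X) ((X : R[X]).map (IsLocalRing.residue R)) = f X
      rw [Polynomial.map_X, eval₂_X]
  have hg : g.IsIntegral := by
    refine RingHom.IsIntegral.tower_top (mapRingHom (IsLocalRing.residue R)) g ?_
    rw [hcomp]
    exact hfint
  obtain ⟨c, hc⟩ := surjective_of_integral_polynomial g hg (Ideal.Quotient.mk n b)
  obtain ⟨r, rfl⟩ := IsLocalRing.residue_surjective c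
  refine ⟨r, ?_⟩
  rw [← Ideal.Quotient.eq, ← hc]
  show eval₂ φ₁ (f X) (C (IsLocalRing.residue R r)) = _
  rw [eval₂_C, hφ₁, hf]
  simp

variable [CharZero E]

/-- The same in the local ring `B_n ⊆ F`. -/
theorem exists_const_sub_mem_locAt (w : R) (x₀ : F) (B : Subalgebra R F)
    (hC : Alg.ChartCtx E w x₀ B) (n : Ideal B) [hn : n.IsMaximal] (hwn : algebraMap R B w ∈ n) :
    haveI := (Fermat.Agent.A2.Alg.H34.chart_instances' w x₀ B hC).2.2
    ∀ z : locAt F n, ∃ r : R,
      z - algebraMap B (locAt F n) (algebraMap R B r) ∈ IsLocalRing.maximalIdeal (locAt F n) := by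
  haveI := (Fermat.Agent.A2.Alg.H34.chart_instances' w x₀ B hC).2.2
  intro z
  obtain ⟨⟨a, s⟩, hz⟩ := IsLocalization.surj n.primeCompl z
  obtain ⟨r₁, hr₁⟩ := exists_const_sub_mem_chart w x₀ B hC n hwn a
  obtain ⟨r₂, hr₂⟩ := exists_const_sub_mem_chart w x₀ B hC n hwn (s : B)
  -- `r₂` is a unit of `R`
  have hr₂u : IsUnit r₂ := by
    by_contra hnu
    have hmem : r₂ ∈ IsLocalRing.maximalIdeal R := (IsLocalRing.mem_maximalIdeal _).2 hnu
    rw [hC.hw.maximalIdeal_eq, Ideal.mem_span_singleton] at hmem
    obtain ⟨t, rfl⟩ := hmem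
    have h1 : algebraMap R B (w * t) ∈ n := by
      rw [map_mul]
      exact n.mul_mem_right _ hwn
    have h2 : (s : B) ∈ n := by
      have : (s : B) = ((s : B) - algebraMap R B (w * t)) + algebraMap R B (w * t) := by ring
      rw [this]
      exact n.add_mem hr₂ h1
    exact s.2 h2
  obtain ⟨r₂', hr₂'⟩ := hr₂u.exists_right_inv
  refine ⟨r₁ * r₂', ?_⟩
  set ι := algebraMap B (locAt F n) with hι
  have hsu : IsUnit (ι (s : B)) := IsLocalization.map_units (locAt F n) s
  have hmax : ∀ c ∈ n, ι c ∈ IsLocalRing.maximalIdeal (locAt F n) := fun c hc =>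
    (IsLocalization.AtPrime.to_map_mem_maximal_iff (locAt F n) n c).2 hc
  -- `(z - r₁ r₂') · s = (a - r₁) - r₁ r₂' (s - r₂)`
  have key : (z - ι (algebraMap R B (r₁ * r₂'))) * ι (s : B) =
      ι (a - algebraMap R B r₁) - ι (algebraMap R B (r₁ * r₂')) * ι ((s : B) - algebraMap R B r₂)
      := by
    have e1 : ι (algebraMap R B (r₁ * r₂')) * ι (algebraMap R B r₂) = ι (algebraMap R B r₁) := by
      rw [← map_mul, ← map_mul]
      congr 2
      rw [mul_assoc, mul_comm r₂' r₂, hr₂', mul_one]
    simp only [map_sub, sub_mul, mul_sub]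
    rw [hz, e1]
    ring
  have hmem : (z - ι (algebraMap R B (r₁ * r₂'))) * ι (s : B) ∈
      IsLocalRing.maximalIdeal (locAt F n) := by
    rw [key]
    exact Ideal.sub_mem _ (hmax _ hr₁) (Ideal.mul_mem_left _ _ (hmax _ hr₂))
  obtain ⟨t, ht⟩ := hsu.exists_right_inv
  have : z - ι (algebraMap R B (r₁ * r₂')) =
      (z - ι (algebraMap R B (r₁ * r₂'))) * ι (s : B) * t := by
    rw [mul_assoc, ht, mul_one]
  rw [this]
  exact Ideal.mul_mem_right _ _ hmem

/-- The residue field of the local ring `B_n` of a chart at a closed point of the special fibre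
is algebraically closed. -/
theorem isAlgClosed_residueField_locAt (w : R) (x₀ : F) (B : Subalgebra R F)
    (hC : Alg.ChartCtx E w x₀ B) (n : Ideal B) [hn : n.IsMaximal] (hwn : algebraMap R B w ∈ n) :
    haveI := (Fermat.Agent.A2.Alg.H34.chart_instances' w x₀ B hC).2.2
    IsAlgClosed (IsLocalRing.ResidueField (locAt F n)) := by
  haveI := (Fermat.Agent.A2.Alg.H34.chart_instances' w x₀ B hC).2.2
  set ι : R →+* locAt F n := (algebraMap B (locAt F n)).comp (algebraMap R B) with hι
  have hmax : ∀ c ∈ n, algebraMap B (locAt F n) c ∈ IsLocalRing.maximalIdeal (locAt F n) :=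
    fun c hc => (IsLocalization.AtPrime.to_map_mem_maximal_iff (locAt F n) n c).2 hc
  have hkill : ∀ r ∈ IsLocalRing.maximalIdeal R,
      ((IsLocalRing.residue (locAt F n)).comp ι) r = 0 := by
    intro r hr
    rw [hC.hw.maximalIdeal_eq, Ideal.mem_span_singleton] at hr
    obtain ⟨s, rfl⟩ := hr
    rw [RingHom.comp_apply, IsLocalRing.residue_eq_zero_iff, hι, RingHom.comp_apply, map_mul,
      map_mul]
    exact Ideal.mul_mem_right _ _ (hmax _ hwn)
  let ρ : IsLocalRing.ResidueField R →+* IsLocalRing.ResidueField (locAt F n) :=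
    Ideal.Quotient.lift (IsLocalRing.maximalIdeal R) ((IsLocalRing.residue (locAt F n)).comp ι)
      hkill
  have hρ : ∀ r : R, ρ (IsLocalRing.residue R r) = IsLocalRing.residue (locAt F n) (ι r) :=
    fun r => rfl
  refine isAlgClosed_of_surjective ρ ?_
  intro c
  obtain ⟨z, rfl⟩ := IsLocalRing.residue_surjective c
  obtain ⟨r, hr⟩ := exists_const_sub_mem_locAt w x₀ B hC n hwn z
  refine ⟨IsLocalRing.residue R r, ?_⟩
  rw [hρ]
  symm
  rw [← sub_eq_zero, ← map_sub, IsLocalRing.residue_eq_zero_iff]
  exact hr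

end Chart

end Fermat.Agent.Ribet.H132
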