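import Fermat.Agent.Ribet.H704.I6Inst
import Fermat.Agent.Ribet.H132.NodeVal

/-!
# RIBET wall-p, I6 spec v3: leaf NODEVAL, VERBATIM (helper132)

`nodeVal : I6.NodeValStatement` (frozen in `Ribet/H704/I6Inst.lean`), from the node-ring library
`Ribet/H132/NodeVal.lean`.  Also the valuation form of horizontal divisibility:
`horDivFrac_of_horDivVal : I6.HorDivVal K π m u → I6.HorDivFrac K π m u` in a node ring.
-/

set_option autoImplicit false

namespace Fermat.Agent.Ribet.H132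

open Fermat.Agent.Ribet.H704

/-- **NODEVAL** (verbatim). -/
theorem nodeVal : I6.NodeValStatement := by
  intro R K _ _ _ _ _ _ _ _ 𝔭₁ 𝔭₂ π x y hN
  have h := branchData_right hN
  exact ⟨fun u hu => exists_valAt h.vert hu, fun u v v' hv hv' => valAt_unique h.vert hv hv',
    fun u hu => exists_slopeAt h hu, fun u s s' hs hs' => slopeAt_unique h hs hs'⟩

/-- NODEVAL for the first branch. -/
theorem nodeVal_left {R K : Type*} [CommRing R] [IsDomain R] [IsIntegrallyClosed R]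
    [IsNoetherianRing R] [IsLocalRing R] [Field K] [Algebra R K] [IsFractionRing R K]
    {𝔭₁ 𝔭₂ : Ideal R} {π x y : R} (hN : I6.IsNode 𝔭₁ 𝔭₂ π x y) :
    (∀ u : K, u ≠ 0 → ∃ v : ℤ, I6.ValAt K 𝔭₁ π u v) ∧
    (∀ (u : K) (v v' : ℤ), I6.ValAt K 𝔭₁ π u v → I6.ValAt K 𝔭₁ π u v' → v = v') ∧
    (∀ u : K, u ≠ 0 → ∃ s : ℤ, I6.SlopeAt K 𝔭₁ π x u s) ∧
    (∀ (u : K) (s s' : ℤ), I6.SlopeAt K 𝔭₁ π x u s → I6.SlopeAt K 𝔭₁ π x u s' → s = s') := by
  have h := branchData_left hN
  exact ⟨fun u hu => exists_valAt h.vert hu, fun u v v' hv hv' => valAt_unique h.vert hv hv',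
    fun u hu => exists_slopeAt h hu, fun u s s' hs hs' => slopeAt_unique h hs hs'⟩

/-- Horizontal divisibility: the valuation form implies the ring form, in a node ring. -/
theorem horDivFrac_of_horDivVal {R K : Type*} [CommRing R] [IsDomain R] [IsIntegrallyClosed R]
    [IsNoetherianRing R] [IsLocalRing R] [Field K] [Algebra R K] [IsFractionRing R K]
    {𝔭₁ 𝔭₂ : Ideal R} {π x y : R} (hN : I6.IsNode 𝔭₁ 𝔭₂ π x y) {m : ℕ} (hm : m ≠ 0) {u : K}
    (hu : u ≠ 0) (h : I6.HorDivVal K π m u) : I6.HorDivFrac K π m u :=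
  horDivFrac_of_divisible hN hm hu h

end Fermat.Agent.Ribet.H132
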