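import Fermat.Agent.Ribet.H132.WildNode
import Fermat.Agent.Ribet.H132.NodeRes

/-!
# RIBET wall-p, (S4) WILD case: the chart-level cover package (helper132)

`B` a noetherian integrally closed domain with fraction field `F` (a chart of the semistable
model of `X₀(pM')` over the TAME level `E₁ ∋ ζ_p`), `p₁, p₂` the two components of the special
fibre `w = 0`, `L = F(h)`, `h ^ p = g` the cover attached to the split Kummer generator `g = f_t`,
`τ` a generator of `Gal(L/F)`, `(D, D')` a unit pair of exponent `N` prime to `p`,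
`f' ∈ Lˣ` with `τ f' = f' · cst · G ^ p` (PER), `cst = ε₀ w ^ (p j₀)` (peu ramifié),
`𝒲₁, 𝒲₂` ANY valuation subrings of `L` over `B_{p₁}`, `B_{p₂}` (e.g. induced by the Gauss
valuations of a field of `t`-expansions containing `L`), `vᵢ = 𝒲ᵢ(f')`.

All hypotheses are bundled in `WildData`.  Conclusion (`wild_locAt`, `wild_chart`):

  for `δ ≡ v₁ - v₂ (mod p)`, every crossing point `n ⊇ p₁ + p₂` whose local ring `B_n` has
  algebraically closed residue field, and every approximant `gᵢ ∈ Fˣ` of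
  `T = f' ^ N · D ^ δ` at `𝒲ᵢ` (`T / gᵢ ∈ 1 + w 𝒲ᵢ`):
  the slope of `gᵢ` at `n` along `pᵢ` (`I6.SlopeAt` in `B_n`) is divisible by `p`.

So the slopes of the cover are read off on functions of `F` itself: no model of the cover and no
`t`-expansion on `L` is needed downstream (approximants exist by `H132/Density.lean`).
-/

set_option autoImplicit false
set_option linter.unusedSectionVars false
set_option linter.style.haveILetI false
set_option linter.unusedVariables false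

namespace Fermat.Agent.Ribet.H132

open Fermat.Agent.Ribet.H704 Fermat.Agent.A2 Fermat.Agent.A2.H849 Fermat.Agent.A2.Alg.H132
  Fermat.Agent.A2.H609

/-- The chart-level hypotheses of the WILD cover package. -/
structure WildData {B F L : Type} [CommRing B] [Field F] [Algebra B F] [Field L] [Algebra F L]
    (w : B) (p₁ p₂ : Ideal B) (p N : ℕ) (g : F) (h : L) (τ : L ≃ₐ[F] L) (D D' : B)
    (f' cst G : L) (𝒲₁ 𝒲₂ : ValuationSubring L) (v₁ v₂ : ℤ) : Prop where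
  hp : p.Prime
  /-- `ζ_p ∈ B`, `λ = ζ - 1 = η w ^ e`, `λ ^ (p - 1) = p ε`. -/
  cyclo : ∃ (ζ lam ε η : B) (e : ℕ), IsPrimitiveRoot ζ p ∧ lam = ζ - 1 ∧ IsUnit ε ∧
    lam ^ (p - 1) = (p : B) * ε ∧ IsUnit η ∧ 0 < e ∧ lam = η * w ^ e
  g_ne : g ≠ 0
  /-- `g` is horizontally `p`-divisible. -/
  g_div : I6.HorDivVal F w p g
  /-- `g` is a `p`-th power in the completions of both components. -/
  split₁ : I6.SplitAt F p₁ w p g
  split₂ : I6.SplitAt F p₂ w p g
  h_pow : h ^ p = algebraMap F L g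
  h_top : IntermediateField.adjoin F ({h} : Set L) = ⊤
  gen : ∀ σ : L ≃ₐ[F] L, σ ∈ Subgroup.zpowers τ
  coprime : Nat.Coprime N p
  D_mul : D * D' = w ^ N
  D_notMem : D ∉ p₁
  D'_notMem : D' ∉ p₂
  f'_ne : f' ≠ 0
  G_ne : G ≠ 0
  /-- PER. -/
  period : τ f' = f' * cst * G ^ p
  /-- peu ramifié: the period is a unit times a `p`-th power of the uniformiser. -/
  const : ∃ (ε₀ : B) (j₀ : ℤ), IsUnit ε₀ ∧
    cst = algebraMap F L (algebraMap B F ε₀ * (algebraMap B F w) ^ ((p : ℤ) * j₀))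
  /-- `f'` is horizontally `p`-divisible on the cover. -/
  f'_div : ∀ V : ValuationSubring L, IsDiscreteValuationRing V →
    (∀ b : B, algebraMap F L (algebraMap B F b) ∈ V) →
    (algebraMap F L (algebraMap B F w))⁻¹ ∈ V → ∃ a u₀ : L, u₀ ∈ V ∧ u₀⁻¹ ∈ V ∧ f' = u₀ * a ^ p
  /-- `𝒲₁ ∩ F = B_{p₁}`. -/
  sheet₁ : ∀ t : F, algebraMap F L t ∈ 𝒲₁ ↔
    ∃ a s : B, s ∉ p₁ ∧ t = algebraMap B F a * (algebraMap B F s)⁻¹
  /-- `𝒲₂ ∩ F = B_{p₂}`. -/
  sheet₂ : ∀ t : F, algebraMap F L t ∈ 𝒲₂ ↔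
    ∃ a s : B, s ∉ p₂ ∧ t = algebraMap B F a * (algebraMap B F s)⁻¹
  val₁ : IsWVal 𝒲₁ (algebraMap F L (algebraMap B F w)) f' v₁
  val₂ : IsWVal 𝒲₂ (algebraMap F L (algebraMap B F w)) f' v₂

section LocAt

variable {B F L : Type} [CommRing B] [IsDomain B] [IsNoetherianRing B] [IsIntegrallyClosed B]
  [Field F] [Algebra B F] [IsFractionRing B F] [Field L] [Algebra F L]

/-- The branch valuation ring of `B_n` along `p B_n` is `B_p`. -/
theorem vertVal_locAt_eq {w : B} {p q n : Ideal B} [p.IsPrime] [n.IsPrime] (hpn : p ≤ n)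
    (hV : VertData w p q)
    (hV' : VertData (algebraMap B (locAt F n) w) (p.map (algebraMap B (locAt F n)))
      (q.map (algebraMap B (locAt F n)))) :
    vertVal (F := F) hV' = vertVal (F := F) hV := by
  have := vertVal_comap hV hV' (RingHom.id F) (algebraMap B (locAt F n)) (fun r => rfl)
    (fun r hr hm => hr ((algebraMap_mem_map_iff hpn r).1 hm)) rfl
  rw [← this]
  ext t
  rfl

/-- **WILD cover package at a crossing point of an abstract chart.** -/
theorem wild_locAt [FiniteDimensional F L] [IsGalois F L]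
    {w : B} {p₁ p₂ : Ideal B} [hp₁ : p₁.IsPrime] [hp₂ : p₂.IsPrime]
    (hinf : p₁ ⊓ p₂ = Ideal.span {w}) (h₁₂ : ¬ p₁ ≤ p₂) (h₂₁ : ¬ p₂ ≤ p₁)
    {p N : ℕ} {g : F} {h : L} {τ : L ≃ₐ[F] L} {D D' : B} {f' cst G : L}
    {𝒲₁ 𝒲₂ : ValuationSubring L} {v₁ v₂ : ℤ}
    (hW : WildData w p₁ p₂ p N g h τ D D' f' cst G 𝒲₁ 𝒲₂ v₁ v₂)
    {δ : ℤ} (hδ : (p : ℤ) ∣ δ - (v₁ - v₂))
    (n : Ideal B) [hn : n.IsPrime] (h₁ : p₁ ≤ n) (h₂ : p₂ ≤ n)
    (hk : IsAlgClosed (IsLocalRing.ResidueField (locAt F n)))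
    (x y : locAt F n)
    (hN : I6.IsNode (p₁.map (algebraMap B (locAt F n))) (p₂.map (algebraMap B (locAt F n)))
      (algebraMap B (locAt F n) w) x y) :
    (∀ g₁ : F, g₁ ≠ 0 →
      (f' ^ N * (algebraMap F L (algebraMap B F D)) ^ δ / algebraMap F L g₁ - 1) /
        algebraMap F L (algebraMap B F w) ∈ 𝒲₁ →
      ∀ s : ℤ, I6.SlopeAt F (p₁.map (algebraMap B (locAt F n))) (algebraMap B (locAt F n) w) x
        g₁ s → (p : ℤ) ∣ s) ∧
    (∀ g₂ : F, g₂ ≠ 0 →
      (f' ^ N * (algebraMap F L (algebraMap B F D)) ^ δ / algebraMap F L g₂ - 1) /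
        algebraMap F L (algebraMap B F w) ∈ 𝒲₂ →
      ∀ s : ℤ, I6.SlopeAt F (p₂.map (algebraMap B (locAt F n))) (algebraMap B (locAt F n) w) y
        g₂ s → (p : ℤ) ∣ s) := by
  haveI : IsScalarTower (locAt F n) F L := inferInstance
  set ψ : B →+* locAt F n := algebraMap B (locAt F n) with hψ
  have hψinj : Function.Injective ψ := by
    intro a b hab
    apply IsFractionRing.injective B F
    have := congrArg (fun z : locAt F n => (z : F)) hab
    exact this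
  obtain ⟨ζ, lam, ε, η, e, hζ, hlamζ, hε, hlam_p, hη, he, hlam⟩ := hW.cyclo
  obtain ⟨ε₀, j₀, hε₀, hcst⟩ := hW.const
  have hw0 : w ≠ 0 := fun h0 => isNode_pi_ne_zero hN (by rw [h0, map_zero])
  have hV₁ : VertData w p₁ p₂ := ⟨hp₁, hw0, h₂₁, hinf⟩
  have hV₂ : VertData w p₂ p₁ := ⟨hp₂, hw0, h₁₂, by rw [inf_comm]; exact hinf⟩
  have hsh₁ : 𝒲₁.comap (algebraMap F L) = vertVal (F := F) (vertData_left hN) := by
    rw [vertVal_locAt_eq h₁ hV₁ (vertData_left hN)]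
    ext t
    rw [ValuationSubring.mem_comap, hW.sheet₁ t, mem_vertVal_iff hV₁ t]
  have hsh₂ : 𝒲₂.comap (algebraMap F L) = vertVal (F := F) (vertData_right hN) := by
    rw [vertVal_locAt_eq h₂ hV₂ (vertData_right hN)]
    ext t
    rw [ValuationSubring.mem_comap, hW.sheet₂ t, mem_vertVal_iff hV₂ t]
  refine wild_node (R := locAt F n) (K := F) (L := L) hN hk hW.hp (ζ := ψ ζ)
    (hζ.map_of_injective hψinj) (lam := ψ lam) (ε := ψ ε) (η := ψ η) (e := e)
    (by rw [hlamζ, map_sub, map_one]) (hε.map ψ)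
    (by rw [← map_pow, hlam_p, map_mul, map_natCast]) (hη.map ψ) he
    (by rw [hlam, map_mul, map_pow]) hW.g_ne ?_ ?_ ?_ hW.h_pow hW.h_top τ hW.gen hW.coprime
    (D := ψ D) (D' := ψ D') ?_ hW.f'_ne hW.G_ne hW.period (ε₀ := ψ ε₀) (hε₀.map ψ) (j₀ := j₀) ?_ ?_
    𝒲₁ 𝒲₂ hsh₁ hsh₂ hW.val₁ hW.val₂ hδ
  · -- `g` horizontally divisible
    intro V hV hR hπ
    exact hW.g_div V hV (fun b => hR (ψ b)) hπ
  · intro k
    obtain ⟨h', r, t, hr, he'⟩ := hW.split₁ k
    exact ⟨h', ψ r, ψ t, fun hm => hr ((algebraMap_mem_map_iff h₁ r).1 hm), he'⟩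
  · intro k
    obtain ⟨h', r, t, hr, he'⟩ := hW.split₂ k
    exact ⟨h', ψ r, ψ t, fun hm => hr ((algebraMap_mem_map_iff h₂ r).1 hm), he'⟩
  · exact ⟨by rw [← map_mul, hW.D_mul, map_pow],
      fun hm => hW.D_notMem ((algebraMap_mem_map_iff h₁ D).1 hm),
      fun hm => hW.D'_notMem ((algebraMap_mem_map_iff h₂ D').1 hm)⟩
  · rw [hcst, map_mul, map_zpow₀]
    rfl
  · intro V hV hR hπ
    exact hW.f'_div V hV (fun b => hR (ψ b)) hπ

end LocAt

section Chart

variable {R E F L : Type} [CommRing R] [IsDomain R] [IsDiscreteValuationRing R]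
  [IsAlgClosed (IsLocalRing.ResidueField R)]
  [Field E] [CharZero E] [Algebra R E] [IsFractionRing R E]
  [Field F] [Algebra E F] [Algebra R F] [IsScalarTower R E F] [Field L] [Algebra F L]

/-- **WILD cover package at a crossing point of a chart of wall A2** (`Alg.ChartCtx`,
`A2.SSChart`).  The instances on `B` are those of `A2.Alg.H34.chart_instances'`. -/
theorem wild_chart [FiniteDimensional F L] [IsGalois F L]
    (w : R) (x₀ : F) (B : Subalgebra R F) (hC : Alg.ChartCtx E w x₀ B) (c : SSChart w B)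
    [IsNoetherianRing B] [IsIntegrallyClosed B] [IsFractionRing B F]
    {p N : ℕ} {g : F} {h : L} {τ : L ≃ₐ[F] L} {D D' : B} {f' cst G : L}
    {𝒲₁ 𝒲₂ : ValuationSubring L} {v₁ v₂ : ℤ}
    (hW : WildData (algebraMap R B w) c.p₁ c.p₂ p N g h τ D D' f' cst G 𝒲₁ 𝒲₂ v₁ v₂)
    {δ : ℤ} (hδ : (p : ℤ) ∣ δ - (v₁ - v₂))
    (n : Ideal B) [hn : n.IsMaximal] (h₁ : c.p₁ ≤ n) (h₂ : c.p₂ ≤ n)
    (x y : locAt F n)
    (hN : I6.IsNode (c.p₁.map (algebraMap B (locAt F n))) (c.p₂.map (algebraMap B (locAt F n)))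
      (algebraMap B (locAt F n) (algebraMap R B w)) x y) :
    (∀ g₁ : F, g₁ ≠ 0 →
      (f' ^ N * (algebraMap F L (D : F)) ^ δ / algebraMap F L g₁ - 1) /
        algebraMap F L (algebraMap R F w) ∈ 𝒲₁ →
      ∀ s : ℤ, I6.SlopeAt F (c.p₁.map (algebraMap B (locAt F n)))
        (algebraMap B (locAt F n) (algebraMap R B w)) x g₁ s → (p : ℤ) ∣ s) ∧
    (∀ g₂ : F, g₂ ≠ 0 →
      (f' ^ N * (algebraMap F L (D : F)) ^ δ / algebraMap F L g₂ - 1) /
        algebraMap F L (algebraMap R F w) ∈ 𝒲₂ →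
      ∀ s : ℤ, I6.SlopeAt F (c.p₂.map (algebraMap B (locAt F n)))
        (algebraMap B (locAt F n) (algebraMap R B w)) y g₂ s → (p : ℤ) ∣ s) := by
  haveI := c.prime₁
  haveI := c.prime₂
  have hwn : algebraMap R B w ∈ n := h₁ (Fermat.Agent.A2.Alg.H132.uniformiser_mem_p₁ c)
  have hk := isAlgClosed_residueField_locAt (E := E) w x₀ B hC n hwn
  exact wild_locAt c.inf_eq c.not_le₁₂ c.not_le₂₁ hW hδ n h₁ h₂ hk x y hN

end Chart

end Fermat.Agent.Ribet.H132
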