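import Fermat.Agent.Ribet.H132.WildPureNode
import Fermat.Agent.Ribet.H132.LocHom
import Fermat.Agent.Ribet.H132.NodeRes

/-!
# RIBET wall-p, (S4) WILD case: `WildChartStatement` (helper132)

`wildChart : H704.CoreOut.WildChartStatement` (frozen in `Ribet/H704/WildSpec.lean`), VERBATIM.

* `wildChart_core` : the statement with the fields of `WildFrame` as explicit hypotheses;
* `wildChart`      : the leaf.

Route (docstring of `WildSpec.lean`): the exponent `i₀` of `H132.instC_global` (level `1`);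
at a crossing point `n` of `B₂`, `n₁ = n ∩ B₁` is a crossing point of `B₁`, the local rings
`R₁ = (B₁)_{n₁} ⊆ R₂ = (B₂)_n` are node rings (`H132.exists_isNode_chart`) and
`H132.wild_pure_node` (split-loc + cover node rings + (A3) + (A2)) gives the purity of
`f₂ D₂ ^ i` in `R₂`, `i = i₀ mod p`.
-/

set_option autoImplicit false
set_option linter.unusedSectionVars false
set_option linter.style.haveILetI false
set_option linter.unusedVariables false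
set_option maxHeartbeats 4000000
set_option synthInstance.maxHeartbeats 400000

namespace Fermat.Agent.Ribet.H132

open Fermat.Agent.Ribet.H704 Fermat.Agent.A2 Fermat.Agent.A2.H849 Fermat.Agent.A2.Alg.H132
  Fermat.Agent.A2.H609

section Chart2

variable {O₁ E₁ K₁ L₁ O₂ E₂ K₂ L₂ : Type}
  [CommRing O₂] [IsDomain O₂] [IsDiscreteValuationRing O₂]
  [Field E₂] [CharZero E₂] [Algebra O₂ E₂] [IsFractionRing O₂ E₂]
  [Field K₂] [Algebra E₂ K₂] [Algebra O₂ K₂] [IsScalarTower O₂ E₂ K₂]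
  [CommRing O₁] [IsDomain O₁] [IsDiscreteValuationRing O₁]
  [Field E₁] [CharZero E₁] [Algebra O₁ E₁] [IsFractionRing O₁ E₁]
  [Field K₁] [Algebra E₁ K₁] [Algebra O₁ K₁] [IsScalarTower O₁ E₁ K₁]
  [Field L₁] [Algebra K₁ L₁] [Algebra E₁ L₁] [IsScalarTower E₁ K₁ L₁]
  [FiniteDimensional K₁ L₁] [IsGalois K₁ L₁]
  [Field L₂] [Algebra K₂ L₂]
  [Algebra O₁ O₂] [Algebra K₁ K₂] [Algebra L₁ L₂] [Algebra K₁ L₂]
  [IsScalarTower K₁ K₂ L₂] [IsScalarTower K₁ L₁ L₂]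
  [Algebra O₁ K₂] [IsScalarTower O₁ O₂ K₂] [IsScalarTower O₁ K₁ K₂]

/-- Every discrete valuation ring of `K` containing the local ring `B_n` of a chart and the
inverse of the uniformiser contains the constants. -/
theorem const_mem_of_locAt {O E K : Type} [CommRing O] [IsDomain O] [IsDiscreteValuationRing O]
    [Field E] [Algebra O E] [IsFractionRing O E] [Field K] [Algebra E K] [Algebra O K]
    [IsScalarTower O E K] {w : O} (hw : Irreducible w) (B : Subalgebra O K)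
    (V : ValuationSubring K) (hB : ∀ b : B, (b : K) ∈ V)
    (hwV : (algebraMap O K w)⁻¹ ∈ V) (e : E) : algebraMap E K e ∈ V :=
  CoreOut.algebraMap_mem_of_inv_unif hw V (fun r => hB (algebraMap O B r)) hwV e

/-- **WILD-CHART**, with the fields of the frame as hypotheses. -/
theorem wildChart_core {p : ℕ} (hp : p.Prime)
    (hk₂ : IsAlgClosed (IsLocalRing.ResidueField O₂))
    (hk₁ : IsAlgClosed (IsLocalRing.ResidueField O₁))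
    {w₂ : O₂} {x₂ : K₂} {B₂ : Subalgebra O₂ K₂} (c₂ : SSChart w₂ B₂)
    (ctx₂ : Alg.ChartCtx E₂ w₂ x₂ B₂)
    {f₂ D₂ : K₂} (hf₂ : f₂ ≠ 0) (hdiv₂ : DivisibleDiv E₂ p f₂)
    {w₁ : O₁} {x₁ : K₁} {B₁ : Subalgebra O₁ K₁} (ctx₁ : Alg.ChartCtx E₁ w₁ x₁ B₁)
    (c₁ : SSChart w₁ B₁)
    (map_mem : ∀ b ∈ B₁, algebraMap K₁ K₂ b ∈ B₂)
    (comp₁ : ∀ (b : B₁) (b' : B₂), (b' : K₂) = algebraMap K₁ K₂ (b : K₁) →
      (b' ∈ c₂.p₁ ↔ b ∈ c₁.p₁))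
    (comp₂ : ∀ (b : B₁) (b' : B₂), (b' : K₂) = algebraMap K₁ K₂ (b : K₁) →
      (b' ∈ c₂.p₂ ↔ b ∈ c₁.p₂))
    (unif : ∃ (η : O₂) (e : ℕ), IsUnit η ∧ 0 < e ∧ algebraMap O₁ O₂ w₁ = η * w₂ ^ e)
    (hp_mem : (p : O₁) ∈ IsLocalRing.maximalIdeal O₁) {ζ : O₁} (hζ : IsPrimitiveRoot ζ p)
    {N : ℕ} {D D' : B₁} (hN : Nat.Coprime N p) (hDD : D * D' = algebraMap O₁ B₁ w₁ ^ N)
    (hD : D ∉ c₁.p₁) (hD' : D' ∉ c₁.p₂) (hD₂ : D₂ = algebraMap K₁ K₂ (D : K₁))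
    (hD₂u : ∀ V : ValuationSubring K₂, (∀ b : B₂, (b : K₂) ∈ V) →
      (algebraMap O₂ K₂ w₂)⁻¹ ∈ V → D₂ ∈ V ∧ D₂⁻¹ ∈ V)
    {ft : K₁} (hft0 : ft ≠ 0) (hft_div : DivisibleDiv E₁ p ft)
    (hft_split₁ : I6.SplitAt K₁ c₁.p₁ (algebraMap O₁ B₁ w₁) p ft)
    (hft_split₂ : I6.SplitAt K₁ c₁.p₂ (algebraMap O₁ B₁ w₁) p ft)
    {h : L₁} (hh : h ^ p = algebraMap K₁ L₁ ft)
    (hadj₁ : IntermediateField.adjoin K₁ ({h} : Set L₁) = ⊤)
    (hadj₂ : IntermediateField.adjoin K₂ ({algebraMap L₁ L₂ h} : Set L₂) = ⊤)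
    (τ : L₁ ≃ₐ[K₁] L₁) (hτ : ∀ g : L₁ ≃ₐ[K₁] L₁, ∃ j : ℕ, g = τ ^ j)
    {f' G : L₁} {c : O₁} (hf' : f' ≠ 0) (hG : G ≠ 0) (hc : IsUnit c)
    (hper : τ f' = f' * algebraMap K₁ L₁ (algebraMap O₁ K₁ c) * G ^ p)
    (hf'_div : DivisibleDiv E₁ p f')
    {lc : E₂} {b : L₂} (hlc : lc ≠ 0) (hb : b ≠ 0)
    (hf₂eq : algebraMap K₂ L₂ f₂ =
      algebraMap K₂ L₂ (algebraMap E₂ K₂ lc) * algebraMap L₁ L₂ f' * b ^ p) :
    ∃ i : ℕ, ∀ n : Ideal B₂, n.IsMaximal → c₂.p₁ ≤ n → c₂.p₂ ≤ n →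
      CoreOut.PureAtChart w₂ B₂ p (f₂ * D₂ ^ i) n := by
  classical
  obtain ⟨hno₁, hic₁, hfr₁⟩ := Fermat.Agent.A2.Alg.H34.chart_instances' w₁ x₁ B₁ ctx₁
  obtain ⟨hno₂, hic₂, hfr₂⟩ := Fermat.Agent.A2.Alg.H34.chart_instances' w₂ x₂ B₂ ctx₂
  haveI := hno₁
  haveI := hic₁
  haveI := hfr₁
  haveI := hno₂
  haveI := hic₂
  haveI := hfr₂
  haveI := c₁.prime₁
  haveI := c₁.prime₂
  haveI := c₂.prime₁
  haveI := c₂.prime₂
  haveI := hk₁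
  haveI := hk₂
  have hgen : ∀ σ : L₁ ≃ₐ[K₁] L₁, σ ∈ Subgroup.zpowers τ := by
    intro σ
    obtain ⟨j, hj⟩ := hτ σ
    exact Subgroup.mem_zpowers_iff.2 ⟨(j : ℤ), by rw [zpow_natCast, hj]⟩
  -- the global exponent
  obtain ⟨i₀, hi₀⟩ := instC_global (B := B₁) (F := K₁) (L := L₁) c₁.inf_eq c₁.not_le₁₂
    c₁.not_le₂₁ τ hgen hN hDD hD hD' hf' hG hper (ε₀ := algebraMap O₁ B₁ c) (hc.map _) (j₀ := 0)
    (by rw [mul_zero, zpow_zero, mul_one]; rfl)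
  have hp0 : (p : ℤ) ≠ 0 := by exact_mod_cast hp.ne_zero
  have hpos : 0 ≤ i₀ % (p : ℤ) := Int.emod_nonneg _ hp0
  set i : ℕ := (i₀ % (p : ℤ)).toNat with hi
  have hi_cast : (i : ℤ) = i₀ % (p : ℤ) := Int.toNat_of_nonneg hpos
  set q : ℤ := i₀ / (p : ℤ) with hq
  have hi₀q : i₀ = (i : ℤ) + (p : ℤ) * q := by
    rw [hi_cast, hq]
    exact (Int.emod_add_mul_ediv i₀ p).symm
  refine ⟨i, fun n hn h₁ h₂ => ?_⟩
  haveI := hn
  haveI : n.IsPrime := hn.isPrime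
  -- the crossing point at level `1`
  set φ : B₁ →+* B₂ := Fermat.Agent.Ribet.H939.subalgHom (algebraMap K₁ K₂) B₁ B₂ map_mem with hφdef
  have hφ : ∀ b, algebraMap B₂ K₂ (φ b) = algebraMap K₁ K₂ (algebraMap B₁ K₁ b) := fun b => rfl
  set n₁ : Ideal B₁ := n.comap φ with hn₁def
  haveI hn₁p : n₁.IsPrime := Ideal.comap_isPrime φ n
  have hn₁ : ∀ b, b ∉ n₁ → φ b ∉ n := fun b hb hm => hb (Ideal.mem_comap.2 hm)
  have hpp₁ : ∀ b, φ b ∈ c₂.p₁ ↔ b ∈ c₁.p₁ := fun b => comp₁ b (φ b) rfl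
  have hpp₂ : ∀ b, φ b ∈ c₂.p₂ ↔ b ∈ c₁.p₂ := fun b => comp₂ b (φ b) rfl
  have h₁' : c₁.p₁ ≤ n₁ := fun b hb => Ideal.mem_comap.2 (h₁ ((hpp₁ b).2 hb))
  have h₂' : c₁.p₂ ≤ n₁ := fun b hb => Ideal.mem_comap.2 (h₂ ((hpp₂ b).2 hb))
  haveI : IsDedekindDomain (B₁ ⧸ c₁.p₁) :=
    Fermat.Agent.A2.Alg.H132.isDedekindDomain_quotient_p₁ w₁ x₁ B₁ ctx₁ c₁
  haveI hn₁m : n₁.IsMaximal :=
    isMaximal_of_dedekind_quotient c₁.p₁ n₁ h₁' (fun hle => c₁.not_le₂₁ (h₂'.trans hle))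
  have hwn₁ : algebraMap O₁ B₁ w₁ ∈ n₁ := h₁' (uniformiser_mem_p₁ c₁)
  have hwn₂ : algebraMap O₂ B₂ w₂ ∈ n := h₁ (uniformiser_mem_p₁ c₂)
  have hkR₁ : IsAlgClosed (IsLocalRing.ResidueField (locAt K₁ n₁)) :=
    isAlgClosed_residueField_locAt (E := E₁) w₁ x₁ B₁ ctx₁ n₁ hwn₁
  have hkR₂ : IsAlgClosed (IsLocalRing.ResidueField (locAt K₂ n)) :=
    isAlgClosed_residueField_locAt (E := E₂) w₂ x₂ B₂ ctx₂ n hwn₂
  -- the node rings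
  obtain ⟨_, _, _, X₁, Y₁, _, _, _, _, hN₁⟩ :=
    exists_isNode_chart (E := E₁) w₁ x₁ B₁ ctx₁ c₁ n₁ h₁' h₂'
  obtain ⟨_, _, _, X₂, Y₂, _, _, _, _, hN₂⟩ :=
    exists_isNode_chart (E := E₂) w₂ x₂ B₂ ctx₂ c₂ n h₁ h₂
  -- the algebra structure `R₁ → R₂`
  letI algR : Algebra (locAt K₁ n₁) (locAt K₂ n) :=
    (locHom132 (algebraMap K₁ K₂) φ hφ n n₁ hn₁).toAlgebra
  have halgR : ∀ a : locAt K₁ n₁, algebraMap (locAt K₁ n₁) (locAt K₂ n) a =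
      locHom132 (algebraMap K₁ K₂) φ hφ n n₁ hn₁ a := fun a => rfl
  haveI tow₁ : IsScalarTower (locAt K₁ n₁) (locAt K₂ n) L₂ :=
    IsScalarTower.of_algebraMap_eq (fun a => by
      show algebraMap K₁ L₂ (a : K₁) = algebraMap K₂ L₂ (algebraMap K₁ K₂ (a : K₁))
      rw [← IsScalarTower.algebraMap_apply K₁ K₂ L₂])
  haveI tow₂ : IsScalarTower (locAt K₁ n₁) L₁ L₂ :=
    IsScalarTower.of_algebraMap_eq (fun a => by
      show algebraMap K₁ L₂ (a : K₁) = algebraMap L₁ L₂ (algebraMap K₁ L₁ (a : K₁))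
      rw [← IsScalarTower.algebraMap_apply K₁ L₁ L₂])
  -- cyclotomic data at level `1`
  have hw₁irr : Irreducible w₁ := ctx₁.hw
  have hw₂irr : Irreducible w₂ := ctx₂.hw
  obtain ⟨ε₀, hε₀, hlamp⟩ := Fermat.Agent.Ribet.H224.wpn_lam_pow hp hζ
  have hlam0 : ζ - 1 ≠ 0 := IsPrimitiveRoot.sub_one_ne_zero hp.one_lt hζ
  have hlam_mem : ζ - 1 ∈ IsLocalRing.maximalIdeal O₁ := by
    have h1 : (ζ - 1) ^ (p - 1) ∈ IsLocalRing.maximalIdeal O₁ := by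
      rw [hlamp]
      exact Ideal.mul_mem_right _ _ hp_mem
    exact (IsLocalRing.maximalIdeal.isMaximal O₁).isPrime.mem_of_pow_mem _ h1
  obtain ⟨e, u, hu⟩ := IsDiscreteValuationRing.eq_unit_mul_pow_irreducible hlam0 hw₁irr
  have he : 0 < e := by
    rcases Nat.eq_zero_or_pos e with h0 | h0
    · exfalso
      rw [h0, pow_zero, mul_one] at hu
      have : IsUnit (ζ - 1) := hu ▸ u.isUnit
      exact (IsLocalRing.mem_maximalIdeal _).1 hlam_mem this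
    · exact h0
  set ι₁ : O₁ →+* locAt K₁ n₁ := (algebraMap B₁ (locAt K₁ n₁)).comp (algebraMap O₁ B₁) with hι₁
  set ι₂ : O₂ →+* locAt K₂ n := (algebraMap B₂ (locAt K₂ n)).comp (algebraMap O₂ B₂) with hι₂
  have hι₁coe : ∀ r : O₁, ((ι₁ r : locAt K₁ n₁) : K₁) = algebraMap O₁ K₁ r := fun r => rfl
  have hι₂coe : ∀ r : O₂, ((ι₂ r : locAt K₂ n) : K₂) = algebraMap O₂ K₂ r := fun r => rfl
  have hO₁inj : Function.Injective (algebraMap O₁ K₁) := by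
    rw [IsScalarTower.algebraMap_eq O₁ E₁ K₁]
    exact (algebraMap E₁ K₁).injective.comp (IsFractionRing.injective O₁ E₁)
  have hι₁inj : Function.Injective ι₁ := by
    intro a b hab
    apply hO₁inj
    rw [← hι₁coe, ← hι₁coe, hab]
  -- the unit pair at `R₁`
  have hDpair : I6.IsUnitPair (c₁.p₁.map (algebraMap B₁ (locAt K₁ n₁)))
      (c₁.p₂.map (algebraMap B₁ (locAt K₁ n₁)))
      (algebraMap B₁ (locAt K₁ n₁) (algebraMap O₁ B₁ w₁))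
      (algebraMap B₁ (locAt K₁ n₁) D) (algebraMap B₁ (locAt K₁ n₁) D') N :=
    ⟨by rw [← map_mul, hDD, map_pow],
      fun hm => hD ((algebraMap_mem_map_iff h₁' D).1 hm),
      fun hm => hD' ((algebraMap_mem_map_iff h₂' D').1 hm)⟩
  -- nonvanishing
  have hw₁K : algebraMap O₁ K₁ w₁ ≠ 0 := (map_ne_zero_iff _ hO₁inj).2 hw₁irr.ne_zero
  have hDK : algebraMap B₁ K₁ D ≠ 0 := by
    intro h0
    have : D = 0 := (IsFractionRing.injective B₁ K₁) (by rw [h0, map_zero])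
    exact hD (this ▸ c₁.p₁.zero_mem)
  have hD'K : algebraMap B₁ K₁ D' ≠ 0 := by
    intro h0
    have : D' = 0 := (IsFractionRing.injective B₁ K₁) (by rw [h0, map_zero])
    exact hD' (this ▸ c₁.p₂.zero_mem)
  have hDDK : algebraMap B₁ K₁ D * algebraMap B₁ K₁ D' = (algebraMap O₁ K₁ w₁) ^ N := by
    rw [← map_mul, hDD, map_pow]
    rfl
  set DL : L₁ := algebraMap K₁ L₁ (algebraMap B₁ K₁ D) with hDL
  have hDL0 : DL ≠ 0 := (map_ne_zero _).2 hDK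
  set u₁ : L₁ := f' * DL ^ i₀ with hu₁def
  have hu₁0 : u₁ ≠ 0 := mul_ne_zero hf' (zpow_ne_zero _ hDL0)
  have hD₂0 : D₂ ≠ 0 := by
    rw [hD₂]
    exact (map_ne_zero _).2 hDK
  have hu₂0 : f₂ * D₂ ^ i ≠ 0 := mul_ne_zero hf₂ (pow_ne_zero _ hD₂0)
  -- horizontal divisibility of `f_t` at `R₁`
  have hftdiv : I6.HorDivVal K₁ (algebraMap B₁ (locAt K₁ n₁) (algebraMap O₁ B₁ w₁)) p ft := by
    intro V hV hR hπ
    have hE : ∀ e : E₁, algebraMap E₁ K₁ e ∈ V :=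
      const_mem_of_locAt hw₁irr B₁ V (fun b => hR (algebraMap B₁ (locAt K₁ n₁) b)) hπ
    obtain ⟨g, u₀, -, hu₀, hu₀', hfu⟩ := hft_div V hV hE
    exact ⟨g, u₀, hu₀, hu₀', hfu⟩
  -- horizontal divisibility of `u₁` on the cover
  have hu₁div : I6.HorDivVal (R := locAt K₁ n₁) L₁
      (algebraMap B₁ (locAt K₁ n₁) (algebraMap O₁ B₁ w₁)) p u₁ := by
    intro V hV hR hπ
    have hRK : ∀ z : locAt K₁ n₁, algebraMap K₁ L₁ (z : K₁) ∈ V := fun z => hR z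
    have hπK : (algebraMap K₁ L₁ (algebraMap O₁ K₁ w₁))⁻¹ ∈ V := hπ
    have hE' : ∀ e : E₁, algebraMap E₁ K₁ e ∈ V.comap (algebraMap K₁ L₁) := by
      refine const_mem_of_locAt hw₁irr B₁ (V.comap (algebraMap K₁ L₁))
        (fun b => ?_) ?_
      · rw [ValuationSubring.mem_comap]
        exact hRK (algebraMap B₁ (locAt K₁ n₁) b)
      · rw [ValuationSubring.mem_comap, map_inv₀]
        exact hπK
    have hE : ∀ e : E₁, algebraMap E₁ L₁ e ∈ V := by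
      intro e
      rw [IsScalarTower.algebraMap_apply E₁ K₁ L₁]
      exact ValuationSubring.mem_comap.1 (hE' e)
    obtain ⟨g, u₀, -, hu₀, hu₀', hfu⟩ := hf'_div V hV hE
    have hDV : DL ∈ V := hRK (algebraMap B₁ (locAt K₁ n₁) D)
    have hD'V : algebraMap K₁ L₁ (algebraMap B₁ K₁ D') ∈ V :=
      hRK (algebraMap B₁ (locAt K₁ n₁) D')
    have hDinv : DL⁻¹ = algebraMap K₁ L₁ (algebraMap B₁ K₁ D') *
        ((algebraMap K₁ L₁ (algebraMap O₁ K₁ w₁))⁻¹) ^ N := by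
      rw [hDL, inv_pow, ← map_pow, ← hDDK, map_mul]
      have h1 : algebraMap K₁ L₁ (algebraMap B₁ K₁ D') ≠ 0 := (map_ne_zero _).2 hD'K
      field_simp
    have hDV' : DL⁻¹ ∈ V := by
      rw [hDinv]
      exact V.mul_mem _ _ hD'V (pow_mem hπK N)
    obtain ⟨hz, hz'⟩ := Fermat.Agent.Ribet.H868.zpow_mem_of_unit868 V hDV hDV' i₀
    refine ⟨g, u₀ * DL ^ i₀, V.mul_mem _ _ hu₀ hz, ?_, ?_⟩
    · rw [mul_inv]
      exact V.mul_mem _ _ hu₀' hz'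
    · rw [hu₁def, hfu]
      ring
  -- horizontal divisibility of `u₂` at `R₂`
  have hu₂div : I6.HorDivVal K₂ (algebraMap B₂ (locAt K₂ n) (algebraMap O₂ B₂ w₂)) p
      (f₂ * D₂ ^ i) := by
    intro V hV hR hπ
    have hBV : ∀ b : B₂, (b : K₂) ∈ V := fun b => hR (algebraMap B₂ (locAt K₂ n) b)
    have hE : ∀ e : E₂, algebraMap E₂ K₂ e ∈ V := const_mem_of_locAt hw₂irr B₂ V hBV hπ
    obtain ⟨g, u₀, -, hu₀, hu₀', hfu⟩ := hdiv₂ V hV hE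
    obtain ⟨hDV, hDV'⟩ := hD₂u V hBV hπ
    refine ⟨g, u₀ * D₂ ^ i, V.mul_mem _ _ hu₀ (pow_mem hDV i), ?_, ?_⟩
    · rw [mul_inv, ← inv_pow]
      exact V.mul_mem _ _ hu₀' (pow_mem hDV' i)
    · rw [hfu]
      ring
  -- the uniformisers
  obtain ⟨η', e', hη', he', hunif⟩ := unif
  have hπ : algebraMap (locAt K₁ n₁) (locAt K₂ n)
      (algebraMap B₁ (locAt K₁ n₁) (algebraMap O₁ B₁ w₁)) =
      ι₂ η' * (algebraMap B₂ (locAt K₂ n) (algebraMap O₂ B₂ w₂)) ^ e' := by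
    apply Subtype.ext
    show algebraMap K₁ K₂ (algebraMap O₁ K₁ w₁) =
      algebraMap O₂ K₂ η' * (algebraMap O₂ K₂ w₂) ^ e'
    rw [← IsScalarTower.algebraMap_apply O₁ K₁ K₂, IsScalarTower.algebraMap_apply O₁ O₂ K₂,
      hunif, map_mul, map_pow]
  -- the constant `lc`
  obtain ⟨εl, j, hεl, hlceq⟩ := exists_unit_mul_zpow_of_ne_zero hw₂irr hlc
  -- the relation in `L₂`
  set Δ : L₂ := algebraMap L₁ L₂ DL with hΔ
  have hΔ0 : Δ ≠ 0 := (map_ne_zero _).2 hDL0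
  have hΔ₂ : algebraMap K₂ L₂ D₂ = Δ := by
    rw [hD₂, hΔ, hDL, ← IsScalarTower.algebraMap_apply K₁ K₂ L₂,
      ← IsScalarTower.algebraMap_apply K₁ L₁ L₂]
    rfl
  have hrel : algebraMap K₂ L₂ (f₂ * D₂ ^ i) =
      algebraMap (locAt K₂ n) L₂ (ι₂ εl) *
        (algebraMap (locAt K₂ n) L₂ (algebraMap B₂ (locAt K₂ n) (algebraMap O₂ B₂ w₂))) ^ j *
        algebraMap L₁ L₂ u₁ * (b * Δ ^ (-q)) ^ p := by
    have e1 : algebraMap (locAt K₂ n) L₂ (ι₂ εl) = algebraMap K₂ L₂ (algebraMap O₂ K₂ εl) := rfl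
    have e2 : algebraMap (locAt K₂ n) L₂
        (algebraMap B₂ (locAt K₂ n) (algebraMap O₂ B₂ w₂)) =
        algebraMap K₂ L₂ (algebraMap O₂ K₂ w₂) := rfl
    have e3 : algebraMap E₂ K₂ lc = algebraMap O₂ K₂ εl * (algebraMap O₂ K₂ w₂) ^ j := by
      rw [hlceq, map_mul, map_zpow₀, ← IsScalarTower.algebraMap_apply O₂ E₂ K₂,
        ← IsScalarTower.algebraMap_apply O₂ E₂ K₂]
    have e4 : Δ ^ i = Δ ^ i₀ * (Δ ^ (-q)) ^ p := by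
      rw [← zpow_natCast (Δ ^ (-q)) p, ← zpow_mul, ← zpow_add₀ hΔ0, ← zpow_natCast Δ i]
      congr 1
      rw [hi₀q]
      ring
    rw [e1, e2, map_mul, map_pow, hf₂eq, e3, hΔ₂, e4, hu₁def, map_mul, map_zpow₀, map_mul,
      map_zpow₀]
    ring
  -- the core
  obtain ⟨d, a, ε, hd, hε, hu₂eq⟩ := wild_pure_node (R₁ := locAt K₁ n₁) (R₂ := locAt K₂ n)
    (K₁ := K₁) (K₂ := K₂) (L₁ := L₁) (L₂ := L₂) hN₁ hN₂ hkR₁ hkR₂
    (locHom132_injective (algebraMap K₁ K₂) φ hφ n n₁ hn₁)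
    (fun a => locHom132_mem_map_iff (algebraMap K₁ K₂) φ hφ n n₁ hn₁ h₁' h₁ hpp₁ a)
    (fun a => locHom132_mem_map_iff (algebraMap K₁ K₂) φ hφ n n₁ hn₁ h₂' h₂ hpp₂ a)
    hp (ζ := ι₁ ζ) (hζ.map_of_injective hι₁inj) (η := ι₁ (u : O₁)) (e := e) (u.isUnit.map ι₁) he
    (by rw [← map_one ι₁, ← map_sub, hu, map_mul, map_pow]; rfl)
    hN hDpair hft0 hftdiv
    (fun k => by
      obtain ⟨h', r, t, hr, he'⟩ := hft_split₁ k
      exact ⟨h', algebraMap B₁ (locAt K₁ n₁) r, algebraMap B₁ (locAt K₁ n₁) t,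
        fun hm => hr ((algebraMap_mem_map_iff h₁' r).1 hm), he'⟩)
    (fun k => by
      obtain ⟨h', r, t, hr, he'⟩ := hft_split₂ k
      exact ⟨h', algebraMap B₁ (locAt K₁ n₁) r, algebraMap B₁ (locAt K₁ n₁) t,
        fun hm => hr ((algebraMap_mem_map_iff h₂' r).1 hm), he'⟩)
    hh hadj₁ hadj₂
    (fun d => ⟨algebraMap K₁ K₂ d, by
      rw [← IsScalarTower.algebraMap_apply K₁ K₂ L₂, ← IsScalarTower.algebraMap_apply K₁ L₁ L₂]⟩)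
    hu₁0 hu₁div
    (fun R' hloc hic hno hfr hN' hc₁ hc₂ v₁ v₂ hv₁ hv₂ =>
      hi₀ n₁ hn₁p h₁' h₂' _ _ hN₁ R' hloc hic hno hfr hN' hc₁ hc₂ v₁ v₂ hv₁ hv₂)
    (η₂ := ι₂ η') (e₂ := e') (hη'.map ι₂) hπ hu₂0 hu₂div (ε₂ := ι₂ εl) (hεl.map ι₂) (j := j)
    (b := b * Δ ^ (-q)) (mul_ne_zero hb (zpow_ne_zero _ hΔ0)) hrel
  -- conclusion
  obtain ⟨α, β, hα, hβ, hαβ⟩ := exists_frac_of_isUnit_locAt n hε
  have hw₂K : algebraMap O₂ K₂ w₂ ≠ 0 := by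
    have hO₂inj : Function.Injective (algebraMap O₂ K₂) := by
      rw [IsScalarTower.algebraMap_eq O₂ E₂ K₂]
      exact (algebraMap E₂ K₂).injective.comp (IsFractionRing.injective O₂ E₂)
    exact (map_ne_zero_iff _ hO₂inj).2 hw₂irr.ne_zero
  refine ⟨d⁻¹, -a, inv_ne_zero hd, α, β, hα, hβ, ?_⟩
  have hu₂eq' : f₂ * D₂ ^ i = (algebraMap O₂ K₂ w₂) ^ a * (ε : K₂) * d ^ p := hu₂eq
  have hαβ' : (ε : K₂) * (β : K₂) = (α : K₂) := hαβ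
  rw [hu₂eq', ← hαβ', zpow_neg, inv_pow]
  have h1 : (algebraMap O₂ K₂ w₂) ^ a ≠ 0 := zpow_ne_zero _ hw₂K
  have h2 : d ^ p ≠ 0 := pow_ne_zero _ hd
  field_simp

end Chart2

/-- **WILD-CHART** (`H704.CoreOut.WildChartStatement`, VERBATIM). -/
theorem wildChart : CoreOut.WildChartStatement := by
  intro p O₂ E₂ K₂ _ _ _ _ _ _ _ _ _ _ _ w₂ x₂ B₂ c₂ f₂ D₂ hp hk₂ ctx₂ hf₂ hdiv₂ W
  letI := W.commRingO₁
  haveI := W.isDomainO₁
  haveI := W.dvrO₁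
  letI := W.fieldE₁
  haveI := W.charZeroE₁
  letI := W.algO₁E₁
  haveI := W.fracO₁E₁
  letI := W.fieldK₁
  letI := W.algE₁K₁
  letI := W.algO₁K₁
  haveI := W.towerO₁E₁K₁
  letI := W.fieldL₁
  letI := W.algK₁L₁
  letI := W.algE₁L₁
  haveI := W.towerE₁K₁L₁
  haveI := W.finK₁L₁
  haveI := W.galK₁L₁
  letI := W.fieldL₂
  letI := W.algK₂L₂
  letI := W.algO₁O₂
  letI := W.algK₁K₂
  letI := W.algL₁L₂
  letI := W.algK₁L₂
  haveI := W.towerK₁K₂L₂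
  haveI := W.towerK₁L₁L₂
  letI := W.algO₁K₂
  haveI := W.towerO₁O₂K₂
  haveI := W.towerO₁K₁K₂
  have hw₂0 : algebraMap O₂ K₂ w₂ ≠ 0 := by
    have hO₂inj : Function.Injective (algebraMap O₂ K₂) := by
      rw [IsScalarTower.algebraMap_eq O₂ E₂ K₂]
      exact (algebraMap E₂ K₂).injective.comp (IsFractionRing.injective O₂ E₂)
    exact (map_ne_zero_iff _ hO₂inj).2 ctx₂.hw.ne_zero
  exact wildChart_core hp hk₂ W.algClosed₁ c₂ ctx₂ hf₂ hdiv₂ W.ctx₁ W.c₁ W.map_mem W.comp₁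
    W.comp₂ W.unif W.hp_mem W.hζ W.hN W.hDD W.hD W.hD' W.hD₂
    (fun V hB hw => W.unit_mem V hB hw hw₂0) W.hft0 W.hft_div W.hft_split₁ W.hft_split₂ W.hh
    W.hadj₁ W.hadj₂ W.τ W.hτ W.hf' W.hG W.hc W.hper W.hf'_div W.hlc W.hb W.hf₂

end Fermat.Agent.Ribet.H132
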