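import Fermat.Agent.Ribet.H132.WildChart

/-!
# RIBET wall-p, (S4) WILD case: INST-C for ANY cover node ring (helper132)

Answer to helper704 #9417 (b).  Setting of `H704/CoreOutSpec.lean` ("WILD in one paragraph"),
level `E₁` only: `B` a chart (noetherian integrally closed domain, fraction field `F`, components
`p₁, p₂` of `w = 0`), `L / F` finite Galois with group generated by `τ`, `(D, D')` a unit pair of
exponent `N` prime to `p`, `τ f' = f' · cst · G ^ p`, `cst = ε₀ w ^ (p j₀)` (PER + peu ramifié).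

* `valAt_zpow`            : `ValAt` of integer powers;
* `valAt_cover_congr`     : abstract node ring `R`, ANY cover node ring `R' ⊆ L` over `R`, sheets
                            `𝒲₁, 𝒲₂` over the branches, `i N ≡ 𝒲₁(f') - 𝒲₂(f') (mod p)`:
                            the two branch valuations of `u₁ = f' · D ^ i` at `R'` are congruent
                            modulo `p`;
* **`instC_global`**      : `∃ i : ℤ`, for EVERY crossing point `n` of `B` and EVERY cover node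
                            ring `R' ⊆ L` over `B_n` (shape of the conclusion of
                            `I6.CoverNodeStatement`): `v₁(f' D ^ i) ≡ v₂(f' D ^ i) (mod p)` at `R'`.
                            (`δ` is global because all branch valuation rings over `B_{pᵢ}` are
                            conjugate under `τ` and `p ∣ v(cst)`.)
  So `H704.CoreOut.NodePureTameStatement` (A3) applies to `u₁` at every `R'`.
-/

set_option autoImplicit false
set_option linter.unusedSectionVars false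
set_option linter.style.haveILetI false
set_option linter.unusedVariables false

namespace Fermat.Agent.Ribet.H132

open Fermat.Agent.Ribet.H704 Fermat.Agent.A2 Fermat.Agent.A2.H849 Fermat.Agent.A2.Alg.H132
  Fermat.Agent.A2.H609

section ValZpow

variable {R : Type*} [CommRing R] [IsDomain R] [IsNoetherianRing R] [IsIntegrallyClosed R]
variable {K : Type*} [Field K] [Algebra R K] [IsFractionRing R K]
variable {π : R} {𝔭 𝔮 : Ideal R}

theorem valAt_zpow (h : VertData π 𝔭 𝔮) {u : K} {v : ℤ} (hv : I6.ValAt K 𝔭 π u v) (n : ℤ) :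
    I6.ValAt K 𝔭 π (u ^ n) (n * v) := by
  rcases Int.eq_nat_or_neg n with ⟨m, rfl | rfl⟩
  · rw [zpow_natCast]; exact valAt_pow h hv m
  · rw [zpow_neg, zpow_natCast]
    have := valAt_inv h (valAt_pow h hv m)
    have e : -((m : ℤ) * v) = -(m : ℤ) * v := by ring
    rwa [e] at this

end ValZpow

section Node

variable {R K L : Type} [CommRing R] [IsDomain R] [IsIntegrallyClosed R] [IsNoetherianRing R]
  [IsLocalRing R] [Field K] [Algebra R K] [IsFractionRing R K] [Field L] [Algebra K L]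
  [Algebra R L] [IsScalarTower R K L]
variable {𝔭₁ 𝔭₂ : Ideal R} {π x y : R}

/-- **INST-C at a cover node ring.**  `R'` ANY node ring in `L` above the node ring `R`;
`𝒲₁, 𝒲₂` sheets over the branches of `R`, `vₖ = 𝒲ₖ(f')`, `i N ≡ v₁ - v₂ (mod p)`.  Then the branch
valuations of `f' · D ^ i` at `R'` are congruent modulo `p`. -/
theorem valAt_cover_congr (hN : I6.IsNode 𝔭₁ 𝔭₂ π x y)
    (R' : Subalgebra R L) [IsLocalRing R'] [IsIntegrallyClosed R'] [IsNoetherianRing R']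
    [IsFractionRing R' L]
    (hN' : I6.IsNode (𝔭₁.map (algebraMap R R')) (𝔭₂.map (algebraMap R R'))
      (algebraMap R R' π) (algebraMap R R' x) (algebraMap R R' y))
    (hc₁ : ∀ a : R, algebraMap R R' a ∈ 𝔭₁.map (algebraMap R R') → a ∈ 𝔭₁)
    (hc₂ : ∀ a : R, algebraMap R R' a ∈ 𝔭₂.map (algebraMap R R') → a ∈ 𝔭₂)
    [FiniteDimensional K L] [IsGalois K L] (τ : L ≃ₐ[K] L)
    (hgen : ∀ σ : L ≃ₐ[K] L, σ ∈ Subgroup.zpowers τ)
    {p N : ℕ} {D D' : R} (hD : I6.IsUnitPair 𝔭₁ 𝔭₂ π D D' N)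
    {f' c G : L} (hf' : f' ≠ 0) (hG : G ≠ 0) (hτ : τ f' = f' * c * G ^ p)
    {ε₀ : R} (hε₀ : IsUnit ε₀) {j₀ : ℤ}
    (hc : c = algebraMap R L ε₀ * (algebraMap R L π) ^ ((p : ℤ) * j₀))
    (𝒲₁ 𝒲₂ : ValuationSubring L)
    (h𝒲₁ : 𝒲₁.comap (algebraMap K L) = vertVal (F := K) (vertData_left hN))
    (h𝒲₂ : 𝒲₂.comap (algebraMap K L) = vertVal (F := K) (vertData_right hN))
    {v₁ v₂ : ℤ} (hv₁ : IsWVal 𝒲₁ (algebraMap R L π) f' v₁)
    (hv₂ : IsWVal 𝒲₂ (algebraMap R L π) f' v₂)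
    {i : ℤ} (hi : (p : ℤ) ∣ i * N - (v₁ - v₂)) {w₁ w₂ : ℤ}
    (hw₁ : I6.ValAt L (𝔭₁.map (algebraMap R R')) (algebraMap R R' π)
      (f' * (algebraMap R L D) ^ i) w₁)
    (hw₂ : I6.ValAt L (𝔭₂.map (algebraMap R R')) (algebraMap R R' π)
      (f' * (algebraMap R L D) ^ i) w₂) :
    (p : ℤ) ∣ w₁ - w₂ := by
  have hB₁ := branchData_left hN
  have hB₂ := branchData_right hN
  have hB₁' := branchData_left hN'
  have hB₂' := branchData_right hN'
  obtain ⟨a₁, ha₁⟩ := exists_valAt (K := L) hB₁'.vert hf'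
  obtain ⟨a₂, ha₂⟩ := exists_valAt (K := L) hB₂'.vert hf'
  have hcong₁ := valAt_congr_sheet hB₁ hB₁' hc₁ τ hgen 𝒲₁ h𝒲₁ hG hτ hε₀ hc hv₁ ha₁
  have hcong₂ := valAt_congr_sheet hB₂ hB₂' hc₂ τ hgen 𝒲₂ h𝒲₂ hG hτ hε₀ hc hv₂ ha₂
  -- valuations of `D`
  have hD₁ : I6.ValAt L (𝔭₁.map (algebraMap R R')) (algebraMap R R' π) (algebraMap R L D) 0 :=
    valAt_of_notMem (K := L) hB₁'.vert (a := algebraMap R R' D) (fun hm => hD.hD (hc₁ _ hm))
  have hD₂ : I6.ValAt L (𝔭₂.map (algebraMap R R')) (algebraMap R R' π) (algebraMap R L D) N := by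
    have hD'0 : algebraMap R L D' ≠ 0 := by
      rw [IsScalarTower.algebraMap_apply R K L]
      exact (map_ne_zero _).2 (algebraMap_ne_zero (fun h0 => hD.hD' (h0 ▸ 𝔭₂.zero_mem)))
    have e : algebraMap R L D = (algebraMap R L π) ^ N * (algebraMap R L D')⁻¹ := by
      rw [← map_pow, ← hD.mul_eq, map_mul]
      field_simp
    have h1 : I6.ValAt L (𝔭₂.map (algebraMap R R')) (algebraMap R R' π) (algebraMap R L D') 0 :=
      valAt_of_notMem (K := L) hB₂'.vert (a := algebraMap R R' D') (fun hm => hD.hD' (hc₂ _ hm))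
    have h2 := valAt_mul hB₂'.vert (valAt_pow hB₂'.vert (valAt_pi (K := L) hB₂'.vert) N)
      (valAt_inv hB₂'.vert h1)
    rw [e]
    have e2 : ((N : ℤ) * 1 + -0) = (N : ℤ) := by ring
    rw [e2] at h2
    exact h2
  have h1 := valAt_mul hB₁'.vert ha₁ (valAt_zpow hB₁'.vert hD₁ i)
  have h2 := valAt_mul hB₂'.vert ha₂ (valAt_zpow hB₂'.vert hD₂ i)
  have e1 := valAt_unique hB₁'.vert hw₁ h1
  have e2 := valAt_unique hB₂'.vert hw₂ h2
  rw [e1, e2]
  have : a₁ + i * 0 - (a₂ + i * (N : ℤ)) = (a₁ - v₁) - (a₂ - v₂) - (i * N - (v₁ - v₂)) := by ring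
  rw [this]
  exact dvd_sub (dvd_sub hcong₁ hcong₂) hi

end Node

section Global

variable {B F L : Type} [CommRing B] [IsDomain B] [IsNoetherianRing B] [IsIntegrallyClosed B]
  [Field F] [Algebra B F] [IsFractionRing B F] [Field L] [Algebra F L]

/-- **INST-C, global form** (helper704 #9417 (b)).  There is ONE exponent `i` such that at EVERY
cover node ring `R' ⊆ L` over EVERY crossing point `n` of the chart `B`, the two branch
valuations of `u₁ = f' · D ^ i` are congruent modulo `p`.  (No hypothesis on how `R'` was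
constructed; `R'` has the shape of the conclusion of `I6.CoverNodeStatement` over `B_n`.) -/
theorem instC_global [FiniteDimensional F L] [IsGalois F L]
    {w : B} {p₁ p₂ : Ideal B} [hp₁ : p₁.IsPrime] [hp₂ : p₂.IsPrime]
    (hinf : p₁ ⊓ p₂ = Ideal.span {w}) (h₁₂ : ¬ p₁ ≤ p₂) (h₂₁ : ¬ p₂ ≤ p₁)
    (τ : L ≃ₐ[F] L) (hgen : ∀ σ : L ≃ₐ[F] L, σ ∈ Subgroup.zpowers τ)
    {p N : ℕ} (hNp : Nat.Coprime N p) {D D' : B} (hDmul : D * D' = w ^ N) (hD₁ : D ∉ p₁)
    (hD₂ : D' ∉ p₂)
    {f' cst G : L} (hf' : f' ≠ 0) (hG : G ≠ 0) (hτ : τ f' = f' * cst * G ^ p)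
    {ε₀ : B} (hε₀ : IsUnit ε₀) {j₀ : ℤ}
    (hcst : cst = algebraMap F L (algebraMap B F ε₀ * (algebraMap B F w) ^ ((p : ℤ) * j₀))) :
    ∃ i : ℤ, ∀ (n : Ideal B) (_ : n.IsPrime), p₁ ≤ n → p₂ ≤ n → ∀ (x y : locAt F n),
      I6.IsNode (p₁.map (algebraMap B (locAt F n))) (p₂.map (algebraMap B (locAt F n)))
        (algebraMap B (locAt F n) w) x y →
      ∀ (R' : Subalgebra (locAt F n) L) (_ : IsLocalRing R'), IsIntegrallyClosed R' →
        IsNoetherianRing R' → IsFractionRing R' L →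
        I6.IsNode
          ((p₁.map (algebraMap B (locAt F n))).map (algebraMap (locAt F n) R'))
          ((p₂.map (algebraMap B (locAt F n))).map (algebraMap (locAt F n) R'))
          (algebraMap (locAt F n) R' (algebraMap B (locAt F n) w))
          (algebraMap (locAt F n) R' x) (algebraMap (locAt F n) R' y) →
        (∀ a : locAt F n, algebraMap (locAt F n) R' a ∈
            (p₁.map (algebraMap B (locAt F n))).map (algebraMap (locAt F n) R') →
          a ∈ p₁.map (algebraMap B (locAt F n))) →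
        (∀ a : locAt F n, algebraMap (locAt F n) R' a ∈
            (p₂.map (algebraMap B (locAt F n))).map (algebraMap (locAt F n) R') →
          a ∈ p₂.map (algebraMap B (locAt F n))) →
        ∀ w₁ w₂ : ℤ,
          I6.ValAt L ((p₁.map (algebraMap B (locAt F n))).map (algebraMap (locAt F n) R'))
            (algebraMap (locAt F n) R' (algebraMap B (locAt F n) w))
            (f' * (algebraMap F L (algebraMap B F D)) ^ i) w₁ →
          I6.ValAt L ((p₂.map (algebraMap B (locAt F n))).map (algebraMap (locAt F n) R'))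
            (algebraMap (locAt F n) R' (algebraMap B (locAt F n) w))
            (f' * (algebraMap F L (algebraMap B F D)) ^ i) w₂ →
          (p : ℤ) ∣ w₁ - w₂ := by
  classical
  by_cases hex : ∃ (n₀ : Ideal B) (_ : n₀.IsPrime) (_ : p₁ ≤ n₀) (_ : p₂ ≤ n₀)
      (x₀ y₀ : locAt F n₀)
      (_ : I6.IsNode (p₁.map (algebraMap B (locAt F n₀))) (p₂.map (algebraMap B (locAt F n₀)))
        (algebraMap B (locAt F n₀) w) x₀ y₀)
      (R'₀ : Subalgebra (locAt F n₀) L) (_ : IsLocalRing R'₀) (_ : IsIntegrallyClosed R'₀)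
      (_ : IsNoetherianRing R'₀) (_ : IsFractionRing R'₀ L)
      (_ : I6.IsNode
          ((p₁.map (algebraMap B (locAt F n₀))).map (algebraMap (locAt F n₀) R'₀))
          ((p₂.map (algebraMap B (locAt F n₀))).map (algebraMap (locAt F n₀) R'₀))
          (algebraMap (locAt F n₀) R'₀ (algebraMap B (locAt F n₀) w))
          (algebraMap (locAt F n₀) R'₀ x₀) (algebraMap (locAt F n₀) R'₀ y₀)),
      (∀ a : locAt F n₀, algebraMap (locAt F n₀) R'₀ a ∈
            (p₁.map (algebraMap B (locAt F n₀))).map (algebraMap (locAt F n₀) R'₀) →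
          a ∈ p₁.map (algebraMap B (locAt F n₀))) ∧
      (∀ a : locAt F n₀, algebraMap (locAt F n₀) R'₀ a ∈
            (p₂.map (algebraMap B (locAt F n₀))).map (algebraMap (locAt F n₀) R'₀) →
          a ∈ p₂.map (algebraMap B (locAt F n₀)))
  swap
  · exact ⟨0, fun n hn h₁ h₂ x y hN R' hloc hic hno hfr hN' hc₁ hc₂ w₁ w₂ _ _ =>
      absurd ⟨n, hn, h₁, h₂, x, y, hN, R', hloc, hic, hno, hfr, hN', hc₁, hc₂⟩ hex⟩
  obtain ⟨n₀, hn₀, h₁z, h₂z, x₀, y₀, hN₀, R'₀, hloc₀, hic₀, hno₀, hfr₀, hN'₀, hc₁z, hc₂z⟩ := hex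
  have hw0 : w ≠ 0 := fun h0 => isNode_pi_ne_zero hN₀ (by rw [h0, map_zero])
  have hV₁ : VertData w p₁ p₂ := ⟨hp₁, hw0, h₂₁, hinf⟩
  have hV₂ : VertData w p₂ p₁ := ⟨hp₂, hw0, h₁₂, by rw [inf_comm]; exact hinf⟩
  -- the reference sheets
  set 𝒲₁ : ValuationSubring L := vertVal (F := L) (vertData_left hN'₀) with h𝒲₁def
  set 𝒲₂ : ValuationSubring L := vertVal (F := L) (vertData_right hN'₀) with h𝒲₂def
  have hco₁ : 𝒲₁.comap (algebraMap F L) = vertVal (F := F) hV₁ := by
    rw [h𝒲₁def, vertVal_comap (vertData_left hN₀) (vertData_left hN'₀) (algebraMap F L)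
      (algebraMap (locAt F n₀) R'₀) (algebraMap_tower R'₀) (fun r hr hm => hr (hc₁z r hm)) rfl]
    exact vertVal_locAt_eq h₁z hV₁ (vertData_left hN₀)
  have hco₂ : 𝒲₂.comap (algebraMap F L) = vertVal (F := F) hV₂ := by
    rw [h𝒲₂def, vertVal_comap (vertData_right hN₀) (vertData_right hN'₀) (algebraMap F L)
      (algebraMap (locAt F n₀) R'₀) (algebraMap_tower R'₀) (fun r hr hm => hr (hc₂z r hm)) rfl]
    exact vertVal_locAt_eq h₂z hV₂ (vertData_right hN₀)
  obtain ⟨v₁, hv₁⟩ := exists_valAt (K := L) (vertData_left hN'₀) hf'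
  obtain ⟨v₂, hv₂⟩ := exists_valAt (K := L) (vertData_right hN'₀) hf'
  have hW₁ : IsWVal 𝒲₁ (algebraMap F L (algebraMap B F w)) f' v₁ := by
    obtain ⟨h1, h2, h0⟩ := (valAt_iff (vertData_left hN'₀) f' v₁).1 hv₁
    exact ⟨h0, h1, h2⟩
  have hW₂ : IsWVal 𝒲₂ (algebraMap F L (algebraMap B F w)) f' v₂ := by
    obtain ⟨h1, h2, h0⟩ := (valAt_iff (vertData_right hN'₀) f' v₂).1 hv₂
    exact ⟨h0, h1, h2⟩
  -- the exponent
  have hcop : IsCoprime (N : ℤ) (p : ℤ) := Nat.isCoprime_iff_coprime.2 hNp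
  obtain ⟨a, b, hab⟩ := hcop
  refine ⟨a * (v₁ - v₂), fun n hn h₁ h₂ x y hN R' hloc hic hno hfr hN' hc₁ hc₂ w₁ w₂ hw₁ hw₂ => ?_⟩
  haveI := hn
  haveI := hloc
  haveI := hic
  haveI := hno
  haveI := hfr
  have hi : (p : ℤ) ∣ a * (v₁ - v₂) * N - (v₁ - v₂) := by
    refine ⟨-b * (v₁ - v₂), ?_⟩
    linear_combination (v₁ - v₂) * hab
  have hD : I6.IsUnitPair (p₁.map (algebraMap B (locAt F n))) (p₂.map (algebraMap B (locAt F n)))
      (algebraMap B (locAt F n) w) (algebraMap B (locAt F n) D) (algebraMap B (locAt F n) D') N :=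
    ⟨by rw [← map_mul, hDmul, map_pow],
      fun hm => hD₁ ((algebraMap_mem_map_iff h₁ D).1 hm),
      fun hm => hD₂ ((algebraMap_mem_map_iff h₂ D').1 hm)⟩
  have hc : cst = algebraMap (locAt F n) L (algebraMap B (locAt F n) ε₀) *
      (algebraMap (locAt F n) L (algebraMap B (locAt F n) w)) ^ ((p : ℤ) * j₀) := by
    rw [hcst, map_mul, map_zpow₀]
    rfl
  exact valAt_cover_congr (R := locAt F n) (K := F) (L := L) hN R' hN' hc₁ hc₂ τ hgen hD hf' hG
    hτ (hε₀.map _) hc 𝒲₁ 𝒲₂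
    (hco₁.trans (vertVal_locAt_eq h₁ hV₁ (vertData_left hN)).symm)
    (hco₂.trans (vertVal_locAt_eq h₂ hV₂ (vertData_right hN)).symm) hW₁ hW₂ hi hw₁ hw₂

end Global

end Fermat.Agent.Ribet.H132
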