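import Fermat.Agent.Ribet.H132.NodeValLeaf
import Fermat.Agent.Ribet.H403.NodeRelVal
import Fermat.Agent.Ribet.H403.NodeRel
import Fermat.Agent.Ribet.H873.Sheets

/-!
# RIBET wall-p, (S4) WILD case: library for the chart-level cover package (helper132)

Abstract lemmas (Mathlib + the node-ring library `H132/NodeVal.lean`) used by
`H132/WildNode.lean`:

* `IsWVal 𝒲 ϖ u v` : `u = ϖ ^ v · (unit of 𝒲)` for a valuation subring `𝒲`; calculus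
  (`isWVal_mul`, `isWVal_pow`, `isWVal_unique`, `isWVal_map`);
* `vertVal_comap`  : the branch valuation ring of a node ring `R'` above `R` contracts to the
  branch valuation ring of `R`;
* `slopeAt_map`    : slopes do not change under `R → R'` (same uniformisers);
* `slopeAt_one_add`: `1 + π z`, `z ∈ R_𝔭`, has slope `0`;
* `slopeAt_zpow`, `slopeAt_const`;
* `unitPair_slopes`: for a unit pair `D D' = π ^ N` in a node ring, `ord₁ D = ord₂ D'` and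
  `D` has slopes `(k, -k)`.
-/

set_option autoImplicit false
set_option linter.unusedSectionVars false
set_option linter.style.haveILetI false

namespace Fermat.Agent.Ribet.H132

open Fermat.Agent.Ribet.H704 Fermat.Agent.A2.H849 Fermat.Agent.A2.Alg.H132

/-! ## Valuations with respect to a valuation subring and a uniformiser -/

section WVal

variable {L : Type*} [Field L]

/-- `u = ϖ ^ v · ε` with `ε` a unit of the valuation subring `𝒲`. -/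
def IsWVal (𝒲 : ValuationSubring L) (ϖ u : L) (v : ℤ) : Prop :=
  u ≠ 0 ∧ u * ϖ ^ (-v) ∈ 𝒲 ∧ (u * ϖ ^ (-v))⁻¹ ∈ 𝒲

variable {𝒲 : ValuationSubring L} {ϖ : L}

theorem isWVal_mul (hϖ : ϖ ≠ 0) {u u' : L} {v v' : ℤ} (h : IsWVal 𝒲 ϖ u v)
    (h' : IsWVal 𝒲 ϖ u' v') : IsWVal 𝒲 ϖ (u * u') (v + v') := by
  obtain ⟨h0, h1, h2⟩ := h
  obtain ⟨h0', h1', h2'⟩ := h'
  have e : u * u' * ϖ ^ (-(v + v')) = (u * ϖ ^ (-v)) * (u' * ϖ ^ (-v')) := by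
    rw [neg_add, zpow_add₀ hϖ]; ring
  refine ⟨mul_ne_zero h0 h0', ?_, ?_⟩
  · rw [e]; exact mul_mem h1 h1'
  · rw [e, mul_inv]; exact mul_mem h2 h2'

theorem isWVal_one : IsWVal 𝒲 ϖ (1 : L) 0 := by
  refine ⟨one_ne_zero, ?_, ?_⟩ <;> simp [one_mem]

theorem isWVal_pow (hϖ : ϖ ≠ 0) {u : L} {v : ℤ} (h : IsWVal 𝒲 ϖ u v) (n : ℕ) :
    IsWVal 𝒲 ϖ (u ^ n) (n * v) := by
  induction n with
  | zero => simpa using (isWVal_one (𝒲 := 𝒲) (ϖ := ϖ))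
  | succ n ih =>
    rw [pow_succ]
    have := isWVal_mul hϖ ih h
    have e : (n : ℤ) * v + v = ((n + 1 : ℕ) : ℤ) * v := by push_cast; ring
    rwa [e] at this

theorem isWVal_inv {u : L} {v : ℤ} (h : IsWVal 𝒲 ϖ u v) :
    IsWVal 𝒲 ϖ u⁻¹ (-v) := by
  obtain ⟨h0, h1, h2⟩ := h
  have e : u⁻¹ * ϖ ^ (- -v) = (u * ϖ ^ (-v))⁻¹ := by
    rw [mul_inv, zpow_neg, zpow_neg, inv_inv]
  refine ⟨inv_ne_zero h0, ?_, ?_⟩
  · rw [e]; exact h2
  · rw [e, inv_inv]; exact h1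

theorem isWVal_self (hϖ : ϖ ≠ 0) : IsWVal 𝒲 ϖ ϖ 1 := by
  have e : ϖ * ϖ ^ (-(1 : ℤ)) = 1 := by
    rw [zpow_neg, zpow_one]; exact mul_inv_cancel₀ hϖ
  refine ⟨hϖ, ?_, ?_⟩
  · rw [e]; exact one_mem _
  · rw [e, inv_one]; exact one_mem _

theorem isWVal_zpow_self (hϖ : ϖ ≠ 0) (n : ℤ) : IsWVal 𝒲 ϖ (ϖ ^ n) n := by
  have e : ϖ ^ n * ϖ ^ (-n) = 1 := by
    rw [← zpow_add₀ hϖ, add_neg_cancel, zpow_zero]
  refine ⟨zpow_ne_zero _ hϖ, ?_, ?_⟩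
  · rw [e]; exact one_mem _
  · rw [e, inv_one]; exact one_mem _

/-- A unit of `𝒲` has valuation `0`. -/
theorem isWVal_unit {u : L} (hu : u ∈ 𝒲) (hu' : u⁻¹ ∈ 𝒲) (hu0 : u ≠ 0) : IsWVal 𝒲 ϖ u 0 := by
  refine ⟨hu0, ?_, ?_⟩
  · simpa using hu
  · simpa using hu'

theorem isWVal_unique (hϖ : ϖ ∈ 𝒲) (hϖ' : ϖ⁻¹ ∉ 𝒲) {u : L} {v v' : ℤ}
    (h : IsWVal 𝒲 ϖ u v) (h' : IsWVal 𝒲 ϖ u v') : v = v' := by
  have hϖ0 : ϖ ≠ 0 := by
    rintro rfl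
    exact hϖ' (by simp)
  -- `ϖ ^ n ∈ 𝒲` with `n < 0` is impossible
  have key : ∀ n : ℕ, (ϖ ^ (n + 1))⁻¹ ∉ 𝒲 := by
    intro n hn
    apply hϖ'
    have : ϖ⁻¹ = (ϖ ^ (n + 1))⁻¹ * ϖ ^ n := by
      rw [pow_succ]; field_simp
    rw [this]
    exact mul_mem hn (pow_mem hϖ n)
  obtain ⟨h0, h1, h2⟩ := h
  obtain ⟨-, h1', h2'⟩ := h'
  -- `ϖ ^ (v - v')` and its inverse lie in `𝒲`
  have e1 : ϖ ^ (v - v') = (u * ϖ ^ (-v))⁻¹ * (u * ϖ ^ (-v')) := by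
    rw [sub_eq_add_neg, zpow_add₀ hϖ0, mul_inv, zpow_neg, zpow_neg, inv_inv]
    field_simp
  have e2 : ϖ ^ (v' - v) = (u * ϖ ^ (-v'))⁻¹ * (u * ϖ ^ (-v)) := by
    rw [sub_eq_add_neg, zpow_add₀ hϖ0, mul_inv, zpow_neg, zpow_neg, inv_inv]
    field_simp
  have m1 : ϖ ^ (v - v') ∈ 𝒲 := e1 ▸ mul_mem h2 h1'
  have m2 : ϖ ^ (v' - v) ∈ 𝒲 := e2 ▸ mul_mem h2' h1
  by_contra hne
  rcases lt_or_gt_of_ne hne with hlt | hgt
  · -- `v - v' < 0`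
    obtain ⟨n, hn⟩ : ∃ n : ℕ, v - v' = -((n : ℤ) + 1) := ⟨(v' - v - 1).toNat, by omega⟩
    rw [hn, zpow_neg] at m1
    exact key n (by exact_mod_cast m1)
  · obtain ⟨n, hn⟩ : ∃ n : ℕ, v' - v = -((n : ℤ) + 1) := ⟨(v - v' - 1).toNat, by omega⟩
    rw [hn, zpow_neg] at m2
    exact key n (by exact_mod_cast m2)

/-- Transport along a field automorphism mapping `𝒲` onto `𝒲'` and fixing `ϖ`. -/
theorem isWVal_map {𝒲' : ValuationSubring L} (σ : L ≃+* L)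
    (hσ : ∀ z : L, σ z ∈ 𝒲' ↔ z ∈ 𝒲) (hσϖ : σ ϖ = ϖ) {u : L} {v : ℤ}
    (h : IsWVal 𝒲 ϖ u v) : IsWVal 𝒲' ϖ (σ u) v := by
  obtain ⟨h0, h1, h2⟩ := h
  have e : σ u * ϖ ^ (-v) = σ (u * ϖ ^ (-v)) := by
    rw [map_mul, map_zpow₀, hσϖ]
  refine ⟨fun h => h0 (by simpa using h), ?_, ?_⟩
  · rw [e]; exact (hσ _).2 h1
  · rw [e, ← map_inv₀]; exact (hσ _).2 h2

end WVal

/-! ## Contraction of branch valuation rings -/

section Comap

variable {R : Type*} [CommRing R] [IsDomain R] [IsNoetherianRing R] [IsIntegrallyClosed R]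
variable {R' : Type*} [CommRing R'] [IsDomain R'] [IsNoetherianRing R'] [IsIntegrallyClosed R']
variable {K : Type*} [Field K] [Algebra R K] [IsFractionRing R K]
variable {K' : Type*} [Field K'] [Algebra R' K'] [IsFractionRing R' K']
variable {π : R} {𝔭 𝔮 : Ideal R} {π' : R'} {𝔭' 𝔮' : Ideal R'}

theorem map_mem_vertVal (h : VertData π 𝔭 𝔮) (h' : VertData π' 𝔭' 𝔮') (φ : K →+* K')
    (ψ : R →+* R') (hφψ : ∀ r : R, φ (algebraMap R K r) = algebraMap R' K' (ψ r))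
    (hψ : ∀ r : R, r ∉ 𝔭 → ψ r ∉ 𝔭') {z : K} (hz : z ∈ vertVal (F := K) h) :
    φ z ∈ vertVal (F := K') h' := by
  obtain ⟨a, s, hs, rfl⟩ := (mem_vertVal_iff h z).1 hz
  rw [map_mul, map_inv₀, hφψ, hφψ]
  exact mul_mem (algebraMap_mem_vertVal h' _) (inv_mem_vertVal h' (hψ s hs))

/-- The branch valuation ring of `R'` contracts to the branch valuation ring of `R`. -/
theorem vertVal_comap (h : VertData π 𝔭 𝔮) (h' : VertData π' 𝔭' 𝔮') (φ : K →+* K')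
    (ψ : R →+* R') (hφψ : ∀ r : R, φ (algebraMap R K r) = algebraMap R' K' (ψ r))
    (hψ : ∀ r : R, r ∉ 𝔭 → ψ r ∉ 𝔭') (hπ : ψ π = π') :
    (vertVal (F := K') h').comap φ = vertVal (F := K) h := by
  ext z
  rw [ValuationSubring.mem_comap]
  constructor
  · intro hz
    by_contra hzn
    have hz0 : z ≠ 0 := fun h0 => hzn (h0 ▸ zero_mem _)
    have hzi : z⁻¹ ∈ vertVal (F := K) h :=
      ((vertVal (F := K) h).mem_or_inv_mem z).resolve_left hzn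
    have h1 : z⁻¹ * (algebraMap R K π)⁻¹ ∈ vertVal (F := K) h :=
      mul_inv_mem_vertVal h hzi (by rwa [inv_inv])
    have h2 := map_mem_vertVal h h' φ ψ hφψ hψ h1
    have h3 : (algebraMap R' K' π')⁻¹ = φ z * φ (z⁻¹ * (algebraMap R K π)⁻¹) := by
      rw [← map_mul, ← mul_assoc, mul_inv_cancel₀ hz0, one_mul, map_inv₀, hφψ, hπ]
    exact inv_notMem_vertVal h' h'.w_mem h'.w_ne (h3 ▸ mul_mem hz h2)
  · exact map_mem_vertVal h h' φ ψ hφψ hψ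

end Comap

/-! ## Slopes under `R → R'` -/

section SlopeMap

variable {R R' : Type*} [CommRing R] [CommRing R']
variable {K : Type*} [Field K] [Algebra R K] {K' : Type*} [Field K'] [Algebra R' K']

theorem ordOn_map (ψ : R →+* R') {𝔭 : Ideal R} {𝔭' : Ideal R'} (h𝔭 : 𝔭 ≤ 𝔭'.comap ψ)
    {ϖ a : R} {s : ℕ} (h : I6.OrdOn 𝔭 ϖ a s) : I6.OrdOn 𝔭' (ψ ϖ) (ψ a) s := by
  unfold I6.OrdOn at *
  have := Associated.map (Ideal.quotientMap 𝔭' ψ h𝔭) h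
  rwa [map_pow, Ideal.quotientMap_mk, Ideal.quotientMap_mk] at this

/-- Slopes do not change under a map of node rings with the same uniformisers. -/
theorem slopeAt_map (φ : K →+* K') (ψ : R →+* R')
    (hφψ : ∀ r : R, φ (algebraMap R K r) = algebraMap R' K' (ψ r))
    {𝔭 : Ideal R} {𝔭' : Ideal R'} (hψ : ∀ r : R, r ∉ 𝔭 → ψ r ∉ 𝔭') (h𝔭 : 𝔭 ≤ 𝔭'.comap ψ)
    {π ϖ : R} {u : K} {s : ℤ} (hs : I6.SlopeAt K 𝔭 π ϖ u s) :
    I6.SlopeAt K' 𝔭' (ψ π) (ψ ϖ) (φ u) s := by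
  obtain ⟨v, a, b, i, j, ha, hb, hab, hi, hj, rfl⟩ := hs
  refine ⟨v, ψ a, ψ b, i, j, hψ a ha, hψ b hb, ?_, ordOn_map ψ h𝔭 hi, ordOn_map ψ h𝔭 hj, rfl⟩
  rw [← hφψ, ← hφψ, ← hφψ, ← map_zpow₀, ← map_mul, ← map_mul, hab]

end SlopeMap

/-! ## More on slopes -/

section SlopeMore

variable {R : Type*} [CommRing R] [IsDomain R] [IsNoetherianRing R] [IsIntegrallyClosed R]
variable {K : Type*} [Field K] [Algebra R K] [IsFractionRing R K]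
variable {π ϖ : R} {𝔭 𝔮 : Ideal R}

/-- A `1`-unit of the branch valuation ring has slope `0`. -/
theorem slopeAt_one_add (h : BranchData π 𝔭 𝔮 ϖ) {z : K} (hz : z ∈ vertVal (F := K) h.vert) :
    I6.SlopeAt K 𝔭 π ϖ (1 + algebraMap R K π * z) 0 := by
  have hp := h.vert.prime
  obtain ⟨a, s, hs, rfl⟩ := (mem_vertVal_iff h.vert z).1 hz
  have hs0 : algebraMap R K s ≠ 0 := algebraMap_ne_zero (fun h0 => hs (h0 ▸ 𝔭.zero_mem))
  have hπa : π * a ∈ 𝔭 := 𝔭.mul_mem_right _ h.vert.w_mem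
  have hsa : s + π * a ∉ 𝔭 := fun hm => hs (by simpa using 𝔭.sub_mem hm hπa)
  obtain ⟨j, hj⟩ := h.unif s hs
  have hj' : I6.OrdOn 𝔭 ϖ (s + π * a) j := by
    unfold I6.OrdOn at *
    have : Ideal.Quotient.mk 𝔭 (s + π * a) = Ideal.Quotient.mk 𝔭 s := by
      rw [map_add, Ideal.Quotient.eq_zero_iff_mem.2 hπa, add_zero]
    rwa [this]
  refine ⟨0, s + π * a, s, j, j, hsa, hs, ?_, hj', hj, by ring⟩
  rw [zpow_zero, one_mul, map_add, map_mul]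
  field_simp

theorem slopeAt_zpow (h : BranchData π 𝔭 𝔮 ϖ) {u : K} {s : ℤ}
    (hs : I6.SlopeAt K 𝔭 π ϖ u s) (n : ℤ) : I6.SlopeAt K 𝔭 π ϖ (u ^ n) (n * s) := by
  rcases Int.eq_nat_or_neg n with ⟨m, rfl | rfl⟩
  · rw [zpow_natCast]; exact slopeAt_pow h hs m
  · rw [zpow_neg, zpow_natCast]
    have := slopeAt_inv h (slopeAt_pow h hs m)
    have e : -((m : ℤ) * s) = -(m : ℤ) * s := by ring
    rwa [e] at this

/-- A unit of `R` has slope `0`. -/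
theorem slopeAt_unit (h : BranchData π 𝔭 𝔮 ϖ) {ε : R} (hε : IsUnit ε) :
    I6.SlopeAt K 𝔭 π ϖ (algebraMap R K ε) 0 := by
  have hp := h.vert.prime
  have hεp : ε ∉ 𝔭 := fun hm => hp.ne_top (Ideal.eq_top_of_isUnit_mem _ hm hε)
  have ho : I6.OrdOn 𝔭 ϖ ε 0 := by
    unfold I6.OrdOn
    rw [pow_zero]
    exact associated_one_iff_isUnit.2 (hε.map _)
  simpa using slopeAt_of_ordOn (K := K) h hεp ho

/-- A "constant" `ε · π ^ n` has slope `0`. -/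
theorem slopeAt_const (h : BranchData π 𝔭 𝔮 ϖ) {ε : R} (hε : IsUnit ε) (n : ℤ) :
    I6.SlopeAt K 𝔭 π ϖ (algebraMap R K ε * (algebraMap R K π) ^ n) 0 := by
  have := slopeAt_mul h (slopeAt_unit (K := K) h hε) (slopeAt_zpow h (slopeAt_pi (K := K) h) n)
  simpa using this

end SlopeMore

/-! ## The slopes of a unit pair -/

section UnitPair

variable {R : Type} [CommRing R] [IsDomain R] [IsIntegrallyClosed R] [IsNoetherianRing R]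
  [IsLocalRing R]
variable {K : Type*} [Field K] [Algebra R K] [IsFractionRing R K]
variable {𝔭₁ 𝔭₂ : Ideal R} {π x y : R}

/-- For a unit pair `D · D' = π ^ N` in a node ring: `ord₁ D = ord₂ D' = k`, and `D` has slope
`k` along `𝔭₁` and `-k` along `𝔭₂`. -/
theorem unitPair_slopes (hN : I6.IsNode 𝔭₁ 𝔭₂ π x y) {N : ℕ} (hN0 : 0 < N) {D D' : R}
    (hD : I6.IsUnitPair 𝔭₁ 𝔭₂ π D D' N) :
    ∃ k : ℕ, I6.OrdOn 𝔭₁ x D k ∧ I6.OrdOn 𝔭₂ y D' k ∧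
      I6.SlopeAt K 𝔭₁ π x (algebraMap R K D) k ∧
      I6.SlopeAt K 𝔭₂ π y (algebraMap R K D) (-(k : ℤ)) := by
  obtain ⟨k, hk⟩ := hN.unif₁ D hD.hD
  obtain ⟨k', hk'⟩ := hN.unif₂ D' hD.hD'
  have h1 : (1 : R) ∉ 𝔭₁ := fun h1 => hN.prime₁.ne_top ((Ideal.eq_top_iff_one _).2 h1)
  have hπ₂ : π ∈ 𝔭₂ :=
    (inf_le_right : 𝔭₁ ⊓ 𝔭₂ ≤ 𝔭₂) (hN.inf_eq ▸ Ideal.mem_span_singleton_self π)
  have hnh : I6.NoHorZero π D' := by
    intro 𝔓 h𝔓 hD'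
    have : π ^ N ∈ 𝔓 := hD.mul_eq ▸ 𝔓.mul_mem_left _ hD'
    exact h𝔓.mem_of_pow_mem _ this
  have hkk := Fermat.Agent.Ribet.H403.nodeRelExact_403 R 𝔭₁ 𝔭₂ π x y hN N D D' hN0 hD D' 1 D N
    hD.hD' h1 hD.hD (by rw [mul_one, mul_comm]; exact hD.mul_eq) hnh k' k hk' hk
  have hkeq : k' = k := Nat.eq_of_mul_eq_mul_left hN0 hkk
  subst hkeq
  refine ⟨k', hk, hk', slopeAt_of_ordOn (branchData_left hN) hD.hD hk, ?_⟩
  have hD'0 : algebraMap R K D' ≠ 0 :=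
    algebraMap_ne_zero (fun h0 => hD.hD' (h0 ▸ 𝔭₂.zero_mem))
  have e : algebraMap R K D = (algebraMap R K π) ^ N * (algebraMap R K D')⁻¹ := by
    rw [← map_pow, ← hD.mul_eq, map_mul]
    field_simp
  rw [e]
  have hB := branchData_right hN
  have := slopeAt_mul hB (slopeAt_pow hB (slopeAt_pi (K := K) hB) N)
    (slopeAt_inv hB (slopeAt_of_ordOn (K := K) hB hD.hD' hk'))
  simpa using this

end UnitPair

end Fermat.Agent.Ribet.H132
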