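import Fermat.Agent.Ribet.H132.WildLib
import Fermat.Agent.Ribet.H132.CoverNode
import Fermat.Agent.Ribet.H399.SplitLoc

/-!
# RIBET wall-p, (S4) WILD case: the cover package at ONE node (helper132)

`R` a node ring (`I6.IsNode 𝔭₁ 𝔭₂ π x y`), `K = Frac R`, `L = K(h)`, `h ^ p = g` with `g ∈ Kˣ`
split along both branches (`I6.SplitAt`) and horizontally `p`-divisible; `τ` a generator of
`Gal(L/K)`; `(D, D')` a unit pair of exponent `N` prime to `p`; `f' ∈ Lˣ` horizontally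
`p`-divisible with `τ f' = f' · c · G ^ p`, `c = ε₀ π ^ (p j₀)` (PER + peu ramifié);
`𝒲₁, 𝒲₂` valuation subrings of `L` over the two branch valuation rings `R_{𝔭₁}`, `R_{𝔭₂}`
(ANY sheets; e.g. the restrictions to `L` of the Gauss valuations of a field of `t`-expansions).

* `slopes_mod_p`  (Lemma S): in a node ring, `δ ≡ v₁(u) - v₂(u)` ⟹ both slopes of `u ^ N D ^ δ`
  are divisible by `p` (node relation `H403.nodeRelVal_403` in both orientations).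
* `slope_transfer` (Lemma T): if `T ∈ L` has slope `≡ 0` at a node ring `R' ⊆ L` above `R` and
  `τ T = T · const · H ^ p`, then every `g₁ ∈ K` with `T / g₁ ∈ 1 + π 𝒲` has slope `≡ 0` in `R`.
* `valAt_congr_sheet` (Lemma V): the branch valuation of `f'` at `R'` is `≡ 𝒲(f')  (mod p)`.
* `wild_node_core` : the conclusion for any node ring `R' ⊆ L` above `R`;
* `exists_coverNode_of_split` : `R'` exists (`H399.splitLoc` + `coverNode`);
* **`wild_node`** : for `δ ≡ 𝒲₁(f') - 𝒲₂(f') (mod p)` and every approximant `gᵢ ∈ Kˣ` of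
  `f' ^ N · D ^ δ` at `𝒲ᵢ`, the slope of `gᵢ` along `𝔭ᵢ` in `R` is divisible by `p`.
-/

set_option autoImplicit false
set_option linter.unusedSectionVars false
set_option linter.style.haveILetI false
set_option linter.unusedVariables false

namespace Fermat.Agent.Ribet.H132

open Fermat.Agent.Ribet.H704 Fermat.Agent.A2.H849 Fermat.Agent.A2.Alg.H132

/-! ## Lemma S -/

section LemmaS

variable {R K : Type} [CommRing R] [IsDomain R] [IsIntegrallyClosed R] [IsNoetherianRing R]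
  [IsLocalRing R] [Field K] [Algebra R K] [IsFractionRing R K]
variable {𝔭₁ 𝔭₂ : Ideal R} {π x y : R}

/-- **Lemma S.**  In a node ring with a unit pair of exponent `N` prime to `p`: if `u ∈ Kˣ` is
horizontally `p`-divisible with branch valuations `w₁, w₂` and `δ ≡ w₁ - w₂ (mod p)`, then both
slopes of `u ^ N · D ^ δ` are divisible by `p`. -/
theorem slopes_mod_p (hN : I6.IsNode 𝔭₁ 𝔭₂ π x y) {p : ℕ} (hp : p.Prime) {N : ℕ}
    (hNp : Nat.Coprime N p) {D D' : R} (hD : I6.IsUnitPair 𝔭₁ 𝔭₂ π D D' N)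
    {u : K} (hu : u ≠ 0) (hdiv : I6.HorDivVal K π p u) {w₁ w₂ : ℤ}
    (hw₁ : I6.ValAt K 𝔭₁ π u w₁) (hw₂ : I6.ValAt K 𝔭₂ π u w₂) {δ : ℤ}
    (hδ : (p : ℤ) ∣ δ - (w₁ - w₂)) :
    (∀ s : ℤ, I6.SlopeAt K 𝔭₁ π x (u ^ N * (algebraMap R K D) ^ δ) s → (p : ℤ) ∣ s) ∧
    (∀ s : ℤ, I6.SlopeAt K 𝔭₂ π y (u ^ N * (algebraMap R K D) ^ δ) s → (p : ℤ) ∣ s) := by
  have hN0 : 0 < N := by
    rcases Nat.eq_zero_or_pos N with h0 | h0
    · subst h0
      rw [Nat.coprime_zero_left] at hNp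
      exact absurd hNp hp.one_lt.ne'
    · exact h0
  obtain ⟨k, hk₁, hk₂, hs₁D, hs₂D⟩ := unitPair_slopes (K := K) hN hN0 hD
  have hB₁ := branchData_left hN
  have hB₂ := branchData_right hN
  obtain ⟨a₁, ha₁⟩ := exists_slopeAt (K := K) hB₁ hu
  obtain ⟨a₂, ha₂⟩ := exists_slopeAt (K := K) hB₂ hu
  -- node relation, orientation `(𝔭₁, 𝔭₂)`
  have r₂ := Fermat.Agent.Ribet.H403.nodeRelVal_403 R K 𝔭₁ 𝔭₂ π x y hN p N hp.ne_zero hNp D D' hD
    u hu hdiv w₁ w₂ a₂ k hw₁ hw₂ ha₂ hk₁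
  -- node relation, orientation `(𝔭₂, 𝔭₁)`
  have hD' : I6.IsUnitPair 𝔭₂ 𝔭₁ π D' D N :=
    ⟨by rw [mul_comm]; exact hD.mul_eq, hD.hD', hD.hD⟩
  have r₁ := Fermat.Agent.Ribet.H403.nodeRelVal_403 R K 𝔭₂ 𝔭₁ π y x (isNode_symm hN) p N
    hp.ne_zero hNp D' D hD' u hu hdiv w₂ w₁ a₁ k hw₂ hw₁ ha₁ hk₂
  obtain ⟨q, hq⟩ := hδ
  constructor
  · intro s hs
    have h1 := slopeAt_mul hB₁ (slopeAt_pow hB₁ ha₁ N) (slopeAt_zpow hB₁ hs₁D δ)
    have := slopeAt_unique hB₁ hs h1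
    rw [this]
    obtain ⟨r, hr⟩ := r₁
    refine ⟨r + q * k, ?_⟩
    have : δ = w₁ - w₂ + p * q := by linarith
    rw [this]
    linear_combination hr
  · intro s hs
    have h1 := slopeAt_mul hB₂ (slopeAt_pow hB₂ ha₂ N) (slopeAt_zpow hB₂ hs₂D δ)
    have := slopeAt_unique hB₂ hs h1
    rw [this]
    obtain ⟨r, hr⟩ := r₂
    refine ⟨r - q * k, ?_⟩
    have : δ = w₁ - w₂ + p * q := by linarith
    rw [this]
    linear_combination hr

end LemmaS

/-! ## The cover: Lemmas T and V -/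

section Cover

variable {R K L : Type} [CommRing R] [IsDomain R] [IsIntegrallyClosed R] [IsNoetherianRing R]
  [IsLocalRing R] [Field K] [Algebra R K] [IsFractionRing R K] [Field L] [Algebra K L]
  [Algebra R L] [IsScalarTower R K L]
variable (R' : Subalgebra R L) [IsIntegrallyClosed R'] [IsNoetherianRing R']
  [IsFractionRing R' L]

omit [IsDomain R] [IsIntegrallyClosed R] [IsNoetherianRing R] [IsLocalRing R]
  [IsFractionRing R K] [IsIntegrallyClosed R'] [IsNoetherianRing R'] [IsFractionRing R' L] in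
theorem algebraMap_tower (r : R) :
    algebraMap K L (algebraMap R K r) = algebraMap R' L (algebraMap R R' r) := by
  rw [← IsScalarTower.algebraMap_apply R K L]
  rfl

omit [IsDomain R] [IsIntegrallyClosed R] [IsNoetherianRing R] [IsLocalRing R]
  [IsFractionRing R K] in
/-- Powers of `τ` fix the image of `R`. -/
theorem algEquiv_pow_algebraMap (τ : L ≃ₐ[K] L) (m : ℕ) (r : R) :
    (τ ^ m) (algebraMap R L r) = algebraMap R L r := by
  rw [IsScalarTower.algebraMap_apply R K L]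
  exact (τ ^ m).commutes _

variable {R'}
variable {π ϖ : R} {𝔭 𝔮 : Ideal R}

/-- The sheet of the node ring `R'` along the branch `𝔭` is conjugate to the given sheet `𝒲`. -/
theorem exists_pow_sheet (hB : BranchData π 𝔭 𝔮 ϖ)
    (hB' : BranchData (algebraMap R R' π) (𝔭.map (algebraMap R R')) (𝔮.map (algebraMap R R'))
      (algebraMap R R' ϖ))
    (hcon : ∀ a : R, algebraMap R R' a ∈ 𝔭.map (algebraMap R R') → a ∈ 𝔭)
    [FiniteDimensional K L] [IsGalois K L] (τ : L ≃ₐ[K] L)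
    (hgen : ∀ σ : L ≃ₐ[K] L, σ ∈ Subgroup.zpowers τ)
    (𝒲 : ValuationSubring L) (h𝒲 : 𝒲.comap (algebraMap K L) = vertVal (F := K) hB.vert) :
    ∃ j m : ℕ, (∀ z : L, (τ ^ j) z ∈ 𝒲 ↔ z ∈ vertVal (F := L) hB'.vert) ∧
      ∀ z : L, (τ ^ j) ((τ ^ m) z) = z := by
  have hψ : ∀ r : R, r ∉ 𝔭 → algebraMap R R' r ∉ 𝔭.map (algebraMap R R') :=
    fun r hr hm => hr (hcon r hm)
  have hcomap : (vertVal (F := L) hB'.vert).comap (algebraMap K L) = vertVal (F := K) hB.vert :=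
    vertVal_comap hB.vert hB'.vert (algebraMap K L) (algebraMap R R') (algebraMap_tower R') hψ rfl
  obtain ⟨j, -, hj⟩ := Fermat.Agent.Ribet.H873.exists_pow_forall_mem_iff_of_isGalois τ hgen
    (vertVal (F := L) hB'.vert) 𝒲 (hcomap.trans h𝒲.symm)
  have hcard : Nat.card (L ≃ₐ[K] L) = Module.finrank K L := IsGalois.card_aut_eq_finrank K L
  have hn : 0 < Module.finrank K L := Module.finrank_pos
  have hτn : τ ^ Module.finrank K L = 1 := by
    rw [← hcard]; exact pow_card_eq_one'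
  refine ⟨j, (Module.finrank K L - 1) * j, hj, fun z => ?_⟩
  have e : τ ^ j * τ ^ ((Module.finrank K L - 1) * j) = 1 := by
    rw [← pow_add]
    have : j + (Module.finrank K L - 1) * j = Module.finrank K L * j := by
      obtain ⟨n, hn'⟩ : ∃ n, Module.finrank K L = n + 1 := ⟨Module.finrank K L - 1, by omega⟩
      rw [hn']; simp; ring
    rw [this, pow_mul, hτn, one_pow]
  have := congrArg (fun σ : L ≃ₐ[K] L => σ z) e
  simpa [AlgEquiv.mul_apply] using this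

/-- Iterating the period relation for an algebra automorphism. -/
theorem iterate_period_alg (p : ℕ) (τ : L ≃ₐ[K] L) {T c H : L} (hτ : τ T = T * c * H ^ p)
    (hτc : τ c = c) (hH : H ≠ 0) (m : ℕ) :
    ∃ Hm : L, Hm ≠ 0 ∧ (τ ^ m) T = T * c ^ m * Hm ^ p := by
  obtain ⟨Hm, h1, h2⟩ := I6.iterate_period p (τ : L ≃+* L) T c H hτ hτc m
  refine ⟨Hm, h2 hH, ?_⟩
  rw [← Fermat.Agent.Ribet.H873.toRingEquiv_pow_apply τ m T]
  exact h1

/-- **Lemma T (transfer).**  `T ∈ Lˣ` with slope `≡ 0 (mod p)` at the node ring `R'` above `R`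
along the branch `𝔭`, `τ T = T · c · H ^ p` with `c` a constant.  Then every `g₁ ∈ Kˣ` with
`T / g₁ ∈ 1 + π 𝒲` has slope `≡ 0 (mod p)` in `R` along `𝔭`. -/
theorem slope_transfer (hB : BranchData π 𝔭 𝔮 ϖ)
    (hB' : BranchData (algebraMap R R' π) (𝔭.map (algebraMap R R')) (𝔮.map (algebraMap R R'))
      (algebraMap R R' ϖ))
    (hcon : ∀ a : R, algebraMap R R' a ∈ 𝔭.map (algebraMap R R') → a ∈ 𝔭)
    [FiniteDimensional K L] [IsGalois K L] (τ : L ≃ₐ[K] L)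
    (hgen : ∀ σ : L ≃ₐ[K] L, σ ∈ Subgroup.zpowers τ)
    (𝒲 : ValuationSubring L) (h𝒲 : 𝒲.comap (algebraMap K L) = vertVal (F := K) hB.vert)
    {p : ℕ} {T c H : L} (hT0 : T ≠ 0) (hH : H ≠ 0) (hτ : τ T = T * c * H ^ p)
    {ε₀ : R} (hε₀ : IsUnit ε₀) {n₀ : ℤ}
    (hc : c = algebraMap R L ε₀ * (algebraMap R L π) ^ n₀)
    (hT : ∀ s : ℤ, I6.SlopeAt L (𝔭.map (algebraMap R R')) (algebraMap R R' π)
      (algebraMap R R' ϖ) T s → (p : ℤ) ∣ s)
    {g₁ : K} (hg₁ : g₁ ≠ 0) (happ : (T / algebraMap K L g₁ - 1) / algebraMap R L π ∈ 𝒲)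
    {s : ℤ} (hs : I6.SlopeAt K 𝔭 π ϖ g₁ s) : (p : ℤ) ∣ s := by
  have hψ : ∀ r : R, r ∉ 𝔭 → algebraMap R R' r ∉ 𝔭.map (algebraMap R R') :=
    fun r hr hm => hr (hcon r hm)
  obtain ⟨j, m, hj, hjm⟩ := exists_pow_sheet hB hB' hcon τ hgen 𝒲 h𝒲
  have hπL : algebraMap R L π ≠ 0 := by
    rw [IsScalarTower.algebraMap_apply R K L]
    exact (map_ne_zero _).2 (algebraMap_ne_zero hB.vert.w_ne)
  have hg₁L : algebraMap K L g₁ ≠ 0 := (map_ne_zero _).2 hg₁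
  -- the conjugate `T' = τ ^ m T`
  set T' : L := (τ ^ m) T with hT'
  set z' : L := (τ ^ m) ((T / algebraMap K L g₁ - 1) / algebraMap R L π) with hz'
  have hz'W : z' ∈ vertVal (F := L) hB'.vert := by
    rw [← hj, hz', hjm]
    exact happ
  have hz'eq : z' = (T' / algebraMap K L g₁ - 1) / algebraMap R L π := by
    rw [hz', map_div₀, map_sub, map_div₀, map_one, algEquiv_pow_algebraMap τ m π,
      (τ ^ m).commutes g₁]
  have hT'eq : T' = (1 + algebraMap R' L (algebraMap R R' π) * z') * algebraMap K L g₁ := by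
    have : algebraMap R' L (algebraMap R R' π) = algebraMap R L π := rfl
    rw [this, hz'eq]
    field_simp
    ring
  have h1 := slopeAt_one_add (K := L) hB' hz'W
  have h2 : I6.SlopeAt L (𝔭.map (algebraMap R R')) (algebraMap R R' π) (algebraMap R R' ϖ)
      (algebraMap K L g₁) s :=
    slopeAt_map (algebraMap K L) (algebraMap R R') (algebraMap_tower R') hψ
      Ideal.le_comap_map hs
  have h3 := slopeAt_mul hB' h1 h2
  rw [← hT'eq, zero_add] at h3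
  -- `T' = T · c ^ m · Hm ^ p`
  have hτc : τ c = c := by
    rw [hc, map_mul, map_zpow₀]
    have e1 : τ (algebraMap R L ε₀) = algebraMap R L ε₀ := by
      simpa using algEquiv_pow_algebraMap τ 1 ε₀
    have e2 : τ (algebraMap R L π) = algebraMap R L π := by
      simpa using algEquiv_pow_algebraMap τ 1 π
    rw [e1, e2]
  obtain ⟨Hm, hHm, hiter⟩ := iterate_period_alg p τ hτ hτc hH m
  obtain ⟨sT, hsT⟩ := exists_slopeAt (K := L) hB' hT0
  obtain ⟨sH, hsH⟩ := exists_slopeAt (K := L) hB' hHm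
  have hcs : I6.SlopeAt L (𝔭.map (algebraMap R R')) (algebraMap R R' π) (algebraMap R R' ϖ)
      c 0 := by
    rw [hc]
    exact slopeAt_const (K := L) hB' (hε₀.map (algebraMap R R')) n₀
  have h4 := slopeAt_mul hB' (slopeAt_mul hB' hsT (slopeAt_pow hB' hcs m))
    (slopeAt_pow hB' hsH p)
  rw [← hiter, ← hT'] at h4
  have := slopeAt_unique hB' h3 h4
  rw [this]
  obtain ⟨q, hq⟩ := hT sT hsT
  exact ⟨q + sH, by rw [hq]; ring⟩

/-- **Lemma V.**  The branch valuation of `f'` at the node ring `R'` is congruent modulo `p`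
to its valuation at the given sheet `𝒲`. -/
theorem valAt_congr_sheet (hB : BranchData π 𝔭 𝔮 ϖ)
    (hB' : BranchData (algebraMap R R' π) (𝔭.map (algebraMap R R')) (𝔮.map (algebraMap R R'))
      (algebraMap R R' ϖ))
    (hcon : ∀ a : R, algebraMap R R' a ∈ 𝔭.map (algebraMap R R') → a ∈ 𝔭)
    [FiniteDimensional K L] [IsGalois K L] (τ : L ≃ₐ[K] L)
    (hgen : ∀ σ : L ≃ₐ[K] L, σ ∈ Subgroup.zpowers τ)
    (𝒲 : ValuationSubring L) (h𝒲 : 𝒲.comap (algebraMap K L) = vertVal (F := K) hB.vert)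
    {p : ℕ} {f' c G : L} (hG : G ≠ 0) (hτ : τ f' = f' * c * G ^ p)
    {ε₀ : R} (hε₀ : IsUnit ε₀) {j₀ : ℤ}
    (hc : c = algebraMap R L ε₀ * (algebraMap R L π) ^ ((p : ℤ) * j₀))
    {v : ℤ} (hv : IsWVal 𝒲 (algebraMap R L π) f' v) {w : ℤ}
    (hw : I6.ValAt L (𝔭.map (algebraMap R R')) (algebraMap R R' π) f' w) :
    (p : ℤ) ∣ w - v := by
  obtain ⟨j, m, hj, hjm⟩ := exists_pow_sheet hB hB' hcon τ hgen 𝒲 h𝒲
  have hπK : algebraMap R K π ≠ 0 := algebraMap_ne_zero hB.vert.w_ne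
  have hπL : algebraMap R L π ≠ 0 := by
    rw [IsScalarTower.algebraMap_apply R K L]
    exact (map_ne_zero _).2 hπK
  have hmemK : ∀ t : K, algebraMap K L t ∈ 𝒲 ↔ t ∈ vertVal (F := K) hB.vert := by
    intro t
    rw [← h𝒲]; rfl
  have hπW : algebraMap R L π ∈ 𝒲 := by
    rw [IsScalarTower.algebraMap_apply R K L, hmemK]
    exact algebraMap_mem_vertVal hB.vert π
  have hπW' : (algebraMap R L π)⁻¹ ∉ 𝒲 := by
    rw [IsScalarTower.algebraMap_apply R K L, ← map_inv₀, hmemK]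
    exact inv_notMem_vertVal hB.vert hB.vert.w_mem hB.vert.w_ne
  -- the ring automorphism `σ = τ ^ j`
  have hσπ : (τ ^ j) (algebraMap R L π) = algebraMap R L π := algEquiv_pow_algebraMap τ j π
  have hmap : ∀ {u : L} {n : ℤ},
      I6.ValAt L (𝔭.map (algebraMap R R')) (algebraMap R R' π) u n →
        IsWVal 𝒲 (algebraMap R L π) ((τ ^ j) u) n := by
    intro u n hu
    obtain ⟨h1, h2, h0⟩ := (valAt_iff hB'.vert u n).1 hu
    have hW' : IsWVal (vertVal (F := L) hB'.vert) (algebraMap R L π) u n := ⟨h0, h1, h2⟩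
    exact isWVal_map ((τ ^ j : L ≃ₐ[K] L) : L ≃+* L) (fun z => hj z) hσπ hW'
  have hτc : τ c = c := by
    rw [hc, map_mul, map_zpow₀]
    have e1 : τ (algebraMap R L ε₀) = algebraMap R L ε₀ := by
      simpa using algEquiv_pow_algebraMap τ 1 ε₀
    have e2 : τ (algebraMap R L π) = algebraMap R L π := by
      simpa using algEquiv_pow_algebraMap τ 1 π
    rw [e1, e2]
  obtain ⟨Hj, hHj, hiter⟩ := iterate_period_alg p τ hτ hτc hG j
  have h1 : IsWVal 𝒲 (algebraMap R L π) ((τ ^ j) f') w := hmap hw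
  rw [hiter] at h1
  -- the valuation of `c`
  obtain ⟨ε₁, hε₁⟩ := hε₀.exists_right_inv
  have hεL0 : algebraMap R L ε₀ ≠ 0 := by
    intro h0
    have : algebraMap R L (ε₀ * ε₁) = 0 := by rw [map_mul, h0, zero_mul]
    rw [hε₁, map_one] at this
    exact one_ne_zero this
  have hcW : IsWVal 𝒲 (algebraMap R L π) c ((p : ℤ) * j₀) := by
    rw [hc]
    have hu : IsWVal 𝒲 (algebraMap R L π) (algebraMap R L ε₀) 0 := by
      refine isWVal_unit ?_ ?_ hεL0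
      · rw [IsScalarTower.algebraMap_apply R K L, hmemK]
        exact algebraMap_mem_vertVal hB.vert ε₀
      · have : (algebraMap R L ε₀)⁻¹ = algebraMap R L ε₁ := by
          apply inv_eq_of_mul_eq_one_right
          rw [← map_mul, hε₁, map_one]
        rw [this, IsScalarTower.algebraMap_apply R K L, hmemK]
        exact algebraMap_mem_vertVal hB.vert ε₁
    simpa using isWVal_mul hπL hu (isWVal_zpow_self hπL ((p : ℤ) * j₀))
  -- the valuation of `Hj`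
  obtain ⟨vH, hvH⟩ : ∃ vH : ℤ, IsWVal 𝒲 (algebraMap R L π) Hj vH := by
    have h0 : (τ ^ m) Hj ≠ 0 := (map_ne_zero _).2 hHj
    obtain ⟨n, hn⟩ := exists_valAt (K := L) hB'.vert h0
    have := hmap hn
    rw [hjm] at this
    exact ⟨n, this⟩
  have h2 := isWVal_mul hπL (isWVal_mul hπL hv (isWVal_pow hπL hcW j)) (isWVal_pow hπL hvH p)
  have := isWVal_unique hπW hπW' h1 h2
  rw [this]
  exact ⟨j * j₀ + vH, by ring⟩

end Cover

/-! ## The package at one node -/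

section Package

variable {R K L : Type} [CommRing R] [IsDomain R] [IsIntegrallyClosed R] [IsNoetherianRing R]
  [IsLocalRing R] [Field K] [Algebra R K] [IsFractionRing R K] [Field L] [Algebra K L]
  [Algebra R L] [IsScalarTower R K L]
variable {𝔭₁ 𝔭₂ : Ideal R} {π x y : R}

/-- **The conclusion for a given node ring `R' ⊆ L` above `R`.** -/
theorem wild_node_core (hN : I6.IsNode 𝔭₁ 𝔭₂ π x y)
    (R' : Subalgebra R L) [IsLocalRing R'] [IsIntegrallyClosed R'] [IsNoetherianRing R']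
    [IsFractionRing R' L]
    (hN' : I6.IsNode (𝔭₁.map (algebraMap R R')) (𝔭₂.map (algebraMap R R'))
      (algebraMap R R' π) (algebraMap R R' x) (algebraMap R R' y))
    (hc₁ : ∀ a : R, algebraMap R R' a ∈ 𝔭₁.map (algebraMap R R') → a ∈ 𝔭₁)
    (hc₂ : ∀ a : R, algebraMap R R' a ∈ 𝔭₂.map (algebraMap R R') → a ∈ 𝔭₂)
    [FiniteDimensional K L] [IsGalois K L] (τ : L ≃ₐ[K] L)
    (hgen : ∀ σ : L ≃ₐ[K] L, σ ∈ Subgroup.zpowers τ)
    {p : ℕ} (hp : p.Prime) {N : ℕ} (hNp : Nat.Coprime N p) {D D' : R}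
    (hD : I6.IsUnitPair 𝔭₁ 𝔭₂ π D D' N)
    {f' c G : L} (hf' : f' ≠ 0) (hG : G ≠ 0) (hτ : τ f' = f' * c * G ^ p)
    {ε₀ : R} (hε₀ : IsUnit ε₀) {j₀ : ℤ}
    (hc : c = algebraMap R L ε₀ * (algebraMap R L π) ^ ((p : ℤ) * j₀))
    (hdiv : I6.HorDivVal (R := R) L π p f')
    (𝒲₁ 𝒲₂ : ValuationSubring L)
    (h𝒲₁ : 𝒲₁.comap (algebraMap K L) = vertVal (F := K) (vertData_left hN))
    (h𝒲₂ : 𝒲₂.comap (algebraMap K L) = vertVal (F := K) (vertData_right hN))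
    {v₁ v₂ : ℤ} (hv₁ : IsWVal 𝒲₁ (algebraMap R L π) f' v₁)
    (hv₂ : IsWVal 𝒲₂ (algebraMap R L π) f' v₂)
    {δ : ℤ} (hδ : (p : ℤ) ∣ δ - (v₁ - v₂)) :
    (∀ g₁ : K, g₁ ≠ 0 →
      (f' ^ N * (algebraMap R L D) ^ δ / algebraMap K L g₁ - 1) / algebraMap R L π ∈ 𝒲₁ →
      ∀ s : ℤ, I6.SlopeAt K 𝔭₁ π x g₁ s → (p : ℤ) ∣ s) ∧
    (∀ g₂ : K, g₂ ≠ 0 →
      (f' ^ N * (algebraMap R L D) ^ δ / algebraMap K L g₂ - 1) / algebraMap R L π ∈ 𝒲₂ →
      ∀ s : ℤ, I6.SlopeAt K 𝔭₂ π y g₂ s → (p : ℤ) ∣ s) := by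
  have hB₁ := branchData_left hN
  have hB₂ := branchData_right hN
  have hB₁' := branchData_left hN'
  have hB₂' := branchData_right hN'
  obtain ⟨w₁, hw₁⟩ := exists_valAt (K := L) hB₁'.vert hf'
  obtain ⟨w₂, hw₂⟩ := exists_valAt (K := L) hB₂'.vert hf'
  have hcong₁ := valAt_congr_sheet hB₁ hB₁' hc₁ τ hgen 𝒲₁ h𝒲₁ hG hτ hε₀ hc hv₁ hw₁
  have hcong₂ := valAt_congr_sheet hB₂ hB₂' hc₂ τ hgen 𝒲₂ h𝒲₂ hG hτ hε₀ hc hv₂ hw₂
  have hδ' : (p : ℤ) ∣ δ - (w₁ - w₂) := by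
    have : δ - (w₁ - w₂) = (δ - (v₁ - v₂)) - (w₁ - v₁) + (w₂ - v₂) := by ring
    rw [this]
    exact dvd_add (dvd_sub hδ hcong₁) hcong₂
  have hD' : I6.IsUnitPair (𝔭₁.map (algebraMap R R')) (𝔭₂.map (algebraMap R R'))
      (algebraMap R R' π) (algebraMap R R' D) (algebraMap R R' D') N :=
    ⟨by rw [← map_mul, hD.mul_eq, map_pow], fun h => hD.hD (hc₁ _ h), fun h => hD.hD' (hc₂ _ h)⟩
  have hdiv' : I6.HorDivVal (R := R') L (algebraMap R R' π) p f' :=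
    fun V hV hR hπ => hdiv V hV (fun r => hR (algebraMap R R' r)) hπ
  obtain ⟨hS₁, hS₂⟩ := slopes_mod_p (K := L) hN' hp hNp hD' hf' hdiv' hw₁ hw₂ hδ'
  -- the function `T`
  have hD0 : algebraMap R L D ≠ 0 := by
    rw [IsScalarTower.algebraMap_apply R K L]
    exact (map_ne_zero _).2 (algebraMap_ne_zero (fun h0 => hD.hD (h0 ▸ 𝔭₁.zero_mem)))
  have hT0 : f' ^ N * (algebraMap R L D) ^ δ ≠ 0 :=
    mul_ne_zero (pow_ne_zero _ hf') (zpow_ne_zero _ hD0)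
  have hτD : τ (algebraMap R L D) = algebraMap R L D := by
    simpa using algEquiv_pow_algebraMap τ 1 D
  have hτT : τ (f' ^ N * (algebraMap R L D) ^ δ) =
      f' ^ N * (algebraMap R L D) ^ δ * c ^ N * (G ^ N) ^ p := by
    rw [map_mul, map_pow, map_zpow₀, hτ, hτD]
    ring
  have hcN : c ^ N = algebraMap R L (ε₀ ^ N) * (algebraMap R L π) ^ (((p : ℤ) * j₀) * N) := by
    rw [hc, mul_pow, map_pow, zpow_mul _ ((p : ℤ) * j₀) (N : ℤ), zpow_natCast]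
  exact ⟨fun g₁ hg₁ happ s hs =>
      slope_transfer hB₁ hB₁' hc₁ τ hgen 𝒲₁ h𝒲₁ hT0 (pow_ne_zero N hG) hτT (hε₀.pow N) hcN
        hS₁ hg₁ happ hs,
    fun g₂ hg₂ happ s hs =>
      slope_transfer hB₂ hB₂' hc₂ τ hgen 𝒲₂ h𝒲₂ hT0 (pow_ne_zero N hG) hτT (hε₀.pow N) hcN
        hS₂ hg₂ happ hs⟩

/-- **The node ring of the cover** (`H399.splitLoc` + `coverNode`): for `g ∈ Kˣ` horizontally
`p`-divisible and split along both branches, `L = K(h)`, `h ^ p = g`. -/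
theorem exists_coverNode_of_split (hN : I6.IsNode 𝔭₁ 𝔭₂ π x y)
    (hk : IsAlgClosed (IsLocalRing.ResidueField R))
    {p : ℕ} (hp : p.Prime) {ζ : R} (hζ : IsPrimitiveRoot ζ p)
    {lam ε η : R} {e : ℕ} (hlamζ : lam = ζ - 1) (hε : IsUnit ε)
    (hlam_p : lam ^ (p - 1) = (p : R) * ε) (hη : IsUnit η) (he : 0 < e) (hlam : lam = η * π ^ e)
    {g : K} (hg : g ≠ 0) (hgdiv : I6.HorDivVal K π p g) (hs₁ : I6.SplitAt K 𝔭₁ π p g)
    (hs₂ : I6.SplitAt K 𝔭₂ π p g)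
    {h : L} (hh : h ^ p = algebraMap K L g) (hadj : IntermediateField.adjoin K ({h} : Set L) = ⊤) :
    ∃ (R' : Subalgebra R L) (_ : IsLocalRing R'),
      IsIntegrallyClosed R' ∧ IsNoetherianRing R' ∧ IsFractionRing R' L ∧
      I6.IsNode (𝔭₁.map (algebraMap R R')) (𝔭₂.map (algebraMap R R')) (algebraMap R R' π)
        (algebraMap R R' x) (algebraMap R R' y) ∧
      (∀ a : R, algebraMap R R' a ∈ 𝔭₁.map (algebraMap R R') → a ∈ 𝔭₁) ∧
      (∀ a : R, algebraMap R R' a ∈ 𝔭₂.map (algebraMap R R') → a ∈ 𝔭₂) := by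
  obtain ⟨gr, d, hd, hgd, hg₁, hg₂, hdivr, hsr₁, hsr₂⟩ :=
    Fermat.Agent.Ribet.H399.splitLoc R K 𝔭₁ 𝔭₂ π x y hN p hp g hg hgdiv hs₁ hs₂
  have hdL : algebraMap K L d ≠ 0 := (map_ne_zero _).2 hd
  set h' : L := h * (algebraMap K L d)⁻¹ with hh'
  have hh'p : h' ^ p = algebraMap R L gr := by
    rw [hh', mul_pow, hh, hgd, map_mul, map_pow, inv_pow, IsScalarTower.algebraMap_apply R K L]
    field_simp
  have hadj' : IntermediateField.adjoin K ({h'} : Set L) = ⊤ := by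
    rw [eq_top_iff, ← hadj, IntermediateField.adjoin_le_iff]
    intro z hz
    rw [Set.mem_singleton_iff] at hz
    subst hz
    have h1 : h' ∈ IntermediateField.adjoin K ({h'} : Set L) :=
      IntermediateField.subset_adjoin K _ (Set.mem_singleton h')
    have h2 : algebraMap K L d ∈ IntermediateField.adjoin K ({h'} : Set L) :=
      IntermediateField.algebraMap_mem _ d
    have : z = h' * algebraMap K L d := by
      rw [hh']; field_simp
    rw [this]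
    exact mul_mem h1 h2
  exact coverNode R K L 𝔭₁ 𝔭₂ π x y hN hk p hp ζ hζ lam ε η e hlamζ hε hlam_p hη he hlam gr hg₁
    hg₂ hdivr hsr₁ hsr₂ h' hh'p hadj'

/-- **WILD package at one node.**  See the header. -/
theorem wild_node (hN : I6.IsNode 𝔭₁ 𝔭₂ π x y)
    (hk : IsAlgClosed (IsLocalRing.ResidueField R))
    {p : ℕ} (hp : p.Prime) {ζ : R} (hζ : IsPrimitiveRoot ζ p)
    {lam ε η : R} {e : ℕ} (hlamζ : lam = ζ - 1) (hε : IsUnit ε)
    (hlam_p : lam ^ (p - 1) = (p : R) * ε) (hη : IsUnit η) (he : 0 < e) (hlam : lam = η * π ^ e)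
    {g : K} (hg : g ≠ 0) (hgdiv : I6.HorDivVal K π p g) (hs₁ : I6.SplitAt K 𝔭₁ π p g)
    (hs₂ : I6.SplitAt K 𝔭₂ π p g)
    {h : L} (hh : h ^ p = algebraMap K L g) (hadj : IntermediateField.adjoin K ({h} : Set L) = ⊤)
    [FiniteDimensional K L] [IsGalois K L] (τ : L ≃ₐ[K] L)
    (hgen : ∀ σ : L ≃ₐ[K] L, σ ∈ Subgroup.zpowers τ)
    {N : ℕ} (hNp : Nat.Coprime N p) {D D' : R} (hD : I6.IsUnitPair 𝔭₁ 𝔭₂ π D D' N)
    {f' c G : L} (hf' : f' ≠ 0) (hG : G ≠ 0) (hτ : τ f' = f' * c * G ^ p)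
    {ε₀ : R} (hε₀ : IsUnit ε₀) {j₀ : ℤ}
    (hc : c = algebraMap R L ε₀ * (algebraMap R L π) ^ ((p : ℤ) * j₀))
    (hdiv : I6.HorDivVal (R := R) L π p f')
    (𝒲₁ 𝒲₂ : ValuationSubring L)
    (h𝒲₁ : 𝒲₁.comap (algebraMap K L) = vertVal (F := K) (vertData_left hN))
    (h𝒲₂ : 𝒲₂.comap (algebraMap K L) = vertVal (F := K) (vertData_right hN))
    {v₁ v₂ : ℤ} (hv₁ : IsWVal 𝒲₁ (algebraMap R L π) f' v₁)
    (hv₂ : IsWVal 𝒲₂ (algebraMap R L π) f' v₂)
    {δ : ℤ} (hδ : (p : ℤ) ∣ δ - (v₁ - v₂)) :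
    (∀ g₁ : K, g₁ ≠ 0 →
      (f' ^ N * (algebraMap R L D) ^ δ / algebraMap K L g₁ - 1) / algebraMap R L π ∈ 𝒲₁ →
      ∀ s : ℤ, I6.SlopeAt K 𝔭₁ π x g₁ s → (p : ℤ) ∣ s) ∧
    (∀ g₂ : K, g₂ ≠ 0 →
      (f' ^ N * (algebraMap R L D) ^ δ / algebraMap K L g₂ - 1) / algebraMap R L π ∈ 𝒲₂ →
      ∀ s : ℤ, I6.SlopeAt K 𝔭₂ π y g₂ s → (p : ℤ) ∣ s) := by
  obtain ⟨R', hloc, hic, hnoeth, hfrac, hN', hc₁, hc₂⟩ :=
    exists_coverNode_of_split hN hk hp hζ hlamζ hε hlam_p hη he hlam hg hgdiv hs₁ hs₂ hh hadj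
  haveI := hloc
  haveI := hic
  haveI := hnoeth
  haveI := hfrac
  exact wild_node_core hN R' hN' hc₁ hc₂ τ hgen hp hNp hD hf' hG hτ hε₀ hc hdiv 𝒲₁ 𝒲₂ h𝒲₁ h𝒲₂
    hv₁ hv₂ hδ

end Package

end Fermat.Agent.Ribet.H132
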