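import Fermat.Agent.Ribet.H704.WildSpec
import Fermat.Agent.Ribet.H132.WildInstC
import Fermat.Agent.Ribet.H939.CoverNode2
import Fermat.Agent.Ribet.H7.NodePureTame
import Fermat.Agent.Ribet.H699.PureDescent
import Fermat.Agent.Ribet.H224.WPNBranch

/-!
# RIBET wall-p, (S4) WILD case: purity at one crossing point, two levels (helper132)

Abstract node-level core of `H704.CoreOut.WildChartStatement` (`Ribet/H704/WildSpec.lean`).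

`R₁ ⊆ R₂` node rings (levels `E₁ ⊆ E₂`), `K₁ ⊆ K₂` their fraction fields, `L₁ = K₁(h)`,
`L₂ = K₂(h)`, `h ^ p = f_t`, `f_t` horizontally `p`-divisible and deep split at `R₁`;
`u₁ ∈ L₁ˣ` horizontally `p`-divisible whose two branch valuations at EVERY cover node ring
`R' ⊆ L₁` over `R₁` are congruent modulo `p` (`H132.instC_global`); `u₂ ∈ K₂ˣ` horizontally
`p`-divisible with `u₂ = ε₂ π₂ ^ j · u₁ · b ^ p` in `L₂`.  Then `u₂` is pure in `R₂`: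
`u₂ = π₂ ^ a · ε · d ^ p`, `ε ∈ R₂ˣ`.

Route: `H399.splitLoc` (normalise `f_t` to `g ∈ R₁`), `H939.coverNode2` (cover node rings
`R' ⊆ R''`), `H7.nodePureTame` (A3) at `R'`, transport to `R''`, `H699.pureDescent` (A2).
-/

set_option autoImplicit false
set_option linter.unusedSectionVars false
set_option linter.style.haveILetI false
set_option linter.unusedVariables false
set_option maxHeartbeats 1000000
set_option synthInstance.maxHeartbeats 400000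

namespace Fermat.Agent.Ribet.H132

open Fermat.Agent.Ribet.H704 Fermat.Agent.A2 Fermat.Agent.A2.Alg.H132

section Node2

variable {R₁ R₂ K₁ K₂ L₁ L₂ : Type}
    [CommRing R₁] [IsDomain R₁] [IsIntegrallyClosed R₁] [IsNoetherianRing R₁] [IsLocalRing R₁]
    [CommRing R₂] [IsDomain R₂] [IsIntegrallyClosed R₂] [IsNoetherianRing R₂] [IsLocalRing R₂]
    [Field K₁] [Algebra R₁ K₁] [IsFractionRing R₁ K₁]
    [Field K₂] [Algebra R₂ K₂] [IsFractionRing R₂ K₂]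
    [Field L₁] [Algebra K₁ L₁] [Algebra R₁ L₁] [IsScalarTower R₁ K₁ L₁]
    [Field L₂] [Algebra K₂ L₂] [Algebra R₂ L₂] [IsScalarTower R₂ K₂ L₂]
    [Algebra R₁ R₂] [Algebra L₁ L₂] [Algebra R₁ L₂] [IsScalarTower R₁ R₂ L₂]
    [IsScalarTower R₁ L₁ L₂]

/-- **WILD purity at one crossing point** (two levels).  See the header. -/
theorem wild_pure_node
    {𝔭₁ 𝔭₂ : Ideal R₁} {π₁ x₁ y₁ : R₁} (hN₁ : I6.IsNode 𝔭₁ 𝔭₂ π₁ x₁ y₁)
    {𝔮₁ 𝔮₂ : Ideal R₂} {π₂ x₂ y₂ : R₂} (hN₂ : I6.IsNode 𝔮₁ 𝔮₂ π₂ x₂ y₂)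
    (hk₁ : IsAlgClosed (IsLocalRing.ResidueField R₁))
    (hk₂ : IsAlgClosed (IsLocalRing.ResidueField R₂))
    (hinj : Function.Injective (algebraMap R₁ R₂))
    (hb₁ : ∀ a : R₁, algebraMap R₁ R₂ a ∈ 𝔮₁ ↔ a ∈ 𝔭₁)
    (hb₂ : ∀ a : R₁, algebraMap R₁ R₂ a ∈ 𝔮₂ ↔ a ∈ 𝔭₂)
    {p : ℕ} (hp : p.Prime) {ζ : R₁} (hζ : IsPrimitiveRoot ζ p)
    {η : R₁} {e : ℕ} (hη : IsUnit η) (he : 0 < e) (hlam : ζ - 1 = η * π₁ ^ e)
    {N : ℕ} (hNp : Nat.Coprime N p) {D D' : R₁} (hD : I6.IsUnitPair 𝔭₁ 𝔭₂ π₁ D D' N)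
    {ft : K₁} (hft0 : ft ≠ 0) (hftdiv : I6.HorDivVal K₁ π₁ p ft)
    (hs₁ : I6.SplitAt K₁ 𝔭₁ π₁ p ft) (hs₂ : I6.SplitAt K₁ 𝔭₂ π₁ p ft)
    {h : L₁} (hh : h ^ p = algebraMap K₁ L₁ ft)
    (hadj₁ : IntermediateField.adjoin K₁ ({h} : Set L₁) = ⊤)
    (hadj₂ : IntermediateField.adjoin K₂ ({algebraMap L₁ L₂ h} : Set L₂) = ⊤)
    (hK : ∀ d : K₁, ∃ d' : K₂, algebraMap K₂ L₂ d' = algebraMap L₁ L₂ (algebraMap K₁ L₁ d))
    {u₁ : L₁} (hu₁ : u₁ ≠ 0) (hu₁div : I6.HorDivVal (R := R₁) L₁ π₁ p u₁)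
    (hcong : ∀ (R' : Subalgebra R₁ L₁) (_ : IsLocalRing R'), IsIntegrallyClosed R' →
        IsNoetherianRing R' → IsFractionRing R' L₁ →
        I6.IsNode (𝔭₁.map (algebraMap R₁ R')) (𝔭₂.map (algebraMap R₁ R'))
          (algebraMap R₁ R' π₁) (algebraMap R₁ R' x₁) (algebraMap R₁ R' y₁) →
        (∀ a : R₁, algebraMap R₁ R' a ∈ 𝔭₁.map (algebraMap R₁ R') → a ∈ 𝔭₁) →
        (∀ a : R₁, algebraMap R₁ R' a ∈ 𝔭₂.map (algebraMap R₁ R') → a ∈ 𝔭₂) →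
        ∀ w₁ w₂ : ℤ,
          I6.ValAt L₁ (𝔭₁.map (algebraMap R₁ R')) (algebraMap R₁ R' π₁) u₁ w₁ →
          I6.ValAt L₁ (𝔭₂.map (algebraMap R₁ R')) (algebraMap R₁ R' π₁) u₁ w₂ →
          (p : ℤ) ∣ w₁ - w₂)
    {η₂ : R₂} {e₂ : ℕ} (hη₂ : IsUnit η₂) (hπ : algebraMap R₁ R₂ π₁ = η₂ * π₂ ^ e₂)
    {u₂ : K₂} (hu₂ : u₂ ≠ 0) (hu₂div : I6.HorDivVal K₂ π₂ p u₂)
    {ε₂ : R₂} (hε₂ : IsUnit ε₂) {j : ℤ} {b : L₂} (hb : b ≠ 0)
    (hrel : algebraMap K₂ L₂ u₂ = algebraMap R₂ L₂ ε₂ * (algebraMap R₂ L₂ π₂) ^ j *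
      algebraMap L₁ L₂ u₁ * b ^ p) :
    ∃ (d : K₂) (a : ℤ) (ε : R₂), d ≠ 0 ∧ IsUnit ε ∧
      u₂ = algebraMap R₂ K₂ π₂ ^ a * algebraMap R₂ K₂ ε * d ^ p := by
  classical
  -- (1) normalise `f_t`
  obtain ⟨g, d₀, hd₀, hgd, hg₁, hg₂, hgdiv, hgs₁, hgs₂⟩ :=
    Fermat.Agent.Ribet.H399.splitLoc R₁ K₁ 𝔭₁ 𝔭₂ π₁ x₁ y₁ hN₁ p hp ft hft0 hftdiv hs₁ hs₂
  have hdL : algebraMap K₁ L₁ d₀ ≠ 0 := (map_ne_zero _).2 hd₀
  set h' : L₁ := h * (algebraMap K₁ L₁ d₀)⁻¹ with hh'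
  have hh'p : h' ^ p = algebraMap R₁ L₁ g := by
    rw [hh', mul_pow, hh, hgd, map_mul, map_pow, inv_pow,
      IsScalarTower.algebraMap_apply R₁ K₁ L₁]
    field_simp
  have hadj₁' : IntermediateField.adjoin K₁ ({h'} : Set L₁) = ⊤ := by
    rw [eq_top_iff, ← hadj₁, IntermediateField.adjoin_le_iff]
    intro z hz
    rw [Set.mem_singleton_iff] at hz
    subst hz
    have h1 : h' ∈ IntermediateField.adjoin K₁ ({h'} : Set L₁) :=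
      IntermediateField.subset_adjoin K₁ _ (Set.mem_singleton h')
    have h2 : algebraMap K₁ L₁ d₀ ∈ IntermediateField.adjoin K₁ ({h'} : Set L₁) :=
      IntermediateField.algebraMap_mem _ d₀
    have : z = h' * algebraMap K₁ L₁ d₀ := by
      rw [hh']; field_simp
    rw [this]
    exact mul_mem h1 h2
  have hadj₂' : IntermediateField.adjoin K₂ ({algebraMap L₁ L₂ h'} : Set L₂) = ⊤ := by
    obtain ⟨d', hd'⟩ := hK d₀
    rw [eq_top_iff, ← hadj₂, IntermediateField.adjoin_le_iff]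
    intro z hz
    rw [Set.mem_singleton_iff] at hz
    subst hz
    have h1 : algebraMap L₁ L₂ h' ∈
        IntermediateField.adjoin K₂ ({algebraMap L₁ L₂ h'} : Set L₂) :=
      IntermediateField.subset_adjoin K₂ _ (Set.mem_singleton _)
    have h2 : algebraMap K₂ L₂ d' ∈
        IntermediateField.adjoin K₂ ({algebraMap L₁ L₂ h'} : Set L₂) :=
      IntermediateField.algebraMap_mem _ d'
    have : algebraMap L₁ L₂ h = algebraMap L₁ L₂ h' * algebraMap K₂ L₂ d' := by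
      rw [hd', ← map_mul, hh']
      congr 1
      field_simp
    rw [this]
    exact mul_mem h1 h2
  -- (2) cyclotomic data
  obtain ⟨ε, hε, hlamp⟩ := Fermat.Agent.Ribet.H224.wpn_lam_pow hp hζ
  -- (3) the cover node rings
  obtain ⟨R', R'', hloc', hloc'', ⟨hic', hno', hfr', hN', hc₁', hc₂'⟩,
      ⟨hic'', hno'', hfr'', hN'', hc₁'', hc₂''⟩, hsub⟩ :=
    Fermat.Agent.Ribet.H939.coverNode2 R₁ R₂ K₁ K₂ L₁ L₂ 𝔭₁ 𝔭₂ π₁ x₁ y₁ hN₁ 𝔮₁ 𝔮₂ π₂ x₂ y₂ hN₂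
      hk₁ hk₂ hinj hb₁ hb₂ p hp ζ hζ (ζ - 1) ε η e rfl hε hlamp hη he hlam g hg₁ hg₂ hgdiv
      hgs₁ hgs₂ h' hh'p hadj₁' hadj₂'
  haveI := hloc'
  haveI := hloc''
  haveI := hic'
  haveI := hno'
  haveI := hfr'
  haveI := hic''
  haveI := hno''
  haveI := hfr''
  -- (4) the branch valuations of `u₁` at `R'`
  obtain ⟨w₁, hw₁⟩ := exists_valAt (K := L₁) (vertData_left hN') hu₁
  obtain ⟨w₂, hw₂⟩ := exists_valAt (K := L₁) (vertData_right hN') hu₁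
  have hdvd := hcong R' hloc' hic' hno' hfr' hN' hc₁' hc₂' w₁ w₂ hw₁ hw₂
  -- (5) (A3) at `R'`
  have hD' : I6.IsUnitPair (𝔭₁.map (algebraMap R₁ R')) (𝔭₂.map (algebraMap R₁ R'))
      (algebraMap R₁ R' π₁) (algebraMap R₁ R' D) (algebraMap R₁ R' D') N :=
    ⟨by rw [← map_mul, hD.mul_eq, map_pow], fun hm => hD.hD (hc₁' _ hm),
      fun hm => hD.hD' (hc₂' _ hm)⟩
  have hdiv' : I6.HorDivVal L₁ (algebraMap R₁ R' π₁) p u₁ := by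
    intro V hV hR hπ
    exact hu₁div V hV (fun r => hR (algebraMap R₁ R' r)) hπ
  obtain ⟨d, a, ε₁, hd, hε₁, hu₁eq⟩ :=
    Fermat.Agent.Ribet.H7.nodePureTame R' L₁ _ _ _ _ _ hN' p N hp.ne_zero hNp _ _ hD' u₁ hu₁
      hdiv' w₁ w₂ hw₁ hw₂ hdvd
  -- (6) transport to `R''`
  obtain ⟨ε₁', hε₁'⟩ := hε₁.exists_right_inv
  set z : R'' := ⟨algebraMap L₁ L₂ (ε₁ : L₁), hsub _ ε₁.2⟩ with hz
  set z' : R'' := ⟨algebraMap L₁ L₂ (ε₁' : L₁), hsub _ ε₁'.2⟩ with hz'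
  have hzz' : z * z' = 1 := by
    apply Subtype.ext
    show algebraMap L₁ L₂ (ε₁ : L₁) * algebraMap L₁ L₂ (ε₁' : L₁) = 1
    rw [← map_mul]
    have : (ε₁ : L₁) * (ε₁' : L₁) = 1 := congrArg (fun t : R' => (t : L₁)) hε₁'
    rw [this, map_one]
  have hzu : IsUnit z := IsUnit.of_mul_eq_one _ hzz'
  set U₁ : R''ˣ := (hε₂.map (algebraMap R₂ R'')).unit with hU₁
  set U₂ : R''ˣ := (hη₂.map (algebraMap R₂ R'')).unit with hU₂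
  set U₃ : R''ˣ := hzu.unit with hU₃
  have hU₂a : (((U₂ ^ a : R''ˣ) : R'') : L₂) = (algebraMap R₂ L₂ η₂) ^ a := by
    have h1 := map_zpow (Units.map ((algebraMap R'' L₂ : R'' →+* L₂) : R'' →* L₂)) U₂ a
    have h2 := congrArg (fun t : L₂ˣ => (t : L₂)) h1
    simp only [Units.coe_map, Units.val_zpow_eq_zpow_val] at h2
    exact h2
  have hπ₁ : algebraMap L₁ L₂ (algebraMap R₁ L₁ π₁) =
      algebraMap R₂ L₂ η₂ * (algebraMap R₂ L₂ π₂) ^ e₂ := by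
    rw [← IsScalarTower.algebraMap_apply R₁ L₁ L₂, IsScalarTower.algebraMap_apply R₁ R₂ L₂, hπ,
      map_mul, map_pow]
  have hη₂0 : algebraMap R₂ L₂ η₂ ≠ 0 := by
    obtain ⟨η₂', hη₂'⟩ := hη₂.exists_right_inv
    intro h0
    have := congrArg (algebraMap R₂ L₂) hη₂'
    rw [map_mul, h0, zero_mul, map_one] at this
    exact zero_ne_one this
  have hπ₂0 : algebraMap R₂ L₂ π₂ ≠ 0 := by
    rw [IsScalarTower.algebraMap_apply R₂ K₂ L₂]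
    exact (map_ne_zero _).2
      ((map_ne_zero_iff _ (IsFractionRing.injective R₂ K₂)).2 (isNode_pi_ne_zero hN₂))
  refine Fermat.Agent.Ribet.H699.pureDescent R₂ K₂ L₂ 𝔮₁ 𝔮₂ π₂ x₂ y₂ hN₂ R'' hloc'' hic'' hno''
    hfr'' hN'' hc₁'' hc₂'' p hp.ne_zero u₂ hu₂ hu₂div
    ⟨algebraMap L₁ L₂ d * b, j + e₂ * a, ((U₁ * U₂ ^ a * U₃ : R''ˣ) : R''),
      mul_ne_zero ((map_ne_zero _).2 hd) hb, Units.isUnit _, ?_⟩
  have hu₁eq' : u₁ = (algebraMap R₁ L₁ π₁) ^ a * (ε₁ : L₁) * d ^ p := hu₁eq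
  have hcoe : (((U₁ * U₂ ^ a * U₃ : R''ˣ) : R'') : L₂) =
      algebraMap R₂ L₂ ε₂ * (algebraMap R₂ L₂ η₂) ^ a * algebraMap L₁ L₂ (ε₁ : L₁) := by
    have : (((U₁ * U₂ ^ a * U₃ : R''ˣ) : R'') : L₂) =
        ((U₁ : R'') : L₂) * (((U₂ ^ a : R''ˣ) : R'') : L₂) * ((U₃ : R'') : L₂) := rfl
    rw [this, hU₂a]
    rfl
  rw [hrel, hcoe, hu₁eq', map_mul, map_mul, map_zpow₀, map_pow, hπ₁, mul_zpow, zpow_add₀ hπ₂0,
    zpow_mul, mul_pow]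
  simp only [zpow_natCast]
  ring

end Node2

end Fermat.Agent.Ribet.H132
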